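import Mathlib

/-!
# S53, part B: Burnside's theorem in dimension 2

`Fermat.Agent.S53.Burnside.subalgebra_eq_top`: a subalgebra of `End_K V` (`K` algebraically closed,
`dim V = 2`) acting irreducibly on `V` is everything.
-/

set_option autoImplicit false

namespace Fermat.Agent.S53.Burnside

open Module

variable {K V : Type*} [Field K] [AddCommGroup V] [Module K V]

/-- Burnside in dimension two: an irreducible subalgebra of `End V` is everything. -/
theorem subalgebra_eq_top [IsAlgClosed K] (hV : finrank K V = 2)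
    (B : Subalgebra K (Module.End K V))
    (irr : ∀ W : Submodule K V, (∀ b ∈ B, ∀ x ∈ W, b x ∈ W) → W = ⊥ ∨ W = ⊤) :
    B = ⊤ := by
  have : FiniteDimensional K V := Module.finite_of_finrank_eq_succ hV
  have : Nontrivial V := Module.nontrivial_of_finrank_eq_succ hV
  -- a line is never stable
  have hline : ∀ v : V, v ≠ 0 → ∃ b ∈ B, b v ∉ Submodule.span K {v} := by
    intro v hv
    by_contra hcon
    push Not at hcon
    have hst : ∀ b ∈ B, ∀ x ∈ Submodule.span K {v}, b x ∈ Submodule.span K {v} := by
      intro b hb x hx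
      obtain ⟨c, rfl⟩ := Submodule.mem_span_singleton.mp hx
      rw [map_smul]
      exact Submodule.smul_mem _ _ (hcon b hb)
    have h1 : finrank K (Submodule.span K {v}) = 1 := finrank_span_singleton hv
    rcases irr _ hst with h | h
    · rw [h] at h1; simp at h1
    · rw [h, finrank_top, hV] at h1; omega
  obtain ⟨v, hv⟩ := exists_ne (0 : V)
  obtain ⟨b₀, hb₀, hb₀v⟩ := hline v hv
  obtain ⟨μ, hμ⟩ := Module.End.exists_eigenvalue b₀
  obtain ⟨y₂, hy₂⟩ := hμ.exists_hasEigenvector
  set a : Module.End K V := b₀ - algebraMap K _ μ with ha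
  have haB : a ∈ B := B.sub_mem hb₀ (B.algebraMap_mem μ)
  have hay₂ : a y₂ = 0 := by
    have := hy₂.apply_eq_smul
    simp [ha, this]
  have hy₂0 : y₂ ≠ 0 := hy₂.2
  have hav : a v ≠ 0 := by
    intro h
    apply hb₀v
    have : b₀ v = μ • v := by
      have : b₀ v - μ • v = 0 := by simpa [ha] using h
      exact sub_eq_zero.mp this
    rw [this]
    exact Submodule.smul_mem _ _ (Submodule.mem_span_singleton_self v)
  set x₁ := a v with hx₁
  -- range of a is the line spanned by x₁
  have hrange : ∀ w : V, ∃ c : K, a w = c • x₁ := by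
    have hker : 1 ≤ finrank K (LinearMap.ker a) := by
      rw [Nat.succ_le_iff, finrank_pos_iff_exists_ne_zero]
      exact ⟨⟨y₂, hay₂⟩, fun h => hy₂0 (congrArg Subtype.val h)⟩
    have hrk := LinearMap.finrank_range_add_finrank_ker a
    rw [hV] at hrk
    have hr1 : finrank K (LinearMap.range a) ≤ 1 := by omega
    intro w
    have hx₁mem : (⟨x₁, LinearMap.mem_range_self a v⟩ : LinearMap.range a) ≠ 0 := by
      intro h; exact hav (congrArg Subtype.val h)
    have hr1' : 1 ≤ finrank K (LinearMap.range a) := by
      rw [Nat.succ_le_iff, finrank_pos_iff_exists_ne_zero]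
      exact ⟨_, hx₁mem⟩
    have hr : finrank K (LinearMap.range a) = 1 := le_antisymm hr1 hr1'
    obtain ⟨c, hc⟩ := (finrank_eq_one_iff_of_nonzero' _ hx₁mem).mp hr
      ⟨a w, LinearMap.mem_range_self a w⟩
    exact ⟨c, (congrArg Subtype.val hc).symm⟩
  obtain ⟨b₁, hb₁, hb₁x⟩ := hline x₁ hav
  -- the "dual" irreducibility
  have hU : ∃ b₂ ∈ B, a (b₂ y₂) ≠ 0 := by
    by_contra hcon
    push Not at hcon
    let U : Submodule K V :=
      { carrier := {w | ∀ b ∈ B, a (b w) = 0}
        add_mem' := by
          intro w w' hw hw' b hb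
          rw [map_add, map_add, hw b hb, hw' b hb, add_zero]
        zero_mem' := by intro b _; simp
        smul_mem' := by
          intro c w hw b hb
          rw [map_smul, map_smul, hw b hb, smul_zero] }
    have hUst : ∀ b ∈ B, ∀ x ∈ U, b x ∈ U := by
      intro b hb x hx b' hb'
      have := hx (b' * b) (B.mul_mem hb' hb)
      simpa using this
    rcases irr U hUst with h | h
    · have : y₂ ∈ U := hcon
      rw [h] at this
      exact hy₂0 ((Submodule.mem_bot K).mp this)
    · have : v ∈ U := by rw [h]; trivial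
      have := this 1 B.one_mem
      exact hav (by simpa using this)
  obtain ⟨b₂, hb₂, hz⟩ := hU
  obtain ⟨d, hd⟩ := hrange (b₂ y₂)
  have hd0 : d ≠ 0 := by
    intro h; apply hz; rw [hd, h, zero_smul]
  -- x₁, b₁ x₁ are linearly independent
  have hli : ∀ α β : K, α • x₁ + β • b₁ x₁ = 0 → α = 0 ∧ β = 0 := by
    intro α β h
    have hβ : β = 0 := by
      by_contra hβ
      apply hb₁x
      have : b₁ x₁ = (-(β⁻¹ * α)) • x₁ := by
        have h' : β • b₁ x₁ = -(α • x₁) := eq_neg_of_add_eq_zero_right h
        calc b₁ x₁ = β⁻¹ • (β • b₁ x₁) := by rw [smul_smul, inv_mul_cancel₀ hβ, one_smul]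
          _ = (-(β⁻¹ * α)) • x₁ := by rw [h', smul_neg, smul_smul, neg_smul]
      rw [this]
      exact Submodule.smul_mem _ _ (Submodule.mem_span_singleton_self x₁)
    refine ⟨?_, hβ⟩
    rw [hβ, zero_smul, add_zero] at h
    exact (smul_eq_zero.mp h).resolve_right hav
  -- four linearly independent elements of B
  have hfour : LinearIndependent K ![a, b₁ * a, a * b₂, b₁ * a * b₂] := by
    rw [Fintype.linearIndependent_iff]
    intro g hg
    simp only [Fin.sum_univ_four, Matrix.cons_val_zero, Matrix.cons_val_one,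
      Matrix.cons_val] at hg
    have e2 := congrArg (fun f : Module.End K V => f y₂) hg
    simp only [LinearMap.add_apply, LinearMap.smul_apply, Module.End.mul_apply, hay₂, map_zero,
      smul_zero, zero_add, LinearMap.zero_apply, hd, map_smul] at e2
    have h34 := hli (g 2 * d) (g 3 * d) (by
      rw [← e2]; simp only [smul_smul])
    have hg2 : g 2 = 0 := (mul_eq_zero.mp h34.1).resolve_right hd0
    have hg3 : g 3 = 0 := (mul_eq_zero.mp h34.2).resolve_right hd0
    have e1 := congrArg (fun f : Module.End K V => f v) hg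
    simp only [LinearMap.add_apply, LinearMap.smul_apply, Module.End.mul_apply, hg2, hg3,
      zero_smul, add_zero, LinearMap.zero_apply] at e1
    have h12 := hli (g 0) (g 1) e1
    intro i
    fin_cases i
    · exact h12.1
    · exact h12.2
    · exact hg2
    · exact hg3
  have hmem : ∀ i, ![a, b₁ * a, a * b₂, b₁ * a * b₂] i ∈ Subalgebra.toSubmodule B := by
    intro i
    fin_cases i
    · exact haB
    · exact B.mul_mem hb₁ haB
    · exact B.mul_mem haB hb₂
    · exact B.mul_mem (B.mul_mem hb₁ haB) hb₂
  have hspan : Submodule.span K (Set.range ![a, b₁ * a, a * b₂, b₁ * a * b₂]) ≤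
      Subalgebra.toSubmodule B := Submodule.span_le.mpr (by rintro _ ⟨i, rfl⟩; exact hmem i)
  have hfr : finrank K (Submodule.span K (Set.range ![a, b₁ * a, a * b₂, b₁ * a * b₂])) = 4 := by
    rw [finrank_span_eq_card hfour]; simp
  have hEnd : finrank K (Module.End K V) = 4 := by
    rw [Module.finrank_linearMap, hV]
  have htop : Submodule.span K (Set.range ![a, b₁ * a, a * b₂, b₁ * a * b₂]) = ⊤ :=
    Submodule.eq_top_of_finrank_eq (by rw [hfr, hEnd])
  rw [htop] at hspan
  exact Subalgebra.toSubmodule_injective (by rw [Algebra.top_toSubmodule]; exact top_le_iff.mp hspan)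

end Fermat.Agent.S53.Burnside
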