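import Mathlib
import Fermat.Prelude.Def_GaloisRep_Residual
import Fermat.Agent.S53.BurnsideTwo

/-!
# S53, part B: Burnside for an absolutely irreducible residual representation

* `Fermat.Agent.S53.Burnside.span_range_eq_top`: the `k`-span of `ρbar(G)` is all of `End_k V`.
* `Fermat.Agent.S53.Burnside.exists_finsupp_eq`: every endomorphism is a finite `k`-combination of
  `ρbar(g)`'s.
-/

set_option autoImplicit false

namespace Fermat.Agent.S53.Burnside

open Module TensorProduct

variable {k : Type} [Field k]

/-- descent of "span = ⊤" along a field extension, via dimension count -/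
theorem span_eq_top_of_baseChange {k K V : Type*} [Field k] [Field K] [Algebra k K]
    [AddCommGroup V] [Module k V] [Module.Finite k V] {ι : Type*} (r : ι → Module.End k V)
    (h : Submodule.span K (Set.range fun i => (r i).baseChange K) = ⊤) :
    Submodule.span k (Set.range r) = ⊤ := by
  set S := Submodule.span k (Set.range r) with hS
  by_contra hne
  have hlt : finrank k S < finrank k (Module.End k V) :=
    Submodule.finrank_lt hne
  let bS := Module.finBasis k S
  -- the base changes of the basis vectors span everything
  have hle : Submodule.span K (Set.range fun i => (r i).baseChange K) ≤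
      Submodule.span K (Set.range fun j => ((bS j : Module.End k V)).baseChange K) := by
    rw [Submodule.span_le]
    rintro _ ⟨i, rfl⟩
    have hri : r i ∈ S := Submodule.subset_span ⟨i, rfl⟩
    have hsum : r i = ∑ j, (bS.repr ⟨r i, hri⟩ j) • (bS j : Module.End k V) := by
      have h0 := congrArg Subtype.val (bS.sum_repr ⟨r i, hri⟩)
      simp only [AddSubmonoidClass.coe_finsetSum, SetLike.val_smul] at h0
      exact h0.symm
    have hbc : (r i).baseChange K =
        ∑ j, (algebraMap k K (bS.repr ⟨r i, hri⟩ j)) •
          ((bS j : Module.End k V)).baseChange K := by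
      conv_lhs => rw [hsum]
      rw [← LinearMap.baseChangeHom_apply k K, map_sum]
      refine Finset.sum_congr rfl fun j _ => ?_
      rw [map_smul, LinearMap.baseChangeHom_apply, algebraMap_smul]
    change (r i).baseChange K ∈ _
    rw [hbc]
    exact Submodule.sum_mem _ fun j _ =>
      Submodule.smul_mem _ _ (Submodule.subset_span ⟨j, rfl⟩)
  rw [h, top_le_iff] at hle
  have h1 : finrank K (Submodule.span K
      (Set.range fun j => ((bS j : Module.End k V)).baseChange K)) ≤ finrank k S := by
    refine (finrank_range_le_card _).trans ?_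
    simp
  rw [hle, finrank_top] at h1
  have h2 : finrank K (K ⊗[k] V →ₗ[K] K ⊗[k] V) = finrank k (V →ₗ[k] V) := by
    rw [Module.finrank_linearMap, Module.finrank_linearMap, Module.finrank_baseChange]
  have h3 : finrank k S < finrank k (V →ₗ[k] V) := hlt
  have h4 : finrank K (K ⊗[k] V →ₗ[K] K ⊗[k] V) ≤ finrank k S := h1
  omega

/-- Burnside: the span of the image of an absolutely irreducible residual representation is
everything. -/
theorem span_range_eq_top (ρbar : ResidualGaloisRep k) (habs : ρbar.IsAbsolutelyIrreducible) :
    Submodule.span k (Set.range ρbar.ρ) = ⊤ := by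
  set K := AlgebraicClosure k
  apply span_eq_top_of_baseChange (K := K)
  have hV : finrank K (K ⊗[k] ρbar.V) = 2 := by
    rw [Module.finrank_baseChange, ρbar.finrank_eq]
  let ρK : (AlgebraicClosure ℚ ≃ₐ[ℚ] AlgebraicClosure ℚ) →* Module.End K (K ⊗[k] ρbar.V) :=
    (ρbar.baseChange K).ρ
  have hρK : ∀ σ, ρK σ = (ρbar.ρ σ).baseChange K := fun σ => rfl
  have key := subalgebra_eq_top hV (Algebra.adjoin K (Set.range ρK)) (by
    intro W hW
    exact habs W fun σ x hx => hW _ (Algebra.subset_adjoin ⟨σ, rfl⟩) x hx)
  have h2 : Subalgebra.toSubmodule (Algebra.adjoin K (Set.range ρK)) =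
      Submodule.span K (Set.range ρK) := by
    rw [Algebra.adjoin_eq_span]
    congr 1
    have : Set.range ρK = ((MonoidHom.mrange ρK : Submonoid _) : Set _) := by
      ext x; simp
    rw [this, Submonoid.closure_eq]
  rw [key, Algebra.top_toSubmodule] at h2
  rw [h2]
  rfl

/-- every endomorphism of `ρbar.V` is a finite linear combination of `ρbar(g)`'s. -/
theorem exists_finsupp_eq (ρbar : ResidualGaloisRep k) (habs : ρbar.IsAbsolutelyIrreducible)
    (t : Module.End k ρbar.V) :
    ∃ c : (AlgebraicClosure ℚ ≃ₐ[ℚ] AlgebraicClosure ℚ) →₀ k,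
      (c.sum fun g a => a • ρbar.ρ g) = t := by
  have h : t ∈ Submodule.span k (Set.range ρbar.ρ) := by
    rw [span_range_eq_top ρbar habs]; trivial
  exact Finsupp.mem_span_range_iff_exists_finsupp.mp h

end Fermat.Agent.S53.Burnside
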