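/-
S53 (universal deformation ring exists): SHARED DEFINITIONS.
Everything lives in namespace `Fermat.Agent.S53`.  Keep this file small and stable:
other S53 files import it.  (Owner: helper53.)
-/
import Fermat.Statements.S53

set_option autoImplicit false

namespace Fermat.Agent.S53

open IsLocalRing

/-- The absolute Galois group of `ℚ` (as used by the prelude). -/
abbrev Gal : Type := AlgebraicClosure ℚ ≃ₐ[ℚ] AlgebraicClosure ℚ

/-- `2 × 2` matrices. -/
abbrev M2 (A : Type) : Type := Matrix (Fin 2) (Fin 2) A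

section Cont

variable (A : Type) [CommRing A] [IsLocalRing A]

/-- Adic continuity of a matrix representation: for every `n` the representation is
trivial modulo `𝔪 ^ n` on an open subgroup. -/
def MatCont (r : Gal →* M2 A) : Prop :=
  ∀ n : ℕ, ∃ L : IntermediateField ℚ (AlgebraicClosure ℚ), FiniteDimensional ℚ L ∧
    ∀ σ : Gal, (∀ x ∈ L, σ x = x) → ∀ i j, (r σ - 1) i j ∈ maximalIdeal A ^ n

variable {A}

/-- The `GaloisRepAdic` attached to a continuous matrix representation, on `V = Fin 2 → A`. -/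
noncomputable abbrev ofMatrix (r : Gal →* M2 A) (hr : MatCont A r) : GaloisRepAdic A where
  V := Fin 2 → A
  finrank_eq := by simp
  ρ := (Matrix.toLinAlgEquiv' (R := A) (n := Fin 2) : M2 A →* Module.End A (Fin 2 → A)).comp r
  isAdicContinuous := by
    intro n
    obtain ⟨L, hL, h⟩ := hr n
    refine ⟨L, hL, fun σ hσ v => ?_⟩
    have hv : (Matrix.toLinAlgEquiv' (R := A) (n := Fin 2) (r σ)) v - v
        = ∑ j, ∑ i, ((r σ - 1) i j * v j) • (Pi.single i (1 : A) : Fin 2 → A) := by
      ext l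
      simp [Matrix.toLinAlgEquiv'_apply, Fin.sum_univ_two,
        Matrix.sub_apply, Pi.single_apply, Matrix.one_apply]
      fin_cases l <;> simp <;> ring
    show (Matrix.toLinAlgEquiv' (R := A) (n := Fin 2) (r σ)) v - v ∈ _
    rw [hv]
    refine Submodule.sum_mem _ fun j _ => Submodule.sum_mem _ fun i _ => ?_
    exact Submodule.smul_mem_smul (Ideal.mul_mem_right _ _ (h σ hσ i j)) Submodule.mem_top

@[simp] lemma ofMatrix_V (r : Gal →* M2 A) (hr : MatCont A r) : (ofMatrix r hr).V = (Fin 2 → A) := rfl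

lemma ofMatrix_ρ_apply (r : Gal →* M2 A) (hr : MatCont A r) (σ : Gal) (v : Fin 2 → A) :
    (ofMatrix r hr).ρ σ v = (r σ).mulVec v := rfl

end Cont

section Lift

variable (𝒪 : Type) [CommRing 𝒪] [IsLocalRing 𝒪]
variable (A : Type) [CommRing A] [IsLocalRing A] [Algebra 𝒪 A]

/-- `A` is a local `𝒪`-algebra with the same residue field (the part of
`IsArtinianTestAlgebra` that does not mention artinianity). -/
structure IsResAlg : Prop where
  isLocalHom : IsLocalHom (algebraMap 𝒪 A)
  residue_surjective : Function.Surjective (IsLocalRing.residue A ∘ algebraMap 𝒪 A)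

variable {𝒪}

/-- `r` reduces to `ρm` modulo the maximal ideal (entrywise, through `𝒪`). -/
def Framed (ρm : Gal →* M2 (ResidueField 𝒪)) (r : Gal →* M2 A) : Prop :=
  ∀ σ i j, ∀ x : 𝒪, IsLocalRing.residue 𝒪 x = ρm σ i j →
    r σ i j - algebraMap 𝒪 A x ∈ maximalIdeal A

variable {A}

/-- Evaluate a representation on a formal `𝒪`-linear combination of group elements. -/
noncomputable def evalAt (r : Gal →* M2 A) (e : Gal →₀ 𝒪) : M2 A :=
  e.sum fun σ c => algebraMap 𝒪 A c • r σ

/-- The rigidity normalisation (helper76's normal form): `r(e)₂₁ = 0`, `r(u)₁₁ = 0`, `r(u)₂₁ = 1`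
(indices in `Fin 2 = {0,1}`: entry `₂₁` is `1 0`). -/
def Rigid (e u : Gal →₀ 𝒪) (r : Gal →* M2 A) : Prop :=
  evalAt r e 1 0 = 0 ∧ evalAt r u 0 0 = 0 ∧ evalAt r u 1 0 = 1

variable (A)

/-- A framed continuous lift of `ρm` to `A` satisfying the deformation condition `𝒟`. -/
def IsDLift (𝒟 : ∀ ⦃A : Type⦄ [CommRing A] [IsLocalRing A] [Algebra 𝒪 A], GaloisRepAdic A → Prop)
    (ρm : Gal →* M2 (ResidueField 𝒪)) (r : Gal →* M2 A) : Prop :=
  Framed A ρm r ∧ ∃ hc : MatCont A r, 𝒟 (ofMatrix r hc)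

end Lift

/-- Conjugacy of matrix representations by an invertible matrix. -/
def Conj {A : Type} [CommRing A] (r r' : Gal →* M2 A) : Prop :=
  ∃ g : M2 A, IsUnit g ∧ ∀ σ, g * r σ = r' σ * g

/-- The residual datum: `ρbar` written as a matrix representation in a basis, together with the
two rigidifying elements `e`, `u` of the group algebra with `ρm(e) = E₁₁`, `ρm(u) = E₂₁`. -/
structure RigidDatum (𝒪 : Type) [CommRing 𝒪] [IsLocalRing 𝒪]
    (ρbar : ResidualGaloisRep (ResidueField 𝒪)) where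
  /-- a basis of the residual representation space -/
  b : Module.Basis (Fin 2) (ResidueField 𝒪) ρbar.V
  /-- the matrix form of `ρbar` -/
  ρm : Gal →* M2 (ResidueField 𝒪)
  ρm_eq : ∀ σ, ρm σ = LinearMap.toMatrix b b (ρbar.ρ σ)
  e : Gal →₀ 𝒪
  u : Gal →₀ 𝒪
  /-- `ρm(e) = E₁₁` -/
  he : evalAt ρm e = Matrix.single 0 0 1
  /-- `ρm(u) = E₂₁` -/
  hu : evalAt ρm u = Matrix.single 1 0 1

end Fermat.Agent.S53
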