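/-
S53, part D0: the universal ring `URing 𝒪` of `2 × 2` matrix representations of `Gal` over `𝒪`
(polynomial ring on the matrix entries modulo the multiplicativity relations), its tautological
representation `taut`, and the classifying map `ulift r : URing 𝒪 →ₐ[𝒪] A` of a representation
`r : Gal →* M2 A`.  (Owner: helper27.)
-/
import Fermat.Agent.S53.Defs

set_option autoImplicit false

noncomputable section

namespace Fermat.Agent.S53

open IsLocalRing

/-- Push a matrix representation forward along a ring homomorphism. -/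
def mapRep {A B : Type} [CommRing A] [CommRing B] (f : A →+* B) (r : Gal →* M2 A) :
    Gal →* M2 B :=
  (f.mapMatrix (m := Fin 2) : M2 A →* M2 B).comp r

@[simp] lemma mapRep_apply {A B : Type} [CommRing A] [CommRing B] (f : A →+* B)
    (r : Gal →* M2 A) (σ : Gal) (i j : Fin 2) : mapRep f r σ i j = f (r σ i j) := rfl

lemma mapRep_apply' {A B : Type} [CommRing A] [CommRing B] (f : A →+* B)
    (r : Gal →* M2 A) (σ : Gal) : mapRep f r σ = (r σ).map f := rfl

lemma mapRep_comp {A B C : Type} [CommRing A] [CommRing B] [CommRing C] (f : A →+* B)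
    (g : B →+* C) (r : Gal →* M2 A) : mapRep (g.comp f) r = mapRep g (mapRep f r) := by
  ext σ i j; rfl

lemma mapRep_id {A : Type} [CommRing A] (r : Gal →* M2 A) : mapRep (RingHom.id A) r = r := by
  ext σ i j; rfl

section

variable (𝒪 : Type) [CommRing 𝒪]

/-- The polynomial ring on the matrix entries `X (σ, i, j)`. -/
abbrev PolyRing : Type := MvPolynomial (Gal × Fin 2 × Fin 2) 𝒪

/-- The generic matrix attached to `σ`. -/
def genMat (σ : Gal) : M2 (PolyRing 𝒪) :=
  Matrix.of fun i j => MvPolynomial.X (σ, i, j)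

/-- The multiplicativity relations. -/
def relSet : Set (PolyRing 𝒪) :=
  {p | ∃ σ τ i j, p = (genMat 𝒪 (σ * τ) - genMat 𝒪 σ * genMat 𝒪 τ) i j} ∪
    {p | ∃ i j, p = (genMat 𝒪 1 - 1) i j}

/-- The ideal of multiplicativity relations. -/
def relIdeal : Ideal (PolyRing 𝒪) := Ideal.span (relSet 𝒪)

/-- The universal ring of `2 × 2` matrix representations of `Gal` over `𝒪`. -/
abbrev URing : Type := PolyRing 𝒪 ⧸ relIdeal 𝒪

/-- The tautological representation over `URing 𝒪`. -/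
def taut : Gal →* M2 (URing 𝒪) where
  toFun σ := (genMat 𝒪 σ).map (Ideal.Quotient.mk (relIdeal 𝒪))
  map_one' := by
    ext i j
    have h : (genMat 𝒪 1 - 1) i j ∈ relIdeal 𝒪 :=
      Ideal.subset_span (Or.inr ⟨i, j, rfl⟩)
    have h2 := Ideal.Quotient.eq_zero_iff_mem.mpr h
    rw [Matrix.sub_apply, map_sub, sub_eq_zero] at h2
    rw [Matrix.map_apply, h2, Matrix.one_apply, Matrix.one_apply]
    split_ifs <;> simp
  map_mul' σ τ := by
    ext i j
    have h : (genMat 𝒪 (σ * τ) - genMat 𝒪 σ * genMat 𝒪 τ) i j ∈ relIdeal 𝒪 :=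
      Ideal.subset_span (Or.inl ⟨σ, τ, i, j, rfl⟩)
    have h2 := Ideal.Quotient.eq_zero_iff_mem.mpr h
    rw [Matrix.sub_apply, map_sub, sub_eq_zero] at h2
    rw [Matrix.map_apply, h2, ← Matrix.map_mul, Matrix.map_apply]

lemma taut_apply (σ : Gal) (i j : Fin 2) :
    taut 𝒪 σ i j = Ideal.Quotient.mk (relIdeal 𝒪) (MvPolynomial.X (σ, i, j)) := rfl

variable {𝒪}
variable {A : Type} [CommRing A] [Algebra 𝒪 A]

/-- Evaluation of polynomials at the entries of a representation. -/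
def polyEval (r : Gal →* M2 A) : PolyRing 𝒪 →ₐ[𝒪] A :=
  MvPolynomial.aeval fun x : Gal × Fin 2 × Fin 2 => r x.1 x.2.1 x.2.2

lemma polyEval_X (r : Gal →* M2 A) (σ : Gal) (i j : Fin 2) :
    polyEval (𝒪 := 𝒪) r (MvPolynomial.X (σ, i, j)) = r σ i j := by
  simp [polyEval]

lemma polyEval_genMat (r : Gal →* M2 A) (σ : Gal) :
    (genMat 𝒪 σ).map (polyEval (𝒪 := 𝒪) r) = r σ := by
  ext i j
  simp [genMat, polyEval_X]

lemma relIdeal_le_ker (r : Gal →* M2 A) :
    relIdeal 𝒪 ≤ RingHom.ker (polyEval (𝒪 := 𝒪) r : PolyRing 𝒪 →+* A) := by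
  rw [relIdeal, Ideal.span_le]
  rintro p (⟨σ, τ, i, j, rfl⟩ | ⟨i, j, rfl⟩)
  · rw [SetLike.mem_coe, RingHom.mem_ker]
    have h1 : ((genMat 𝒪 (σ * τ) - genMat 𝒪 σ * genMat 𝒪 τ).map (polyEval (𝒪 := 𝒪) r)) i j = 0 := by
      rw [Matrix.map_sub (f := polyEval (𝒪 := 𝒪) r) (map_sub _),
        Matrix.map_mul, polyEval_genMat, polyEval_genMat, polyEval_genMat, map_mul, sub_self]
      rfl
    exact h1
  · rw [SetLike.mem_coe, RingHom.mem_ker]
    have h1 : ((genMat 𝒪 1 - 1).map (polyEval (𝒪 := 𝒪) r)) i j = 0 := by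
      rw [Matrix.map_sub (f := polyEval (𝒪 := 𝒪) r) (map_sub _), polyEval_genMat, map_one,
        Matrix.map_one _ (map_zero _) (map_one _), sub_self]
      rfl
    exact h1

/-- The classifying map of a representation `r : Gal →* M2 A`. -/
def ulift (r : Gal →* M2 A) : URing 𝒪 →ₐ[𝒪] A :=
  Ideal.Quotient.liftₐ (relIdeal 𝒪) (polyEval r)
    (fun _ ha => RingHom.mem_ker.mp (relIdeal_le_ker r ha))

@[simp] lemma ulift_taut (r : Gal →* M2 A) (σ : Gal) (i j : Fin 2) :
    ulift (𝒪 := 𝒪) r (taut 𝒪 σ i j) = r σ i j := by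
  rw [taut_apply]
  exact (Ideal.Quotient.liftₐ_apply _ _ _ _).trans
    ((Ideal.Quotient.lift_mk _ _ _).trans (polyEval_X r σ i j))

lemma mapRep_ulift (r : Gal →* M2 A) :
    mapRep (ulift (𝒪 := 𝒪) r : URing 𝒪 →+* A) (taut 𝒪) = r := by
  ext σ i j
  simp

/-- Two `𝒪`-algebra maps out of `URing 𝒪` agreeing on the entries of `taut` are equal. -/
lemma uring_algHom_ext {f g : URing 𝒪 →ₐ[𝒪] A}
    (h : ∀ σ i j, f (taut 𝒪 σ i j) = g (taut 𝒪 σ i j)) : f = g := by
  apply Ideal.Quotient.algHom_ext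
  apply MvPolynomial.algHom_ext
  rintro ⟨σ, i, j⟩
  exact h σ i j

lemma ulift_unique (r : Gal →* M2 A) (f : URing 𝒪 →ₐ[𝒪] A)
    (h : mapRep (f : URing 𝒪 →+* A) (taut 𝒪) = r) : f = ulift r := by
  apply uring_algHom_ext
  intro σ i j
  rw [ulift_taut, ← h]
  rfl

/-- The entries of `taut` generate `URing 𝒪` as an `𝒪`-algebra. -/
lemma adjoin_taut_eq_top :
    Algebra.adjoin 𝒪 {x : URing 𝒪 | ∃ σ i j, x = taut 𝒪 σ i j} = ⊤ := by
  rw [eq_top_iff]
  rintro x -
  obtain ⟨p, rfl⟩ := Ideal.Quotient.mk_surjective x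
  induction p using MvPolynomial.induction_on with
  | C a =>
    have : (Ideal.Quotient.mk (relIdeal 𝒪)) (MvPolynomial.C a) = algebraMap 𝒪 (URing 𝒪) a := rfl
    rw [this]
    exact Subalgebra.algebraMap_mem _ a
  | add p q hp hq =>
    rw [map_add]
    exact Subalgebra.add_mem _ hp hq
  | mul_X p x hp =>
    rw [map_mul]
    exact Subalgebra.mul_mem _ hp (Algebra.subset_adjoin ⟨x.1, x.2.1, x.2.2, rfl⟩)

end

end Fermat.Agent.S53

end
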