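/-
S53 part A: matrix interface between `Gal →* M2 A` and `GaloisRepAdic A`.
-/
import Fermat.Agent.S53.Defs
import Fermat.Agent.S53.URing

set_option autoImplicit false

namespace Fermat.Agent.S53

open IsLocalRing TensorProduct

section MapCont

variable {A B : Type} [CommRing A] [IsLocalRing A] [CommRing B] [IsLocalRing B]

lemma map_maximalIdeal_pow_le (φ : A →+* B) (hφ : IsLocalHom φ) (n : ℕ) {a : A}
    (ha : a ∈ maximalIdeal A ^ n) : φ a ∈ maximalIdeal B ^ n := by
  have hmap : (maximalIdeal A ^ n).map φ ≤ maximalIdeal B ^ n := by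
    rw [Ideal.map_pow]
    exact Ideal.pow_right_mono (Ideal.map_le_iff_le_comap.mpr fun a ha =>
      Ideal.mem_comap.mpr (haveI := hφ; map_nonunit φ a ha)) n
  exact hmap (Ideal.mem_map_of_mem φ ha)

lemma MatCont.map {r : Gal →* M2 A} (hr : MatCont A r) (φ : A →+* B) (hφ : IsLocalHom φ) :
    MatCont B (mapRep φ r) := by
  intro n
  obtain ⟨L, hL, h⟩ := hr n
  refine ⟨L, hL, fun σ hσ i j => ?_⟩
  have := map_maximalIdeal_pow_le φ hφ n (h σ hσ i j)
  have h2 : (mapRep φ r σ - 1) i j = φ ((r σ - 1) i j) := by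
    simp only [Matrix.sub_apply, mapRep_apply, map_sub, Matrix.one_apply]
    split_ifs <;> simp
  rw [h2]; exact this

end MapCont

section BaseChange

variable {A B : Type} [CommRing A] [IsLocalRing A] [CommRing B] [IsLocalRing B]

/-- auxiliary computation for (A1) -/
lemma piScalarRight_baseChange_mulVec (φ : A →+* B) (M : M2 A) :
    letI : Algebra A B := φ.toAlgebra
    ∀ x : B ⊗[A] (Fin 2 → A),
      TensorProduct.piScalarRight A B B (Fin 2)
        ((Matrix.toLinAlgEquiv' (R := A) (n := Fin 2) M).baseChange B x) =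
      (M.map φ).mulVec (TensorProduct.piScalarRight A B B (Fin 2) x) := by
  letI : Algebra A B := φ.toAlgebra
  intro x
  induction x using TensorProduct.induction_on with
  | zero => simp only [map_zero, Matrix.mulVec_zero]
  | tmul b v =>
    rw [LinearMap.baseChange_tmul, TensorProduct.piScalarRight_apply,
      TensorProduct.piScalarRightHom_tmul, TensorProduct.piScalarRight_apply,
      TensorProduct.piScalarRightHom_tmul]
    ext i
    have e : ∀ a : A, algebraMap A B a = φ a := fun a => rfl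
    simp only [Matrix.toLinAlgEquiv'_apply, Matrix.mulVec, dotProduct, Fin.sum_univ_two,
      Matrix.map_apply, Algebra.smul_def, e, map_add, map_mul]
    ring
  | add x y hx hy => simp only [map_add, hx, hy, Matrix.mulVec_add]

/-- (A1) Base change of `ofMatrix r` is `ofMatrix (φ ∘ r)`. -/
noncomputable def ofMatrixBaseChangeEquiv (φ : A →+* B) (hφ : IsLocalHom φ) (r : Gal →* M2 A)
    (hr : MatCont A r) :
    GaloisRepAdic.Equiv ((ofMatrix r hr).baseChangeAlong φ hφ) (ofMatrix (mapRep φ r) (hr.map φ hφ)) :=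
  letI : Algebra A B := φ.toAlgebra
  { toLinearEquiv := (TensorProduct.piScalarRight A B B (Fin 2) : B ⊗[A] (Fin 2 → A) ≃ₗ[B] (Fin 2 → B))
    map_apply := fun σ x => piScalarRight_baseChange_mulVec φ (r σ) x }

lemma ofMatrix_baseChangeAlong_isEquiv (φ : A →+* B) (hφ : IsLocalHom φ) (r : Gal →* M2 A)
    (hr : MatCont A r) (hr' : MatCont B (mapRep φ r)) :
    ((ofMatrix r hr).baseChangeAlong φ hφ).IsEquiv (ofMatrix (mapRep φ r) hr') :=
  ⟨ofMatrixBaseChangeEquiv φ hφ r hr⟩

end BaseChange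

section Basis

variable {A : Type} [CommRing A] [IsLocalRing A]

lemma coord_mem_of_mem_smul_top {V : Type} [AddCommGroup V] [Module A V]
    (b : Module.Basis (Fin 2) A V) (I : Ideal A) {x : V} (hx : x ∈ I • (⊤ : Submodule A V))
    (i : Fin 2) : b.repr x i ∈ I := by
  refine Submodule.smul_induction_on (p := fun x => b.repr x i ∈ I) hx ?_ ?_
  · intro a ha w _
    simp only [map_smul, Finsupp.smul_apply, smul_eq_mul]
    exact Ideal.mul_mem_right _ _ ha
  · intro x y hx hy
    simp only [map_add, Finsupp.add_apply]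
    exact Ideal.add_mem _ hx hy

/-- The matrix representation of `ρ` in a basis. -/
noncomputable def matOfBasis (ρ : GaloisRepAdic A) (b : Module.Basis (Fin 2) A ρ.V) : Gal →* M2 A :=
  ((LinearMap.toMatrixAlgEquiv b : Module.End A ρ.V ≃ₐ[A] M2 A) : Module.End A ρ.V →* M2 A).comp ρ.ρ

lemma matOfBasis_apply (ρ : GaloisRepAdic A) (b : Module.Basis (Fin 2) A ρ.V) (σ : Gal) :
    matOfBasis ρ b σ = LinearMap.toMatrix b b (ρ.ρ σ) := rfl

lemma matOfBasis_cont (ρ : GaloisRepAdic A) (b : Module.Basis (Fin 2) A ρ.V) :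
    MatCont A (matOfBasis ρ b) := by
  intro n
  obtain ⟨L, hL, h⟩ := ρ.isAdicContinuous n
  refine ⟨L, hL, fun σ hσ i j => ?_⟩
  have := coord_mem_of_mem_smul_top b _ (h σ hσ (b j)) i
  have h2 : (matOfBasis ρ b σ - 1) i j = b.repr (ρ.ρ σ (b j) - b j) i := by
    simp only [Matrix.sub_apply, matOfBasis_apply, LinearMap.toMatrix_apply, map_sub,
      Finsupp.sub_apply, Matrix.one_apply, Module.Basis.repr_self, Finsupp.single_apply]
    congr 1
    by_cases hij : i = j
    · simp [hij]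
    · simp [hij, Ne.symm hij]
  rw [h2]; exact this

/-- (A2) `ρ` is equivalent to its matrix form in any basis. -/
noncomputable def equivOfBasis (ρ : GaloisRepAdic A) (b : Module.Basis (Fin 2) A ρ.V) :
    GaloisRepAdic.Equiv ρ (ofMatrix (matOfBasis ρ b) (matOfBasis_cont ρ b)) where
  toLinearEquiv := b.equivFun
  map_apply := fun σ x => by
    rw [ofMatrix_ρ_apply, matOfBasis_apply]
    exact (LinearMap.toMatrix_mulVec_repr b b (ρ.ρ σ) x).symm

/-- some basis of the underlying module -/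
noncomputable def someBasis (ρ : GaloisRepAdic A) : Module.Basis (Fin 2) A ρ.V :=
  Module.finBasisOfFinrankEq A ρ.V ρ.finrank_eq

lemma exists_ofMatrix_isEquiv (ρ : GaloisRepAdic A) :
    ∃ (r : Gal →* M2 A) (hr : MatCont A r), ρ.IsEquiv (ofMatrix r hr) :=
  ⟨_, _, ⟨equivOfBasis ρ (someBasis ρ)⟩⟩

end Basis

section ConjSec

variable {A : Type} [CommRing A] [IsLocalRing A]

/-- (A3), one direction. -/
lemma conj_of_isEquiv {r r' : Gal →* M2 A} {hr : MatCont A r} {hr' : MatCont A r'}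
    (h : (ofMatrix r hr).IsEquiv (ofMatrix r' hr')) : Conj r r' := by
  obtain ⟨e⟩ := h
  let E : (Fin 2 → A) ≃ₗ[A] (Fin 2 → A) := e.toLinearEquiv
  refine ⟨LinearMap.toMatrix' (E : (Fin 2 → A) →ₗ[A] (Fin 2 → A)), ?_, fun σ => ?_⟩
  · refine ⟨⟨LinearMap.toMatrix' (E : (Fin 2 → A) →ₗ[A] (Fin 2 → A)),
      LinearMap.toMatrix' (E.symm : (Fin 2 → A) →ₗ[A] (Fin 2 → A)), ?_, ?_⟩, rfl⟩
    · rw [← LinearMap.toMatrix'_comp]; simp
    · rw [← LinearMap.toMatrix'_comp]; simp
  · have h1 : ∀ x : Fin 2 → A, E ((r σ).mulVec x) = (r' σ).mulVec (E x) := fun x => e.map_apply σ x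
    apply Matrix.toLin'.injective
    apply LinearMap.ext
    intro x
    simp only [Matrix.toLin'_mul, Matrix.toLin'_toMatrix', LinearMap.comp_apply, Matrix.toLin'_apply]
    exact h1 x

/-- (A3), other direction. -/
lemma isEquiv_of_conj {r r' : Gal →* M2 A} (hr : MatCont A r) (hr' : MatCont A r')
    (h : Conj r r') : (ofMatrix r hr).IsEquiv (ofMatrix r' hr') := by
  obtain ⟨g, ⟨u, rfl⟩, hg⟩ := h
  refine ⟨{ toLinearEquiv := LinearEquiv.ofLinear (Matrix.toLin' (u : M2 A))
              (Matrix.toLin' ((u⁻¹ : (M2 A)ˣ) : M2 A)) ?_ ?_, map_apply := ?_ }⟩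
  · rw [← Matrix.toLin'_mul]; simp
  · rw [← Matrix.toLin'_mul]; simp
  · intro σ x
    show (u : M2 A).mulVec ((r σ).mulVec x) = (r' σ).mulVec ((u : M2 A).mulVec x)
    rw [Matrix.mulVec_mulVec, Matrix.mulVec_mulVec, hg σ]

lemma Conj.refl {A : Type} [CommRing A] (r : Gal →* M2 A) : Conj r r :=
  ⟨1, isUnit_one, fun σ => by simp⟩

lemma Conj.symm {A : Type} [CommRing A] {r r' : Gal →* M2 A} (h : Conj r r') : Conj r' r := by
  obtain ⟨g, ⟨u, rfl⟩, hg⟩ := h
  refine ⟨((u⁻¹ : (M2 A)ˣ) : M2 A), ⟨u⁻¹, rfl⟩, fun σ => ?_⟩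
  have := hg σ
  calc ((u⁻¹ : (M2 A)ˣ) : M2 A) * r' σ
      = ((u⁻¹ : (M2 A)ˣ) : M2 A) * (r' σ * (u : M2 A)) * ((u⁻¹ : (M2 A)ˣ) : M2 A) := by
        rw [mul_assoc, mul_assoc, Units.mul_inv, mul_one]
    _ = r σ * ((u⁻¹ : (M2 A)ˣ) : M2 A) := by
        rw [← this, ← mul_assoc, Units.inv_mul, one_mul]

lemma Conj.trans {A : Type} [CommRing A] {r r' r'' : Gal →* M2 A} (h : Conj r r')
    (h' : Conj r' r'') : Conj r r'' := by
  obtain ⟨g, hgu, hg⟩ := h
  obtain ⟨g', hgu', hg'⟩ := h'
  refine ⟨g' * g, hgu'.mul hgu, fun σ => ?_⟩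
  rw [mul_assoc, hg σ, ← mul_assoc, hg' σ, mul_assoc]

lemma Conj.map {A B : Type} [CommRing A] [IsLocalRing A] [CommRing B] [IsLocalRing B]
    {r r' : Gal →* M2 A} (h : Conj r r') (φ : A →+* B) : Conj (mapRep φ r) (mapRep φ r') := by
  obtain ⟨g, hgu, hg⟩ := h
  refine ⟨φ.mapMatrix g, hgu.map φ.mapMatrix, fun σ => ?_⟩
  show φ.mapMatrix g * φ.mapMatrix (r σ) = φ.mapMatrix (r' σ) * φ.mapMatrix g
  rw [← map_mul, ← map_mul, hg σ]

end ConjSec

section ConjRep

variable {A : Type} [CommRing A]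

/-- Conjugate a matrix representation by an invertible matrix. -/
noncomputable def conjRep (u : (M2 A)ˣ) (r : Gal →* M2 A) : Gal →* M2 A where
  toFun σ := (u : M2 A) * r σ * ((u⁻¹ : (M2 A)ˣ) : M2 A)
  map_one' := by simp
  map_mul' σ τ := by
    rw [map_mul]
    calc (u : M2 A) * (r σ * r τ) * ((u⁻¹ : (M2 A)ˣ) : M2 A)
        = (u : M2 A) * r σ * (((u⁻¹ : (M2 A)ˣ) : M2 A) * (u : M2 A)) * r τ
            * ((u⁻¹ : (M2 A)ˣ) : M2 A) := by
          rw [Units.inv_mul, mul_one]; simp only [mul_assoc]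
      _ = _ := by simp only [mul_assoc]

lemma conjRep_apply (u : (M2 A)ˣ) (r : Gal →* M2 A) (σ : Gal) :
    conjRep u r σ = (u : M2 A) * r σ * ((u⁻¹ : (M2 A)ˣ) : M2 A) := rfl

lemma conj_conjRep (u : (M2 A)ˣ) (r : Gal →* M2 A) : Conj r (conjRep u r) :=
  ⟨u, ⟨u, rfl⟩, fun σ => by rw [conjRep_apply, mul_assoc, mul_assoc, Units.inv_mul, mul_one]⟩

lemma Conj.exists_conjRep {r r' : Gal →* M2 A} (h : Conj r r') : ∃ u : (M2 A)ˣ, r' = conjRep u r := by
  obtain ⟨g, ⟨u, rfl⟩, hg⟩ := h
  refine ⟨u, MonoidHom.ext fun σ => ?_⟩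
  rw [conjRep_apply, hg σ, mul_assoc, Units.mul_inv, mul_one]

lemma matrix_mul_mem_ideal_left {I : Ideal A} (g : M2 A) {X : M2 A} (hX : ∀ i j, X i j ∈ I)
    (i j : Fin 2) : (g * X) i j ∈ I := by
  rw [Matrix.mul_apply]
  exact Ideal.sum_mem _ fun l _ => Ideal.mul_mem_left _ _ (hX l j)

lemma matrix_mul_mem_ideal_right {I : Ideal A} (g : M2 A) {X : M2 A} (hX : ∀ i j, X i j ∈ I)
    (i j : Fin 2) : (X * g) i j ∈ I := by
  rw [Matrix.mul_apply]
  exact Ideal.sum_mem _ fun l _ => Ideal.mul_mem_right _ _ (hX i l)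

lemma MatCont.conj [IsLocalRing A] {r : Gal →* M2 A} (hr : MatCont A r) (u : (M2 A)ˣ) :
    MatCont A (conjRep u r) := by
  intro n
  obtain ⟨L, hL, h⟩ := hr n
  refine ⟨L, hL, fun σ hσ i j => ?_⟩
  have h2 : conjRep u r σ - 1 = (u : M2 A) * (r σ - 1) * ((u⁻¹ : (M2 A)ˣ) : M2 A) := by
    rw [conjRep_apply, mul_sub, sub_mul, mul_one, Units.mul_inv]
  rw [h2]
  exact matrix_mul_mem_ideal_right _ (fun i j => matrix_mul_mem_ideal_left _ (h σ hσ) i j) i j

end ConjRep

section Residual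

variable {𝒪 : Type} [CommRing 𝒪] [IsLocalRing 𝒪]
variable {A : Type} [CommRing A] [IsLocalRing A] [Algebra 𝒪 A]

/-- `Framed` in terms of residue fields. -/
lemma framed_iff (ι : ResidueField 𝒪 →+* ResidueField A)
    (hι : ∀ x : 𝒪, ι (residue 𝒪 x) = residue A (algebraMap 𝒪 A x))
    (ρm : Gal →* M2 (ResidueField 𝒪)) (r : Gal →* M2 A) :
    Framed A ρm r ↔ ∀ σ, (r σ).map (residue A) = (ρm σ).map ι := by
  constructor
  · intro h σ
    ext i j
    obtain ⟨x, hx⟩ := IsLocalRing.residue_surjective (ρm σ i j)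
    have := h σ i j x hx
    rw [← residue_eq_zero_iff, map_sub, sub_eq_zero] at this
    simp only [Matrix.map_apply, this, ← hι, hx]
  · intro h σ i j x hx
    have := congrFun (congrFun (h σ) i) j
    simp only [Matrix.map_apply] at this
    rw [← residue_eq_zero_iff, map_sub, sub_eq_zero, this, ← hx, hι]

/-- auxiliary computation for the residual representation of `ofMatrix r` -/
lemma piScalarRight_residue_mulVec (M : M2 A) :
    ∀ x : ResidueField A ⊗[A] (Fin 2 → A),
      TensorProduct.piScalarRight A (ResidueField A) (ResidueField A) (Fin 2)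
        ((Matrix.toLinAlgEquiv' (R := A) (n := Fin 2) M).baseChange (ResidueField A) x) =
      (M.map (residue A)).mulVec
        (TensorProduct.piScalarRight A (ResidueField A) (ResidueField A) (Fin 2) x) := by
  intro x
  induction x using TensorProduct.induction_on with
  | zero => simp only [map_zero, Matrix.mulVec_zero]
  | tmul b v =>
    rw [LinearMap.baseChange_tmul, TensorProduct.piScalarRight_apply,
      TensorProduct.piScalarRightHom_tmul, TensorProduct.piScalarRight_apply,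
      TensorProduct.piScalarRightHom_tmul]
    ext i
    have e : ∀ a : A, algebraMap A (ResidueField A) a = residue A a := fun a => rfl
    simp only [Matrix.toLinAlgEquiv'_apply, Matrix.mulVec, dotProduct, Fin.sum_univ_two,
      Matrix.map_apply, Algebra.smul_def, e, map_add, map_mul]
    ring
  | add x y hx hy => simp only [map_add, hx, hy, Matrix.mulVec_add]

/-- (R1) the residual representation of `ofMatrix r` in matrix form -/
noncomputable def residualMatEquiv (r : Gal →* M2 A) (hr : MatCont A r) :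
    (ofMatrix r hr).residual.V ≃ₗ[ResidueField A] (Fin 2 → ResidueField A) :=
  (TensorProduct.piScalarRight A (ResidueField A) (ResidueField A) (Fin 2) :
    ResidueField A ⊗[A] (Fin 2 → A) ≃ₗ[ResidueField A] (Fin 2 → ResidueField A))

lemma residualMatEquiv_apply (r : Gal →* M2 A) (hr : MatCont A r) (σ : Gal)
    (x : (ofMatrix r hr).residual.V) :
    residualMatEquiv r hr ((ofMatrix r hr).residual.ρ σ x) =
      ((r σ).map (residue A)).mulVec (residualMatEquiv r hr x) :=
  piScalarRight_residue_mulVec (r σ) x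

variable {ρbar : ResidualGaloisRep (ResidueField 𝒪)}

/-- auxiliary computation for the base change of `ρbar` -/
lemma piScalarRight_bar_mulVec (D : RigidDatum 𝒪 ρbar) (ι : ResidueField 𝒪 →+* ResidueField A)
    (σ : Gal) :
    letI : Algebra (ResidueField 𝒪) (ResidueField A) := ι.toAlgebra
    ∀ x : ResidueField A ⊗[ResidueField 𝒪] ρbar.V,
      ((D.b.equivFun.baseChange (ResidueField 𝒪) (ResidueField A) _ _) ≪≫ₗ
        TensorProduct.piScalarRight (ResidueField 𝒪) (ResidueField A) (ResidueField A) (Fin 2))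
        ((ρbar.ρ σ).baseChange (ResidueField A) x) =
      ((D.ρm σ).map ι).mulVec
        (((D.b.equivFun.baseChange (ResidueField 𝒪) (ResidueField A) _ _) ≪≫ₗ
          TensorProduct.piScalarRight (ResidueField 𝒪) (ResidueField A) (ResidueField A) (Fin 2)) x) := by
  letI : Algebra (ResidueField 𝒪) (ResidueField A) := ι.toAlgebra
  intro x
  induction x using TensorProduct.induction_on with
  | zero => simp only [map_zero, Matrix.mulVec_zero]
  | tmul c v =>
    simp only [LinearEquiv.trans_apply, LinearMap.baseChange_tmul, LinearEquiv.baseChange_tmul,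
      TensorProduct.piScalarRight_apply, TensorProduct.piScalarRightHom_tmul]
    have hrepr : D.b.equivFun (ρbar.ρ σ v) = (D.ρm σ).mulVec (D.b.equivFun v) := by
      rw [D.ρm_eq]
      exact (LinearMap.toMatrix_mulVec_repr D.b D.b (ρbar.ρ σ) v).symm
    rw [hrepr]
    ext i
    have e : ∀ a : ResidueField 𝒪, algebraMap (ResidueField 𝒪) (ResidueField A) a = ι a :=
      fun a => rfl
    simp only [Matrix.mulVec, dotProduct, Fin.sum_univ_two,
      Matrix.map_apply, Algebra.smul_def, e, map_add, map_mul]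
    ring
  | add x y hx hy => simp only [map_add, hx, hy, Matrix.mulVec_add]

/-- (R2) the base change of `ρbar` in matrix form -/
noncomputable def barMatEquiv (D : RigidDatum 𝒪 ρbar) (ι : ResidueField 𝒪 →+* ResidueField A) :
    (ρbar.baseChangeAlong ι).V ≃ₗ[ResidueField A] (Fin 2 → ResidueField A) :=
  letI : Algebra (ResidueField 𝒪) (ResidueField A) := ι.toAlgebra
  ((D.b.equivFun.baseChange (ResidueField 𝒪) (ResidueField A) _ _) ≪≫ₗ
        TensorProduct.piScalarRight (ResidueField 𝒪) (ResidueField A) (ResidueField A) (Fin 2))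

lemma barMatEquiv_apply (D : RigidDatum 𝒪 ρbar) (ι : ResidueField 𝒪 →+* ResidueField A) (σ : Gal)
    (x : (ρbar.baseChangeAlong ι).V) :
    barMatEquiv D ι ((ρbar.baseChangeAlong ι).ρ σ x) =
      ((D.ρm σ).map ι).mulVec (barMatEquiv D ι x) :=
  piScalarRight_bar_mulVec D ι σ x

/-- (A4b) a framed matrix lift has the right residual representation -/
lemma residual_isEquiv_of_framed (D : RigidDatum 𝒪 ρbar) (ι : ResidueField 𝒪 →+* ResidueField A)
    (hι : ∀ x : 𝒪, ι (residue 𝒪 x) = residue A (algebraMap 𝒪 A x))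
    (r : Gal →* M2 A) (hr : MatCont A r) (hf : Framed A D.ρm r) :
    (ofMatrix r hr).residual.IsEquiv (ρbar.baseChangeAlong ι) := by
  refine ⟨{ toLinearEquiv := (residualMatEquiv r hr).trans (barMatEquiv D ι).symm,
            map_apply := fun σ x => ?_ }⟩
  rw [LinearEquiv.trans_apply, LinearEquiv.trans_apply, residualMatEquiv_apply,
    (framed_iff ι hι D.ρm r).1 hf σ, LinearEquiv.symm_apply_eq, barMatEquiv_apply,
    LinearEquiv.apply_symm_apply]

lemma GaloisRepAdic_isEquiv_trans {B : Type} [CommRing B] [IsLocalRing B] {ρ₁ ρ₂ ρ₃ : GaloisRepAdic B}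
    (h : ρ₁.IsEquiv ρ₂) (h' : ρ₂.IsEquiv ρ₃) : ρ₁.IsEquiv ρ₃ := by
  obtain ⟨e⟩ := h
  obtain ⟨e'⟩ := h'
  exact ⟨e.trans e'⟩

lemma GaloisRepAdic_isEquiv_symm {B : Type} [CommRing B] [IsLocalRing B] {ρ₁ ρ₂ : GaloisRepAdic B}
    (h : ρ₁.IsEquiv ρ₂) : ρ₂.IsEquiv ρ₁ := by
  obtain ⟨e⟩ := h
  exact ⟨e.symm⟩

/-- lift an invertible matrix over the residue field to an invertible matrix -/
lemma exists_unit_lift (gbar : M2 (ResidueField A)) (hg : IsUnit gbar) :
    ∃ u : (M2 A)ˣ, (u : M2 A).map (residue A) = gbar ∧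
      ((u⁻¹ : (M2 A)ˣ) : M2 A).map (residue A) * gbar = 1 := by
  have hsurj := IsLocalRing.residue_surjective (R := A)
  choose f hf using hsurj
  let g : M2 A := Matrix.of fun i j => f (gbar i j)
  have hgmap : g.map (residue A) = gbar := by
    ext i j; simp [g, hf]
  have hdet : IsUnit g.det := by
    have h1 : residue A g.det = gbar.det := by
      rw [RingHom.map_det, RingHom.mapMatrix_apply, hgmap]
    have h2 : IsUnit gbar.det := (Matrix.isUnit_iff_isUnit_det _).1 hg
    rw [← h1] at h2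
    exact isUnit_of_map_unit (residue A) _ h2
  obtain ⟨u, hu⟩ := (Matrix.isUnit_iff_isUnit_det g).2 hdet
  refine ⟨u, by rw [hu, hgmap], ?_⟩
  have h3 : ((u⁻¹ : (M2 A)ˣ) : M2 A).map (residue A) * (u : M2 A).map (residue A) = 1 := by
    have := congrArg (fun M : M2 A => (residue A).mapMatrix M) (Units.inv_mul u)
    simpa [RingHom.mapMatrix_apply, Matrix.map_mul] using this
  rw [hu, hgmap] at h3
  exact h3

/-- (A4a) a representation with the right residual representation is equivalent to a framed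
matrix representation -/
lemma exists_framed_of_residual_isEquiv (D : RigidDatum 𝒪 ρbar)
    (ι : ResidueField 𝒪 →+* ResidueField A)
    (hι : ∀ x : 𝒪, ι (residue 𝒪 x) = residue A (algebraMap 𝒪 A x))
    (ρ : GaloisRepAdic A) (h : ρ.residual.IsEquiv (ρbar.baseChangeAlong ι)) :
    ∃ (r : Gal →* M2 A) (hr : MatCont A r), Framed A D.ρm r ∧ ρ.IsEquiv (ofMatrix r hr) := by
  obtain ⟨e⟩ := h
  set r₀ := matOfBasis ρ (someBasis ρ) with hr₀def
  have hr₀ : MatCont A r₀ := matOfBasis_cont ρ (someBasis ρ)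
  have e₀ : GaloisRepAdic.Equiv ρ (ofMatrix r₀ hr₀) := equivOfBasis ρ (someBasis ρ)
  have e' : ResidualGaloisRep.Equiv (ofMatrix r₀ hr₀).residual (ρbar.baseChangeAlong ι) :=
    e₀.residual.symm.trans e
  let E : (Fin 2 → ResidueField A) ≃ₗ[ResidueField A] (Fin 2 → ResidueField A) :=
    (residualMatEquiv r₀ hr₀).symm.trans (e'.toLinearEquiv.trans (barMatEquiv D ι))
  have hE : ∀ σ v, E (((r₀ σ).map (residue A)).mulVec v) = ((D.ρm σ).map ι).mulVec (E v) := by
    intro σ v
    obtain ⟨x, rfl⟩ := (residualMatEquiv r₀ hr₀).surjective v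
    rw [← residualMatEquiv_apply]
    simp only [E, LinearEquiv.trans_apply, LinearEquiv.symm_apply_apply]
    rw [e'.map_apply, barMatEquiv_apply]
  let gbar : M2 (ResidueField A) := LinearMap.toMatrix' (E : _ →ₗ[ResidueField A] _)
  have hgbar : IsUnit gbar := by
    refine ⟨⟨gbar, LinearMap.toMatrix' (E.symm : _ →ₗ[ResidueField A] _), ?_, ?_⟩, rfl⟩
    · rw [← LinearMap.toMatrix'_comp]; simp
    · rw [← LinearMap.toMatrix'_comp]; simp
  have hcomm : ∀ σ, gbar * (r₀ σ).map (residue A) = (D.ρm σ).map ι * gbar := by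
    intro σ
    apply Matrix.toLin'.injective
    apply LinearMap.ext
    intro x
    simp only [gbar, Matrix.toLin'_mul, Matrix.toLin'_toMatrix', LinearMap.comp_apply,
      Matrix.toLin'_apply]
    exact hE σ x
  obtain ⟨u, hu, hu'⟩ := exists_unit_lift gbar hgbar
  refine ⟨conjRep u r₀, hr₀.conj u, ?_, ?_⟩
  · rw [framed_iff ι hι]
    intro σ
    rw [conjRep_apply, Matrix.map_mul, Matrix.map_mul, hu, hcomm σ]
    have hu'' : gbar * ((u⁻¹ : (M2 A)ˣ) : M2 A).map (residue A) = 1 :=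
      mul_eq_one_comm.1 hu'
    rw [mul_assoc, hu'', mul_one]
  · exact GaloisRepAdic_isEquiv_trans ⟨e₀⟩ (isEquiv_of_conj hr₀ (hr₀.conj u) (conj_conjRep u r₀))

end Residual

end Fermat.Agent.S53
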