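import Fermat.Agent.S53.Defs
import Fermat.Agent.S53.BurnsideRep

/-!
# S53, part B: existence of a rigid datum

`Fermat.Agent.S53.nonempty_rigidDatum`: for an absolutely irreducible `ρbar` there are a basis and
elements `e u` of the group algebra `𝒪[G]` with `ρbar(e) = E₁₁`, `ρbar(u) = E₂₁`.
-/

set_option autoImplicit false

namespace Fermat.Agent.S53

open IsLocalRing

variable {𝒪 : Type} [CommRing 𝒪] [IsLocalRing 𝒪]

/-- a zero-preserving set-theoretic section of the residue map -/
noncomputable def Burnside.liftRes (x : ResidueField 𝒪) : 𝒪 :=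
  open Classical in if x = 0 then 0 else Function.surjInv (IsLocalRing.residue_surjective) x

lemma Burnside.liftRes_zero : Burnside.liftRes (0 : ResidueField 𝒪) = 0 := by
  simp [Burnside.liftRes]

lemma Burnside.residue_liftRes (x : ResidueField 𝒪) :
    IsLocalRing.residue 𝒪 (Burnside.liftRes x) = x := by
  unfold Burnside.liftRes
  split_ifs with h
  · simp [h]
  · exact Function.surjInv_eq _ x

/-- `evalAt` of the matrix form of `ρbar` at a lifted finsupp. -/
lemma Burnside.evalAt_mapRange (ρbar : ResidualGaloisRep (ResidueField 𝒪))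
    (b : Module.Basis (Fin 2) (ResidueField 𝒪) ρbar.V)
    (ρm : Gal →* M2 (ResidueField 𝒪)) (hρm : ∀ σ, ρm σ = LinearMap.toMatrix b b (ρbar.ρ σ))
    (c : Gal →₀ ResidueField 𝒪) :
    evalAt ρm (c.mapRange Burnside.liftRes Burnside.liftRes_zero) =
      LinearMap.toMatrix b b (c.sum fun g a => a • ρbar.ρ g) := by
  unfold evalAt
  rw [Finsupp.sum_mapRange_index (by intro σ; simp)]
  rw [Finsupp.sum, Finsupp.sum, map_sum]
  refine Finset.sum_congr rfl fun σ _ => ?_
  rw [map_smul, hρm, IsLocalRing.ResidueField.algebraMap_eq, Burnside.residue_liftRes]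

theorem nonempty_rigidDatum (ρbar : ResidualGaloisRep (ResidueField 𝒪))
    (habs : ρbar.IsAbsolutelyIrreducible) : Nonempty (RigidDatum 𝒪 ρbar) := by
  classical
  let b : Module.Basis (Fin 2) (ResidueField 𝒪) ρbar.V :=
    Module.finBasisOfFinrankEq _ _ ρbar.finrank_eq
  let ρm : Gal →* M2 (ResidueField 𝒪) :=
    ((LinearMap.toMatrixAlgEquiv b : Module.End (ResidueField 𝒪) ρbar.V ≃ₐ[ResidueField 𝒪]
      M2 (ResidueField 𝒪)) : Module.End (ResidueField 𝒪) ρbar.V →* M2 (ResidueField 𝒪)).comp
      ρbar.ρ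
  have hρm : ∀ σ, ρm σ = LinearMap.toMatrix b b (ρbar.ρ σ) := fun σ => rfl
  obtain ⟨ce, hce⟩ := Burnside.exists_finsupp_eq ρbar habs
    ((LinearMap.toMatrix b b).symm (Matrix.single 0 0 1))
  obtain ⟨cu, hcu⟩ := Burnside.exists_finsupp_eq ρbar habs
    ((LinearMap.toMatrix b b).symm (Matrix.single 1 0 1))
  refine ⟨{ b := b, ρm := ρm, ρm_eq := hρm
            e := ce.mapRange Burnside.liftRes Burnside.liftRes_zero
            u := cu.mapRange Burnside.liftRes Burnside.liftRes_zero
            he := ?_, hu := ?_ }⟩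
  · rw [Burnside.evalAt_mapRange ρbar b ρm hρm, hce, LinearEquiv.apply_symm_apply]
  · rw [Burnside.evalAt_mapRange ρbar b ρm hρm, hcu, LinearEquiv.apply_symm_apply]

end Fermat.Agent.S53
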