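import Fermat.Agent.S53.Defs

/-!
# S53, part C: the rigid normal form

* `Fermat.Agent.S53.evalAt_framed` : `evalAt` is compatible with reduction mod `𝔪`.
* `Fermat.Agent.S53.Rigid.eq_of_conj` : two framed rigid lifts that are conjugate are equal.
* `Fermat.Agent.S53.exists_rigid_conj` : over a complete local ring every framed lift is conjugate
  (by a matrix `≡ 1 mod 𝔪`) to a framed rigid lift.
-/

set_option autoImplicit false

namespace Fermat.Agent.S53

open IsLocalRing

section EvalAt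

variable {𝒪 : Type} [CommRing 𝒪] [IsLocalRing 𝒪]
variable {A : Type} [CommRing A] [IsLocalRing A] [Algebra 𝒪 A]

set_option linter.unusedSectionVars false

lemma evalAt_apply (r : Gal →* M2 A) (e : Gal →₀ 𝒪) (i j : Fin 2) :
    evalAt r e i j = e.sum fun σ c => algebraMap 𝒪 A c * r σ i j := by
  unfold evalAt
  rw [Finsupp.sum, Finsupp.sum, Matrix.sum_apply]
  rfl

lemma mul_evalAt (g : M2 A) (r : Gal →* M2 A) (e : Gal →₀ 𝒪) :
    g * evalAt r e = e.sum fun σ c => algebraMap 𝒪 A c • (g * r σ) := by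
  unfold evalAt
  rw [Finsupp.sum, Finsupp.sum, Finset.mul_sum]
  exact Finset.sum_congr rfl fun σ _ => by rw [Matrix.mul_smul]

lemma evalAt_mul (g : M2 A) (r : Gal →* M2 A) (e : Gal →₀ 𝒪) :
    evalAt r e * g = e.sum fun σ c => algebraMap 𝒪 A c • (r σ * g) := by
  unfold evalAt
  rw [Finsupp.sum, Finsupp.sum, Finset.sum_mul]
  exact Finset.sum_congr rfl fun σ _ => by rw [Matrix.smul_mul]

lemma mul_evalAt_eq_evalAt_mul {g : M2 A} {r r' : Gal →* M2 A}
    (h : ∀ σ, g * r σ = r' σ * g) (e : Gal →₀ 𝒪) :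
    g * evalAt r e = evalAt r' e * g := by
  rw [mul_evalAt, evalAt_mul]
  exact Finset.sum_congr rfl fun σ _ => by simp only [h]

/-- `evalAt` is compatible with reduction modulo the maximal ideal. -/
theorem evalAt_framed (hloc : IsLocalHom (algebraMap 𝒪 A))
    {ρm : Gal →* M2 (ResidueField 𝒪)} {r : Gal →* M2 A} (hf : Framed A ρm r)
    (e : Gal →₀ 𝒪) (i j : Fin 2) (x : 𝒪)
    (hx : IsLocalRing.residue 𝒪 x = evalAt ρm e i j) :
    evalAt r e i j - algebraMap 𝒪 A x ∈ maximalIdeal A := by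
  have hlift : ∀ σ : Gal, ∃ y : 𝒪, IsLocalRing.residue 𝒪 y = ρm σ i j := fun σ =>
    IsLocalRing.residue_surjective _
  choose y hy using hlift
  set z : 𝒪 := e.sum fun σ c => c * y σ with hz
  have hzres : IsLocalRing.residue 𝒪 z = evalAt ρm e i j := by
    rw [evalAt_apply, hz, Finsupp.sum, Finsupp.sum, map_sum]
    refine Finset.sum_congr rfl fun σ _ => ?_
    rw [map_mul, hy, IsLocalRing.ResidueField.algebraMap_eq]
  have h1 : evalAt r e i j - algebraMap 𝒪 A z ∈ maximalIdeal A := by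
    rw [evalAt_apply, hz, Finsupp.sum, Finsupp.sum, map_sum, ← Finset.sum_sub_distrib]
    refine Ideal.sum_mem _ fun σ _ => ?_
    rw [map_mul, ← mul_sub]
    exact Ideal.mul_mem_left _ _ (hf σ i j (y σ) (hy σ))
  have h2 : algebraMap 𝒪 A (z - x) ∈ maximalIdeal A := by
    have hzx : z - x ∈ maximalIdeal 𝒪 := by
      rw [← IsLocalRing.residue_eq_zero_iff, map_sub, hzres, hx, sub_self]
    rw [IsLocalRing.mem_maximalIdeal, mem_nonunits_iff] at hzx ⊢
    exact fun h => hzx (hloc.map_nonunit _ h)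
  have : evalAt r e i j - algebraMap 𝒪 A x =
      (evalAt r e i j - algebraMap 𝒪 A z) + algebraMap 𝒪 A (z - x) := by
    rw [map_sub]; ring
  rw [this]
  exact Ideal.add_mem _ h1 h2

end EvalAt

section Unique

variable {𝒪 : Type} [CommRing 𝒪] [IsLocalRing 𝒪]
variable {A : Type} [CommRing A] [IsLocalRing A] [Algebra 𝒪 A]

set_option linter.unusedSectionVars false in
/-- pure matrix form of the uniqueness of the rigid normal form -/
theorem scalar_of_intertwine {g X X' U U' : M2 A}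
    (hX : g * X = X' * g) (hU : g * U = U' * g)
    (hX10 : X 1 0 = 0) (hX'10 : X' 1 0 = 0)
    (hU00 : U 0 0 = 0) (hU10 : U 1 0 = 1) (hU'00 : U' 0 0 = 0) (hU'10 : U' 1 0 = 1)
    (hunit : IsUnit (X 0 0 - X' 1 1)) :
    g = g 0 0 • (1 : M2 A) := by
  have e1 := congrFun (congrFun hX 1) 0
  have e2 := congrFun (congrFun hU 0) 0
  have e3 := congrFun (congrFun hU 1) 0
  simp only [Matrix.mul_apply, Fin.sum_univ_two, hX10, hX'10, hU00, hU10, hU'00, hU'10,
    mul_zero, zero_mul, add_zero, zero_add, mul_one, one_mul] at e1 e2 e3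
  have hg10 : g 1 0 = 0 := by
    have : (X 0 0 - X' 1 1) * g 1 0 = 0 := by rw [sub_mul, mul_comm (X 0 0), e1]; ring
    exact (hunit.mul_right_eq_zero).mp this
  rw [hg10, mul_zero] at e2
  rw [hg10, mul_zero, add_zero] at e3
  ext i j
  fin_cases i <;> fin_cases j <;>
    simp [Matrix.smul_apply, Matrix.one_apply, hg10, e2, e3]

/-- Two framed rigid lifts which are conjugate are equal. -/
theorem Rigid.eq_of_conj (hloc : IsLocalHom (algebraMap 𝒪 A))
    {ρm : Gal →* M2 (ResidueField 𝒪)} {e u : Gal →₀ 𝒪}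
    (he : evalAt ρm e = Matrix.single 0 0 1)
    {r r' : Gal →* M2 A} (hf : Framed A ρm r) (hf' : Framed A ρm r')
    (hr : Rigid e u r) (hr' : Rigid e u r') (hc : Conj r r') : r = r' := by
  obtain ⟨g, hg, hgr⟩ := hc
  have hX := mul_evalAt_eq_evalAt_mul hgr e
  have hU := mul_evalAt_eq_evalAt_mul hgr u
  have h00 : evalAt r e 0 0 - 1 ∈ maximalIdeal A := by
    have := evalAt_framed hloc hf e 0 0 1 (by rw [he]; simp)
    simpa using this
  have h11 : evalAt r' e 1 1 ∈ maximalIdeal A := by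
    have := evalAt_framed hloc hf' e 1 1 0 (by rw [he]; simp)
    simpa using this
  have hunit : IsUnit (evalAt r e 0 0 - evalAt r' e 1 1) := by
    have hmem : (evalAt r e 0 0 - evalAt r' e 1 1) - 1 ∈ maximalIdeal A := by
      have : (evalAt r e 0 0 - evalAt r' e 1 1) - 1 =
          (evalAt r e 0 0 - 1) - evalAt r' e 1 1 := by ring
      rw [this]
      exact Ideal.sub_mem _ h00 h11
    by_contra hnu
    have h1 : (evalAt r e 0 0 - evalAt r' e 1 1) ∈ maximalIdeal A := hnu
    have : (1 : A) ∈ maximalIdeal A := by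
      have := Ideal.sub_mem _ h1 hmem
      simpa using this
    exact (Ideal.ne_top_iff_one _).mp (IsLocalRing.maximalIdeal.isMaximal A).ne_top this
  have hscal := scalar_of_intertwine hX hU hr.1 hr'.1 hr.2.1 hr.2.2 hr'.2.1 hr'.2.2 hunit
  have hg00 : IsUnit (g 0 0) := by
    obtain ⟨h', hgh'⟩ := hg.exists_right_inv
    rw [hscal] at hgh'
    have := congrFun (congrFun hgh' 0) 0
    simp only [Matrix.smul_mul, Matrix.one_mul, Matrix.smul_apply, smul_eq_mul,
      Matrix.one_apply_eq] at this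
    exact IsUnit.of_mul_eq_one _ this
  ext σ i j
  have h := hgr σ
  rw [hscal] at h
  simp only [Matrix.smul_mul, Matrix.one_mul, Matrix.mul_smul, Matrix.mul_one] at h
  have := congrFun (congrFun h i) j
  simp only [Matrix.smul_apply, smul_eq_mul] at this
  exact hg00.mul_left_cancel this

end Unique

end Fermat.Agent.S53

namespace Fermat.Agent.S53

open IsLocalRing Polynomial

section MatrixAux

variable {A : Type} [CommRing A]

/-- entries in an ideal ↔ zero in the matrix ring of the quotient -/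
lemma entries_mem_iff (I : Ideal A) (M : M2 A) :
    (∀ i j, M i j ∈ I) ↔ (Ideal.Quotient.mk I).mapMatrix M = 0 := by
  constructor
  · intro h
    ext i j
    simpa [Ideal.Quotient.eq_zero_iff_mem] using h i j
  · intro h i j
    have := congrFun (congrFun h i) j
    simpa [Ideal.Quotient.eq_zero_iff_mem] using this

lemma entries_sub_one_mem_iff (I : Ideal A) (M : M2 A) :
    (∀ i j, (M - 1) i j ∈ I) ↔ (Ideal.Quotient.mk I).mapMatrix M = 1 := by
  rw [entries_mem_iff, map_sub, map_one, sub_eq_zero]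

/-- conjugating by a unit which is `≡ 1` does not change anything mod `I`. -/
lemma mapMatrix_conj_eq (I : Ideal A) (G : (M2 A)ˣ)
    (hG : ∀ i j, ((G : M2 A) - 1) i j ∈ I) (M : M2 A) :
    (Ideal.Quotient.mk I).mapMatrix (((G⁻¹ : (M2 A)ˣ) : M2 A) * M * (G : M2 A)) = (Ideal.Quotient.mk I).mapMatrix M := by
  have h1 : (Ideal.Quotient.mk I).mapMatrix (G : M2 A) = 1 :=
    (entries_sub_one_mem_iff I _).mp hG
  have h2 : (Ideal.Quotient.mk I).mapMatrix ((G⁻¹ : (M2 A)ˣ) : M2 A) = 1 := by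
    have := congrArg (Ideal.Quotient.mk I).mapMatrix (Units.inv_mul G)
    rw [map_mul, h1, mul_one, map_one] at this
    exact this
  rw [map_mul, map_mul, h1, h2, one_mul, mul_one]

/-- if the first column of `M * G` is `G * col`, then the first column of `G⁻¹ * M * G` is
`col`. -/
lemma conj_col (G : (M2 A)ˣ) (M : M2 A) (col : Fin 2 → A)
    (h : ∀ i, (M * (G : M2 A)) i 0 = (G : M2 A) i 0 * col 0 + (G : M2 A) i 1 * col 1) (i : Fin 2) :
    (((G⁻¹ : (M2 A)ˣ) : M2 A) * M * (G : M2 A)) i 0 = col i := by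
  have h1 : (M * (G : M2 A)).mulVec (Pi.single 0 1) = (G : M2 A).mulVec col := by
    ext l
    rw [Matrix.mulVec_single_one, Matrix.col_apply, h l]
    simp [Matrix.mulVec, dotProduct, Fin.sum_univ_two]
  have h2 : (((G⁻¹ : (M2 A)ˣ) : M2 A) * M * (G : M2 A)).mulVec (Pi.single 0 1) = col := by
    rw [mul_assoc, ← Matrix.mulVec_mulVec, h1, Matrix.mulVec_mulVec, Units.inv_mul,
      Matrix.one_mulVec]
  have := congrFun h2 i
  rwa [Matrix.mulVec_single_one, Matrix.col_apply] at this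

end MatrixAux

section Exists

variable {A : Type} [CommRing A] [IsLocalRing A]

lemma isUnit_of_sub_one_mem {x : A} (h : x - 1 ∈ maximalIdeal A) : IsUnit x := by
  by_contra hnu
  have h1 : x ∈ maximalIdeal A := hnu
  have : (1 : A) ∈ maximalIdeal A := by
    have := Ideal.sub_mem _ h1 h
    simpa using this
  exact (Ideal.ne_top_iff_one _).mp (IsLocalRing.maximalIdeal.isMaximal A).ne_top this

/-- The normalising matrix: pure matrix form of the existence of the rigid normal form. -/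
theorem exists_normalizer [IsAdicComplete (maximalIdeal A) A] {X U : M2 A}
    (hX00 : X 0 0 - 1 ∈ maximalIdeal A) (hX10 : X 1 0 ∈ maximalIdeal A)
    (hX11 : X 1 1 ∈ maximalIdeal A)
    (hU00 : U 0 0 ∈ maximalIdeal A) (hU10 : U 1 0 - 1 ∈ maximalIdeal A) :
    ∃ G : (M2 A)ˣ, (∀ i j, ((G : M2 A) - 1) i j ∈ maximalIdeal A) ∧
      (((G⁻¹ : (M2 A)ˣ) : M2 A) * X * (G : M2 A)) 1 0 = 0 ∧ (((G⁻¹ : (M2 A)ˣ) : M2 A) * U * (G : M2 A)) 0 0 = 0 ∧
      (((G⁻¹ : (M2 A)ˣ) : M2 A) * U * (G : M2 A)) 1 0 = 1 := by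
  set a := X 0 0 with ha
  set b := X 0 1 with hb
  set c := X 1 0 with hc
  set d := X 1 1 with hd
  -- the characteristic polynomial
  let f : A[X] := (Polynomial.X - Polynomial.C a) * (Polynomial.X - Polynomial.C d) -
    Polynomial.C (b * c)
  have hfm : f.Monic := by
    refine Polynomial.Monic.sub_of_left ((monic_X_sub_C a).mul (monic_X_sub_C d)) ?_
    have h2 : ((Polynomial.X - Polynomial.C a) * (Polynomial.X - Polynomial.C d)).degree = 2 := by
      rw [(monic_X_sub_C d).degree_mul, degree_X_sub_C, degree_X_sub_C]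
      rfl
    rw [h2]
    exact lt_of_le_of_lt degree_C_le (by norm_num)
  have hfe : ∀ y : A, f.eval y = (y - a) * (y - d) - b * c := by
    intro y; simp [f]
  have hfd : f.derivative.eval 1 = (1 - d) + (1 - a) := by
    simp [f, derivative_mul]
  have h₁ : f.eval 1 ∈ maximalIdeal A := by
    rw [hfe]
    refine Ideal.sub_mem _ (Ideal.mul_mem_right _ _ ?_) (Ideal.mul_mem_left _ _ hX10)
    have : (1 : A) - a = -(a - 1) := by ring
    rw [this]; exact neg_mem hX00
  have h₂ : IsUnit (Ideal.Quotient.mk (maximalIdeal A) (f.derivative.eval 1)) := by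
    apply IsUnit.map
    apply isUnit_of_sub_one_mem
    rw [hfd]
    have : (1 - d) + (1 - a) - 1 = -d - (a - 1) := by ring
    rw [this]
    exact Ideal.sub_mem _ (neg_mem hX11) hX00
  obtain ⟨α, hα, hα1⟩ := HenselianRing.is_henselian (I := maximalIdeal A) f hfm 1 h₁ h₂
  have hα0 : (α - a) * (α - d) - b * c = 0 := by rw [← hfe]; exact hα
  -- δ = d - α is a unit
  have hδ : IsUnit (α - d) := by
    apply isUnit_of_sub_one_mem
    have : α - d - 1 = (α - 1) - d := by ring
    rw [this]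
    exact Ideal.sub_mem _ hα1 hX11
  obtain ⟨δ, hδe⟩ := hδ
  set t : A := c * ↑δ⁻¹ with ht
  have htm : t ∈ maximalIdeal A := Ideal.mul_mem_right _ _ hX10
  have htδ : t * (α - d) = c := by
    rw [ht, ← hδe, mul_assoc, Units.inv_mul, mul_one]
  -- eigenvector equations
  have hE1 : c + d * t = α * t := by
    have : α * t - d * t = c := by rw [← sub_mul, mul_comm, htδ]
    rw [← this]; ring
  have hE2 : a + b * t = α := by
    have h : (a + b * t - α) * (α - d) = 0 := by
      have : (a + b * t - α) * (α - d) = -((α - a) * (α - d) - b * (t * (α - d))) := by ring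
      rw [this, htδ, hα0, neg_zero]
    have := (IsUnit.mul_left_eq_zero ⟨δ, hδe⟩).mp h
    exact sub_eq_zero.mp this
  set p := U 0 0 with hp
  set q := U 0 1 with hq
  set s := U 1 0 with hs
  set v := U 1 1 with hv
  let g₀ : M2 A := !![1, p + q * t; t, s + v * t]
  have hdet : IsUnit g₀.det := by
    apply isUnit_of_sub_one_mem
    rw [Matrix.det_fin_two_of]
    have : 1 * (s + v * t) - (p + q * t) * t - 1 = (s - 1) + (v - (p + q * t)) * t := by ring
    rw [this]
    exact Ideal.add_mem _ hU10 (Ideal.mul_mem_left _ _ htm)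
  obtain ⟨G, hG⟩ := (Matrix.isUnit_iff_isUnit_det g₀).mpr hdet
  have hG00 : (G : M2 A) 0 0 = 1 := by rw [hG]; rfl
  have hG01 : (G : M2 A) 0 1 = p + q * t := by rw [hG]; rfl
  have hG10 : (G : M2 A) 1 0 = t := by rw [hG]; rfl
  have hG11 : (G : M2 A) 1 1 = s + v * t := by rw [hG]; rfl
  refine ⟨G, ?_, ?_, ?_, ?_⟩
  · intro i j
    fin_cases i <;> fin_cases j
    · simp [Matrix.sub_apply, hG00]
    · simpa [Matrix.sub_apply, hG01] using
        Ideal.add_mem _ hU00 (Ideal.mul_mem_left _ q htm)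
    · simpa [Matrix.sub_apply, hG10] using htm
    · have : s + v * t - 1 = (s - 1) + v * t := by ring
      simpa [Matrix.sub_apply, hG11, this] using
        Ideal.add_mem _ hU10 (Ideal.mul_mem_left _ v htm)
  · refine conj_col G X ![α, 0] ?_ 1
    intro i
    fin_cases i
    · simp [Matrix.mul_apply, Fin.sum_univ_two, hG00, hG10, ← ha, ← hb, hE2]
    · simp [Matrix.mul_apply, Fin.sum_univ_two, hG00, hG10, ← hc, ← hd, hE1, mul_comm]
  · refine conj_col G U ![0, 1] ?_ 0
    intro i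
    fin_cases i
    · simp [Matrix.mul_apply, Fin.sum_univ_two, hG00, hG10, hG01, ← hp, ← hq]
    · simp [Matrix.mul_apply, Fin.sum_univ_two, hG00, hG10, hG11, ← hs, ← hv]
  · refine conj_col G U ![0, 1] ?_ 1
    intro i
    fin_cases i
    · simp [Matrix.mul_apply, Fin.sum_univ_two, hG00, hG10, hG01, ← hp, ← hq]
    · simp [Matrix.mul_apply, Fin.sum_univ_two, hG00, hG10, hG11, ← hs, ← hv]

end Exists

end Fermat.Agent.S53

namespace Fermat.Agent.S53

open IsLocalRing

section Conj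

variable {A : Type} [CommRing A]

/-- conjugate of a matrix representation by a unit: `σ ↦ G⁻¹ r(σ) G`. -/
noncomputable def conjHom (G : (M2 A)ˣ) (r : Gal →* M2 A) : Gal →* M2 A where
  toFun σ := ((G⁻¹ : (M2 A)ˣ) : M2 A) * r σ * (G : M2 A)
  map_one' := by rw [map_one, mul_one, Units.inv_mul]
  map_mul' σ τ := by
    rw [map_mul]
    calc ((G⁻¹ : (M2 A)ˣ) : M2 A) * (r σ * r τ) * (G : M2 A)
        = ((G⁻¹ : (M2 A)ˣ) : M2 A) * r σ * ((G : M2 A) * ((G⁻¹ : (M2 A)ˣ) : M2 A)) * r τ *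
            (G : M2 A) := by rw [Units.mul_inv, mul_one]; simp only [mul_assoc]
      _ = _ := by simp only [mul_assoc]

@[simp] lemma conjHom_apply (G : (M2 A)ˣ) (r : Gal →* M2 A) (σ : Gal) :
    conjHom G r σ = ((G⁻¹ : (M2 A)ˣ) : M2 A) * r σ * (G : M2 A) := rfl

lemma conj_conjHom (G : (M2 A)ˣ) (r : Gal →* M2 A) : Conj r (conjHom G r) := by
  refine ⟨((G⁻¹ : (M2 A)ˣ) : M2 A), (G⁻¹).isUnit, fun σ => ?_⟩
  rw [conjHom_apply, mul_assoc, mul_assoc, Units.mul_inv, mul_one]

lemma conj_conjHom' (G : (M2 A)ˣ) (r : Gal →* M2 A) : Conj (conjHom G r) r := by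
  refine ⟨(G : M2 A), G.isUnit, fun σ => ?_⟩
  rw [conjHom_apply, ← mul_assoc, ← mul_assoc, Units.mul_inv, one_mul]

variable {𝒪 : Type} [CommRing 𝒪] [IsLocalRing 𝒪] [IsLocalRing A] [Algebra 𝒪 A]

lemma evalAt_conjHom (G : (M2 A)ˣ) (r : Gal →* M2 A) (e : Gal →₀ 𝒪) :
    evalAt (conjHom G r) e = ((G⁻¹ : (M2 A)ˣ) : M2 A) * evalAt r e * (G : M2 A) := by
  rw [mul_assoc, evalAt_mul, Finsupp.sum, Finset.mul_sum]
  unfold evalAt
  rw [Finsupp.sum]
  refine Finset.sum_congr rfl fun σ _ => ?_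
  rw [conjHom_apply, Matrix.mul_smul, mul_assoc]

lemma framed_conjHom {ρm : Gal →* M2 (ResidueField 𝒪)} (G : (M2 A)ˣ)
    (hG : ∀ i j, ((G : M2 A) - 1) i j ∈ maximalIdeal A) {r : Gal →* M2 A}
    (hf : Framed A ρm r) : Framed A ρm (conjHom G r) := by
  intro σ i j x hx
  have h1 := hf σ i j x hx
  have h2 : ∀ i j, (conjHom G r σ - r σ) i j ∈ maximalIdeal A := by
    rw [entries_mem_iff, map_sub, conjHom_apply, mapMatrix_conj_eq _ G hG, sub_self]
  have : conjHom G r σ i j - algebraMap 𝒪 A x =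
      (conjHom G r σ - r σ) i j + (r σ i j - algebraMap 𝒪 A x) := by
    rw [Matrix.sub_apply]; ring
  rw [this]
  exact Ideal.add_mem _ (h2 i j) h1

lemma matCont_conjHom (G : (M2 A)ˣ) {r : Gal →* M2 A} (hc : MatCont A r) :
    MatCont A (conjHom G r) := by
  intro n
  obtain ⟨L, hL, h⟩ := hc n
  refine ⟨L, hL, fun σ hσ => ?_⟩
  have h1 := (entries_sub_one_mem_iff (maximalIdeal A ^ n) (r σ)).mp (h σ hσ)
  rw [entries_sub_one_mem_iff, conjHom_apply, map_mul, map_mul, h1, mul_one, ← map_mul,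
    Units.inv_mul, map_one]

/-- Existence of the rigid normal form over a complete local ring. -/
theorem exists_rigid_conj [IsAdicComplete (maximalIdeal A) A]
    (hloc : IsLocalHom (algebraMap 𝒪 A))
    {ρm : Gal →* M2 (ResidueField 𝒪)} {e u : Gal →₀ 𝒪}
    (he : evalAt ρm e = Matrix.single 0 0 1) (hu : evalAt ρm u = Matrix.single 1 0 1)
    {r : Gal →* M2 A} (hf : Framed A ρm r) :
    ∃ G : (M2 A)ˣ, (∀ i j, ((G : M2 A) - 1) i j ∈ maximalIdeal A) ∧
      Framed A ρm (conjHom G r) ∧ Rigid e u (conjHom G r) := by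
  have hX00 : evalAt r e 0 0 - 1 ∈ maximalIdeal A := by
    have := evalAt_framed hloc hf e 0 0 1 (by rw [he]; simp)
    simpa using this
  have hX10 : evalAt r e 1 0 ∈ maximalIdeal A := by
    have := evalAt_framed hloc hf e 1 0 0 (by rw [he]; simp)
    simpa using this
  have hX11 : evalAt r e 1 1 ∈ maximalIdeal A := by
    have := evalAt_framed hloc hf e 1 1 0 (by rw [he]; simp)
    simpa using this
  have hU00 : evalAt r u 0 0 ∈ maximalIdeal A := by
    have := evalAt_framed hloc hf u 0 0 0 (by rw [hu]; simp)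
    simpa using this
  have hU10 : evalAt r u 1 0 - 1 ∈ maximalIdeal A := by
    have := evalAt_framed hloc hf u 1 0 1 (by rw [hu]; simp)
    simpa using this
  obtain ⟨G, hG, h1, h2, h3⟩ := exists_normalizer hX00 hX10 hX11 hU00 hU10
  refine ⟨G, hG, framed_conjHom G hG hf, ?_, ?_, ?_⟩
  · rw [evalAt_conjHom]; exact h1
  · rw [evalAt_conjHom]; exact h2
  · rw [evalAt_conjHom]; exact h3

end Conj

end Fermat.Agent.S53
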