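/-
S53, piece D2 (tangent bound).  Owner: helper64.

Pure commutative algebra: for a local `𝒪`-algebra `A` with residue field `k = 𝒪/𝔪` (`IsResAlg`),
the number of generators of `A` as an `𝒪`-algebra is bounded by the number of "tangent vectors"
`A → k[ε]`, and hence the cardinality of `A` is bounded in terms of the nilpotency index of `𝔪_A`
and the number of tangent vectors.
-/
import Fermat.Agent.S53.Defs

set_option autoImplicit false

namespace Fermat.Agent.S53

open IsLocalRing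

section TangentDefs

variable (𝒪 : Type) [CommRing 𝒪] [IsLocalRing 𝒪]
variable (A : Type) [CommRing A] [Algebra 𝒪 A]

/-- Tangent vectors of `A` over `𝒪`: ring homs `A → k[ε]` compatible with `𝒪 → k ⊂ k[ε]`. -/
def TangentHom : Type :=
  {u : A →+* DualNumber (ResidueField 𝒪) //
    ∀ c : 𝒪, u (algebraMap 𝒪 A c) = TrivSqZeroExt.inl (residue 𝒪 c)}

end TangentDefs

section Test

variable {𝒪 : Type} [CommRing 𝒪] [IsLocalRing 𝒪]
variable {A : Type} [CommRing A] [IsLocalRing A] [Algebra 𝒪 A]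

/-- every element is congruent to an element of `𝒪` modulo `𝔪_A`. -/
lemma tangent_exists_sub_mem (hA : IsResAlg 𝒪 A) (a : A) :
    ∃ c : 𝒪, a - algebraMap 𝒪 A c ∈ maximalIdeal A := by
  obtain ⟨c, hc⟩ := hA.residue_surjective (residue A a)
  refine ⟨c, ?_⟩
  rw [← residue_eq_zero_iff, map_sub, sub_eq_zero]
  exact hc.symm

lemma tangent_algebraMap_mem_iff (hA : IsResAlg 𝒪 A) (c : 𝒪) :
    algebraMap 𝒪 A c ∈ maximalIdeal A ↔ c ∈ maximalIdeal 𝒪 := by
  haveI := hA.isLocalHom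
  simp only [mem_maximalIdeal, mem_nonunits_iff]
  exact not_congr (isUnit_map_iff (algebraMap 𝒪 A) c)

lemma tangent_resMap_bijective (hA : IsResAlg 𝒪 A) :
    haveI := hA.isLocalHom
    Function.Bijective (ResidueField.map (algebraMap 𝒪 A)) := by
  haveI := hA.isLocalHom
  refine ⟨(ResidueField.map (algebraMap 𝒪 A)).injective, ?_⟩
  intro y
  obtain ⟨a, rfl⟩ := residue_surjective y
  obtain ⟨c, hc⟩ := hA.residue_surjective (residue A a)
  exact ⟨residue 𝒪 c, by rw [ResidueField.map_residue]; exact hc⟩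

/-- The identification of residue fields. -/
noncomputable def tangentResEquiv (hA : IsResAlg 𝒪 A) : ResidueField 𝒪 ≃+* ResidueField A :=
  haveI := hA.isLocalHom
  RingEquiv.ofBijective (ResidueField.map (algebraMap 𝒪 A)) (tangent_resMap_bijective hA)

lemma tangentResEquiv_residue (hA : IsResAlg 𝒪 A) (c : 𝒪) :
    tangentResEquiv hA (residue 𝒪 c) = residue A (algebraMap 𝒪 A c) := by
  haveI := hA.isLocalHom
  exact ResidueField.map_residue (algebraMap 𝒪 A) c

/-- The residue map of `A` with values in the residue field of `𝒪`. -/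
noncomputable def tangentRes (hA : IsResAlg 𝒪 A) : A →+* ResidueField 𝒪 :=
  ((tangentResEquiv hA).symm : ResidueField A →+* ResidueField 𝒪).comp (residue A)

lemma tangentRes_apply (hA : IsResAlg 𝒪 A) (a : A) :
    tangentRes hA a = (tangentResEquiv hA).symm (residue A a) := rfl

lemma tangentRes_algebraMap (hA : IsResAlg 𝒪 A) (c : 𝒪) :
    tangentRes hA (algebraMap 𝒪 A c) = residue 𝒪 c := by
  rw [tangentRes_apply, RingEquiv.symm_apply_eq, tangentResEquiv_residue]

lemma tangentRes_eq_zero_iff (hA : IsResAlg 𝒪 A) (a : A) :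
    tangentRes hA a = 0 ↔ a ∈ maximalIdeal A := by
  rw [tangentRes_apply, map_eq_zero_iff _ (RingEquiv.injective _), residue_eq_zero_iff]

lemma tangentRes_eq_of_sub_mem (hA : IsResAlg 𝒪 A) {a : A} {c : 𝒪}
    (h : a - algebraMap 𝒪 A c ∈ maximalIdeal A) : tangentRes hA a = residue 𝒪 c := by
  rw [← tangentRes_algebraMap hA c, ← sub_eq_zero, ← map_sub, tangentRes_eq_zero_iff]
  exact h

end Test

section Cot

variable (𝒪 : Type) [CommRing 𝒪] [IsLocalRing 𝒪]
variable (A : Type) [CommRing A] [IsLocalRing A] [Algebra 𝒪 A]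

/-- `𝒪·1 + 𝔪_A² + 𝔪_𝒪 A` as an `𝒪`-submodule of `A`. -/
def tangentU : Submodule 𝒪 A :=
  ((maximalIdeal A ^ 2 ⊔ Ideal.map (algebraMap 𝒪 A) (maximalIdeal 𝒪)).restrictScalars 𝒪) ⊔
    LinearMap.range (Algebra.linearMap 𝒪 A)

/-- The relative cotangent space `𝔪_A / (𝔪_A² + 𝔪_𝒪 A)`, realised as
`A / (𝒪·1 + 𝔪_A² + 𝔪_𝒪 A)`. -/
def TangentCot : Type := A ⧸ tangentU 𝒪 A

noncomputable instance : AddCommGroup (TangentCot 𝒪 A) :=
  inferInstanceAs (AddCommGroup (A ⧸ tangentU 𝒪 A))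

noncomputable instance : Module 𝒪 (TangentCot 𝒪 A) :=
  inferInstanceAs (Module 𝒪 (A ⧸ tangentU 𝒪 A))

/-- The projection `A → TangentCot`. -/
noncomputable def tangentMk : A →ₗ[𝒪] TangentCot 𝒪 A := (tangentU 𝒪 A).mkQ

variable {𝒪 A}

lemma tangentMk_surjective : Function.Surjective (tangentMk 𝒪 A) :=
  Submodule.mkQ_surjective _

lemma tangentMk_eq_zero_iff (a : A) : tangentMk 𝒪 A a = 0 ↔ a ∈ tangentU 𝒪 A :=
  Submodule.Quotient.mk_eq_zero _

lemma tangentMk_algebraMap (c : 𝒪) : tangentMk 𝒪 A (algebraMap 𝒪 A c) = 0 := by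
  rw [tangentMk_eq_zero_iff]
  exact Submodule.mem_sup_right ⟨c, rfl⟩

lemma mem_tangentU_of_mem {a : A}
    (h : a ∈ maximalIdeal A ^ 2 ⊔ Ideal.map (algebraMap 𝒪 A) (maximalIdeal 𝒪)) :
    a ∈ tangentU 𝒪 A :=
  Submodule.mem_sup_left (show a ∈ (maximalIdeal A ^ 2 ⊔
    Ideal.map (algebraMap 𝒪 A) (maximalIdeal 𝒪)).restrictScalars 𝒪 from h)

lemma tangentMk_of_mem_sq {a : A} (h : a ∈ maximalIdeal A ^ 2) : tangentMk 𝒪 A a = 0 := by
  rw [tangentMk_eq_zero_iff]
  exact mem_tangentU_of_mem (Ideal.mem_sup_left h)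

lemma tangentMk_mul_of_mem {a b : A} (ha : a ∈ maximalIdeal A) (hb : b ∈ maximalIdeal A) :
    tangentMk 𝒪 A (a * b) = 0 :=
  tangentMk_of_mem_sq (by rw [pow_two]; exact Ideal.mul_mem_mul ha hb)

variable (𝒪 A)

lemma tangentCot_isTorsionBySet :
    Module.IsTorsionBySet 𝒪 (TangentCot 𝒪 A) (maximalIdeal 𝒪 : Set 𝒪) := by
  intro v c
  obtain ⟨a, rfl⟩ := tangentMk_surjective v
  show (c : 𝒪) • tangentMk 𝒪 A a = 0
  rw [← map_smul, tangentMk_eq_zero_iff, Algebra.smul_def]
  exact mem_tangentU_of_mem (Ideal.mem_sup_right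
    (Ideal.mul_mem_right _ _ (Ideal.mem_map_of_mem _ c.2)))

noncomputable instance : Module (ResidueField 𝒪) (TangentCot 𝒪 A) :=
  Module.IsTorsionBySet.module (tangentCot_isTorsionBySet 𝒪 A)

variable {𝒪 A}

lemma tangentCot_residue_smul (c : 𝒪) (v : TangentCot 𝒪 A) :
    (residue 𝒪 c) • v = c • v :=
  Module.IsTorsionBySet.mk_smul (tangentCot_isTorsionBySet 𝒪 A) c v

/-- Leibniz rule for the projection to the cotangent space. -/
lemma tangentMk_mul (hA : IsResAlg 𝒪 A) (a b : A) :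
    tangentMk 𝒪 A (a * b) =
      tangentRes hA a • tangentMk 𝒪 A b + tangentRes hA b • tangentMk 𝒪 A a := by
  obtain ⟨ca, hca⟩ := tangent_exists_sub_mem hA a
  obtain ⟨cb, hcb⟩ := tangent_exists_sub_mem hA b
  rw [tangentRes_eq_of_sub_mem hA hca, tangentRes_eq_of_sub_mem hA hcb,
    tangentCot_residue_smul, tangentCot_residue_smul, ← map_smul, ← map_smul, ← map_add,
    ← sub_eq_zero, ← map_sub]
  have : a * b - (ca • b + cb • a) =
      (a - algebraMap 𝒪 A ca) * (b - algebraMap 𝒪 A cb) - algebraMap 𝒪 A (ca * cb) := by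
    rw [Algebra.smul_def, Algebra.smul_def, map_mul]; ring
  rw [this, map_sub, tangentMk_mul_of_mem hca hcb, tangentMk_algebraMap, sub_zero]

/-- The tangent vector attached to a functional on the cotangent space. -/
noncomputable def tangentOfDual (hA : IsResAlg 𝒪 A)
    (ℓ : Module.Dual (ResidueField 𝒪) (TangentCot 𝒪 A)) : TangentHom 𝒪 A :=
  ⟨{ toFun := fun a => TrivSqZeroExt.inl (tangentRes hA a) +
        TrivSqZeroExt.inr (ℓ (tangentMk 𝒪 A a))
     map_one' := by
       have h1 : tangentMk 𝒪 A (1 : A) = 0 := by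
         simpa using tangentMk_algebraMap (𝒪 := 𝒪) (A := A) 1
       ext <;> simp [h1]
     map_mul' := fun a b => by
       ext
       · simp
       · simp only [TrivSqZeroExt.snd_add, TrivSqZeroExt.snd_inl, TrivSqZeroExt.snd_inr, zero_add,
           TrivSqZeroExt.snd_mul, TrivSqZeroExt.fst_add, TrivSqZeroExt.fst_inl,
           TrivSqZeroExt.fst_inr, add_zero]
         rw [tangentMk_mul hA, map_add, map_smul, map_smul]
         simp only [smul_eq_mul, MulOpposite.smul_eq_mul_unop, MulOpposite.unop_op]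
         ring
     map_zero' := by ext <;> simp
     map_add' := fun a b => by ext <;> simp }, fun c => by
    show TrivSqZeroExt.inl (tangentRes hA (algebraMap 𝒪 A c)) +
        TrivSqZeroExt.inr (ℓ (tangentMk 𝒪 A (algebraMap 𝒪 A c))) = _
    rw [tangentRes_algebraMap, tangentMk_algebraMap, map_zero, TrivSqZeroExt.inr_zero, add_zero]⟩

lemma tangentOfDual_apply_snd (hA : IsResAlg 𝒪 A)
    (ℓ : Module.Dual (ResidueField 𝒪) (TangentCot 𝒪 A)) (a : A) :
    ((tangentOfDual hA ℓ).1 a).snd = ℓ (tangentMk 𝒪 A a) := by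
  show (TrivSqZeroExt.inl (tangentRes hA a) +
    TrivSqZeroExt.inr (ℓ (tangentMk 𝒪 A a)) : DualNumber (ResidueField 𝒪)).snd = _
  simp

lemma tangentOfDual_injective (hA : IsResAlg 𝒪 A) :
    Function.Injective (tangentOfDual (𝒪 := 𝒪) (A := A) hA) := by
  intro ℓ ℓ' h
  refine LinearMap.ext fun v => ?_
  obtain ⟨a, rfl⟩ := tangentMk_surjective v
  rw [← tangentOfDual_apply_snd hA ℓ a, ← tangentOfDual_apply_snd hA ℓ' a, h]

end Cot

section Count

variable {𝒪 : Type} [CommRing 𝒪] [IsLocalRing 𝒪]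
variable {A : Type} [CommRing A] [IsLocalRing A] [Algebra 𝒪 A]

/-- A local `𝒪`-algebra with residue field `k` finite, `𝔪_A` finitely generated and nilpotent
is finite. -/
lemma tangent_finite_of_pow_eq_bot (hA : IsResAlg 𝒪 A) [Finite (ResidueField 𝒪)]
    (hfg : (maximalIdeal A).FG) {n : ℕ} (hn : maximalIdeal A ^ n = ⊥) : Finite A := by
  haveI : Finite (ResidueField A) := Finite.of_equiv _ (tangentResEquiv hA).toEquiv
  haveI : Finite (A ⧸ maximalIdeal A) := inferInstanceAs (Finite (ResidueField A))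
  have h := Ideal.finite_quotient_pow hfg n
  rw [hn] at h
  exact Finite.of_equiv _ (RingEquiv.quotientBot A).toEquiv

lemma tangent_finite_dualNumber (k : Type) [Field k] [Finite k] : Finite (DualNumber k) :=
  inferInstanceAs (Finite (k × k))

lemma tangentHom_finite [Finite A] [Finite (ResidueField 𝒪)] : Finite (TangentHom 𝒪 A) := by
  haveI := tangent_finite_dualNumber (ResidueField 𝒪)
  haveI : Finite (A →+* DualNumber (ResidueField 𝒪)) :=
    Finite.of_injective (fun u => (u : A → DualNumber (ResidueField 𝒪))) DFunLike.coe_injective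
  exact inferInstanceAs (Finite {u : A →+* DualNumber (ResidueField 𝒪) //
    ∀ c : 𝒪, u (algebraMap 𝒪 A c) = TrivSqZeroExt.inl (residue 𝒪 c)})

/-- The cotangent space has at most as many elements as there are tangent vectors. -/
lemma tangentCot_card_le (hA : IsResAlg 𝒪 A) [Finite A] [Finite (ResidueField 𝒪)] :
    Nat.card (TangentCot 𝒪 A) ≤ Nat.card (TangentHom 𝒪 A) := by
  haveI : Finite (TangentCot 𝒪 A) := Finite.of_surjective _ (tangentMk_surjective (𝒪 := 𝒪) (A := A))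
  haveI : Module.Finite (ResidueField 𝒪) (TangentCot 𝒪 A) := Module.Finite.of_finite
  haveI := tangentHom_finite (𝒪 := 𝒪) (A := A)
  calc Nat.card (TangentCot 𝒪 A)
      = Nat.card (ResidueField 𝒪) ^ Module.finrank (ResidueField 𝒪) (TangentCot 𝒪 A) :=
        Module.natCard_eq_pow_finrank
    _ = Nat.card (ResidueField 𝒪) ^
          Module.finrank (ResidueField 𝒪) (Module.Dual (ResidueField 𝒪) (TangentCot 𝒪 A)) := by
        rw [Subspace.dual_finrank_eq]
    _ = Nat.card (Module.Dual (ResidueField 𝒪) (TangentCot 𝒪 A)) :=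
        Module.natCard_eq_pow_finrank.symm
    _ ≤ Nat.card (TangentHom 𝒪 A) :=
        Nat.card_le_card_of_injective _ (tangentOfDual_injective hA)

end Count

section Generators

variable {𝒪 : Type} [CommRing 𝒪] [IsLocalRing 𝒪]
variable {A : Type} [CommRing A] [IsLocalRing A] [Algebra 𝒪 A]

/-- elements of `𝔪_𝒪 A` are congruent to elements of `𝔪_𝒪` modulo `𝔪_A²`. -/
lemma tangent_map_maximalIdeal (hA : IsResAlg 𝒪 A) {f : A}
    (hf : f ∈ Ideal.map (algebraMap 𝒪 A) (maximalIdeal 𝒪)) :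
    ∃ c ∈ maximalIdeal 𝒪, f - algebraMap 𝒪 A c ∈ maximalIdeal A ^ 2 := by
  induction hf using Submodule.span_induction with
  | mem x hx =>
    obtain ⟨c, hc, rfl⟩ := hx
    exact ⟨c, hc, by simp⟩
  | zero => exact ⟨0, Ideal.zero_mem _, by simp⟩
  | add x y _ _ hx hy =>
    obtain ⟨c, hc, hxc⟩ := hx
    obtain ⟨d, hd, hyd⟩ := hy
    refine ⟨c + d, Ideal.add_mem _ hc hd, ?_⟩
    have : x + y - algebraMap 𝒪 A (c + d) = (x - algebraMap 𝒪 A c) + (y - algebraMap 𝒪 A d) := by
      rw [map_add]; ring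
    rw [this]
    exact Ideal.add_mem _ hxc hyd
  | smul a x _ hx =>
    obtain ⟨c, hc, hxc⟩ := hx
    obtain ⟨ca, hca⟩ := tangent_exists_sub_mem hA a
    refine ⟨ca * c, Ideal.mul_mem_left _ _ hc, ?_⟩
    have : a • x - algebraMap 𝒪 A (ca * c) =
        a * (x - algebraMap 𝒪 A c) + (a - algebraMap 𝒪 A ca) * algebraMap 𝒪 A c := by
      rw [map_mul, smul_eq_mul]; ring
    rw [this]
    refine Ideal.add_mem _ (Ideal.mul_mem_left _ _ hxc) ?_
    rw [pow_two]
    exact Ideal.mul_mem_mul hca ((tangent_algebraMap_mem_iff hA c).2 hc)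

/-- If the images of the `x i ∈ 𝔪_A` cover the relative cotangent space and `𝔪_A` is nilpotent,
then the `x i` generate `A` as an `𝒪`-algebra. -/
theorem tangent_adjoin_eq_top (hA : IsResAlg 𝒪 A) {n : ℕ} (hn : maximalIdeal A ^ n = ⊥)
    {ι : Type} (x : ι → A)
    (hcov : ∀ v : TangentCot 𝒪 A, ∃ i, tangentMk 𝒪 A (x i) = v) :
    Algebra.adjoin 𝒪 (Set.range x) = ⊤ := by
  set B := Algebra.adjoin 𝒪 (Set.range x) with hB
  -- Step 1
  have step1 : ∀ m ∈ maximalIdeal A, ∃ b ∈ B, b ∈ maximalIdeal A ∧ m - b ∈ maximalIdeal A ^ 2 := by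
    intro m hm
    obtain ⟨i, hi⟩ := hcov (tangentMk 𝒪 A m)
    have h0 : tangentMk 𝒪 A (m - x i) = 0 := by rw [map_sub, hi, sub_self]
    rw [tangentMk_eq_zero_iff] at h0
    obtain ⟨y, hy, z, hz, hyz⟩ := Submodule.mem_sup.1 h0
    obtain ⟨c, rfl⟩ := hz
    have hy' : y ∈ maximalIdeal A ^ 2 ⊔ Ideal.map (algebraMap 𝒪 A) (maximalIdeal 𝒪) := hy
    obtain ⟨e, he, f, hf, rfl⟩ := Submodule.mem_sup.1 hy'
    obtain ⟨c', hc', hfc⟩ := tangent_map_maximalIdeal hA hf
    have hsq : m - (x i + algebraMap 𝒪 A (c' + c)) ∈ maximalIdeal A ^ 2 := by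
      have : m - (x i + algebraMap 𝒪 A (c' + c)) = e + (f - algebraMap 𝒪 A c') := by
        have h1 : m - x i = e + f + algebraMap 𝒪 A c := by
          rw [← hyz]; rfl
        rw [map_add]
        linear_combination h1
      rw [this]
      exact Ideal.add_mem _ he hfc
    refine ⟨x i + algebraMap 𝒪 A (c' + c), ?_, ?_, hsq⟩
    · exact Subalgebra.add_mem _ (Algebra.subset_adjoin ⟨i, rfl⟩) (Subalgebra.algebraMap_mem _ _)
    · have hle : maximalIdeal A ^ 2 ≤ maximalIdeal A := Ideal.pow_le_self (by norm_num)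
      have := Ideal.sub_mem _ hm (hle hsq)
      simpa using this
  -- Step 2
  have step2 : ∀ j : ℕ, ∀ m ∈ maximalIdeal A ^ j,
      ∃ b ∈ B, b ∈ maximalIdeal A ^ j ∧ m - b ∈ maximalIdeal A ^ (j + 1) := by
    intro j
    induction j with
    | zero =>
      intro m _
      obtain ⟨c, hc⟩ := tangent_exists_sub_mem hA m
      exact ⟨algebraMap 𝒪 A c, Subalgebra.algebraMap_mem _ _, by simp, by simpa using hc⟩
    | succ j ih =>
      intro m hm
      rw [pow_succ] at hm
      refine Submodule.mul_induction_on hm ?_ ?_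
      · intro p hp q hq
        obtain ⟨b₁, hb₁, hb₁m, hpb⟩ := ih p hp
        obtain ⟨b₂, hb₂, hb₂m, hqb⟩ := step1 q hq
        refine ⟨b₁ * b₂, Subalgebra.mul_mem _ hb₁ hb₂, ?_, ?_⟩
        · rw [pow_succ]; exact Ideal.mul_mem_mul hb₁m hb₂m
        · have : p * q - b₁ * b₂ = (p - b₁) * q + b₁ * (q - b₂) := by ring
          rw [this]
          refine Ideal.add_mem _ ?_ ?_
          · rw [pow_succ (maximalIdeal A) (j + 1)]
            exact Ideal.mul_mem_mul hpb hq
          · have : maximalIdeal A ^ (j + 1 + 1) = maximalIdeal A ^ j * maximalIdeal A ^ 2 := by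
              rw [← pow_add]
            rw [this]
            exact Ideal.mul_mem_mul hb₁m hqb
      · intro a b ha hb
        obtain ⟨b₁, hb₁, hb₁m, hab⟩ := ha
        obtain ⟨b₂, hb₂, hb₂m, hbb⟩ := hb
        refine ⟨b₁ + b₂, Subalgebra.add_mem _ hb₁ hb₂, Ideal.add_mem _ hb₁m hb₂m, ?_⟩
        have : a + b - (b₁ + b₂) = (a - b₁) + (b - b₂) := by ring
        rw [this]
        exact Ideal.add_mem _ hab hbb
  -- Step 3
  have step3 : ∀ j : ℕ, ∀ a : A, ∃ b ∈ B, a - b ∈ maximalIdeal A ^ j := by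
    intro j
    induction j with
    | zero => intro a; exact ⟨0, Subalgebra.zero_mem _, by simp⟩
    | succ j ih =>
      intro a
      obtain ⟨b, hb, hab⟩ := ih a
      obtain ⟨b', hb', -, hab'⟩ := step2 j (a - b) hab
      refine ⟨b + b', Subalgebra.add_mem _ hb hb', ?_⟩
      have : a - (b + b') = a - b - b' := by ring
      rw [this]
      exact hab'
  rw [eq_top_iff]
  intro a _
  obtain ⟨b, hb, hab⟩ := step3 n a
  rw [hn, Ideal.mem_bot, sub_eq_zero] at hab
  rw [hab]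
  exact hb

/-- A representative in `𝔪_A` of a class of the cotangent space. -/
lemma tangent_exists_rep (hA : IsResAlg 𝒪 A) (v : TangentCot 𝒪 A) :
    ∃ a ∈ maximalIdeal A, tangentMk 𝒪 A a = v := by
  obtain ⟨a, rfl⟩ := tangentMk_surjective v
  obtain ⟨c, hc⟩ := tangent_exists_sub_mem hA a
  exact ⟨a - algebraMap 𝒪 A c, hc, by rw [map_sub, tangentMk_algebraMap, sub_zero]⟩

/-- **D2, generators.** If `A` is a finite local `𝒪`-algebra with residue field `k`, nilpotent
maximal ideal, and at most `N` tangent vectors `A → k[ε]`, then `A` is generated as an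
`𝒪`-algebra by `N` elements of `𝔪_A`. -/
theorem tangent_exists_generators (hA : IsResAlg 𝒪 A) [Finite A] [Finite (ResidueField 𝒪)]
    {n : ℕ} (hn : maximalIdeal A ^ n = ⊥) {N : ℕ} (hN : Nat.card (TangentHom 𝒪 A) ≤ N) :
    ∃ x : Fin N → A, (∀ i, x i ∈ maximalIdeal A) ∧ Algebra.adjoin 𝒪 (Set.range x) = ⊤ := by
  haveI : Finite (TangentCot 𝒪 A) := Finite.of_surjective _ (tangentMk_surjective (𝒪 := 𝒪) (A := A))
  have hle : Nat.card (TangentCot 𝒪 A) ≤ N := (tangentCot_card_le hA).trans hN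
  let e := Finite.equivFin (TangentCot 𝒪 A)
  choose rep hrep hrep' using tangent_exists_rep (𝒪 := 𝒪) (A := A) hA
  let g : Fin N → TangentCot 𝒪 A := fun i =>
    if h : i.val < Nat.card (TangentCot 𝒪 A) then e.symm ⟨i.val, h⟩ else 0
  refine ⟨fun i => rep (g i), fun i => hrep _, ?_⟩
  refine tangent_adjoin_eq_top hA hn _ fun v => ?_
  refine ⟨⟨(e v).val, lt_of_lt_of_le (e v).2 hle⟩, ?_⟩
  rw [hrep']
  show (if h : (e v).val < Nat.card (TangentCot 𝒪 A) then e.symm ⟨(e v).val, h⟩ else 0) = v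
  rw [dif_pos (e v).2]
  simp

end Generators

section Bound

open MvPolynomial

variable (𝒪 : Type) [CommRing 𝒪] [IsLocalRing 𝒪]

/-- The maximal ideal `(𝔪_𝒪, X₁, …, X_N)` of `𝒪[X₁, …, X_N]`. -/
noncomputable def tangentIdeal (N : ℕ) : Ideal (MvPolynomial (Fin N) 𝒪) :=
  Ideal.span (Set.range X) ⊔ Ideal.map C (maximalIdeal 𝒪)

/-- The bound of D2: the cardinality of `𝒪[X₁, …, X_N] / (𝔪_𝒪, X)^n`. -/
noncomputable def tangentBound (N n : ℕ) : ℕ :=
  Nat.card (MvPolynomial (Fin N) 𝒪 ⧸ tangentIdeal 𝒪 N ^ n)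

lemma tangentIdeal_fg [IsNoetherianRing 𝒪] (N : ℕ) : (tangentIdeal 𝒪 N).FG :=
  Submodule.FG.sup (Submodule.fg_span (Set.finite_range _))
    (Ideal.FG.map (IsNoetherian.noetherian _) _)

lemma tangent_finite_quotient_tangentIdeal [Finite (ResidueField 𝒪)] (N : ℕ) :
    Finite (MvPolynomial (Fin N) 𝒪 ⧸ tangentIdeal 𝒪 N) := by
  let f : 𝒪 →+* MvPolynomial (Fin N) 𝒪 ⧸ tangentIdeal 𝒪 N :=
    (Ideal.Quotient.mk _).comp C
  have hf : ∀ c ∈ maximalIdeal 𝒪, f c = 0 := fun c hc =>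
    Ideal.Quotient.eq_zero_iff_mem.2 (Ideal.mem_sup_right (Ideal.mem_map_of_mem _ hc))
  let g : ResidueField 𝒪 →+* MvPolynomial (Fin N) 𝒪 ⧸ tangentIdeal 𝒪 N :=
    Ideal.Quotient.lift (maximalIdeal 𝒪) f hf
  refine Finite.of_surjective g ?_
  intro y
  obtain ⟨p, rfl⟩ := Ideal.Quotient.mk_surjective y
  refine ⟨residue 𝒪 (constantCoeff p), ?_⟩
  show Ideal.Quotient.lift (maximalIdeal 𝒪) f hf (Ideal.Quotient.mk _ (constantCoeff p)) = _
  rw [Ideal.Quotient.lift_mk]
  show Ideal.Quotient.mk _ (C (constantCoeff p)) = Ideal.Quotient.mk _ p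
  rw [eq_comm, Ideal.Quotient.eq]
  refine Ideal.mem_sup_left ?_
  have h1 : p - C (constantCoeff p) ∈ idealOfVars (Fin N) 𝒪 ^ 1 := by
    rw [mem_pow_idealOfVars_iff']
    intro x hx
    have hx0 : x = 0 := by
      have : Finsupp.degree x = 0 := by omega
      exact (Finsupp.degree_eq_zero_iff x).1 this
    subst hx0
    simp [constantCoeff_eq]
  simpa using h1

lemma tangent_finite_quotient_pow [IsNoetherianRing 𝒪] [Finite (ResidueField 𝒪)] (N n : ℕ) :
    Finite (MvPolynomial (Fin N) 𝒪 ⧸ tangentIdeal 𝒪 N ^ n) :=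
  haveI := tangent_finite_quotient_tangentIdeal 𝒪 N
  Ideal.finite_quotient_pow (tangentIdeal_fg 𝒪 N) n

variable {𝒪}
variable {A : Type} [CommRing A] [IsLocalRing A] [Algebra 𝒪 A]

/-- **D2, cardinality bound.** A finite local `𝒪`-algebra `A` with residue field `k`, with
`𝔪_A ^ n = 0` and at most `N` tangent vectors has at most `tangentBound 𝒪 N n` elements. -/
theorem tangent_card_le [IsNoetherianRing 𝒪] [Finite (ResidueField 𝒪)] (hA : IsResAlg 𝒪 A)
    [Finite A] {n : ℕ} (hn : maximalIdeal A ^ n = ⊥) {N : ℕ}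
    (hN : Nat.card (TangentHom 𝒪 A) ≤ N) : Nat.card A ≤ tangentBound 𝒪 N n := by
  obtain ⟨x, hx, hadj⟩ := tangent_exists_generators hA hn hN
  let ψ : MvPolynomial (Fin N) 𝒪 →ₐ[𝒪] A := aeval x
  have hψ : Function.Surjective ψ := by
    rw [← AlgHom.range_eq_top, ← Algebra.adjoin_range_eq_range_aeval]
    exact hadj
  have hle : tangentIdeal 𝒪 N ≤ Ideal.comap (ψ : MvPolynomial (Fin N) 𝒪 →+* A) (maximalIdeal A) := by
    refine sup_le ?_ ?_
    · rw [Ideal.span_le]
      rintro _ ⟨i, rfl⟩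
      show ψ (X i) ∈ maximalIdeal A
      simpa [ψ] using hx i
    · rw [Ideal.map_le_iff_le_comap]
      intro c hc
      show ψ (C c) ∈ maximalIdeal A
      have : ψ (C c) = algebraMap 𝒪 A c := by simp [ψ]
      rw [this]
      exact (tangent_algebraMap_mem_iff hA c).2 hc
  have hker : ∀ p ∈ tangentIdeal 𝒪 N ^ n, (ψ : MvPolynomial (Fin N) 𝒪 →+* A) p = 0 := by
    intro p hp
    have h1 : p ∈ Ideal.comap (ψ : MvPolynomial (Fin N) 𝒪 →+* A) (maximalIdeal A ^ n) :=
      Ideal.le_comap_pow _ n (Ideal.pow_right_mono hle n hp)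
    rw [hn] at h1
    simpa using h1
  haveI := tangent_finite_quotient_pow 𝒪 N n
  refine Nat.card_le_card_of_surjective
    (Ideal.Quotient.lift (tangentIdeal 𝒪 N ^ n) (ψ : MvPolynomial (Fin N) 𝒪 →+* A) hker) ?_
  intro a
  obtain ⟨p, rfl⟩ := hψ a
  exact ⟨Ideal.Quotient.mk _ p, by simp⟩

end Bound

end Fermat.Agent.S53
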