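/-
S53, piece D2 (tangent bound), glue to deformations.  Owner: helper64.

For a finite test algebra `A` with a framed rigid `𝒟`-lift `r` whose entries generate `A`, the
number of tangent vectors `A → k[ε]` is bounded by the number of deformation classes over `k[ε]`
(finite by `TangentFinite`); hence `Nat.card A` is bounded in terms of the nilpotency index.
-/
import Fermat.Agent.S53.Tangent
import Fermat.Agent.S53.Matrix
import Fermat.Agent.S53.Rigid
import Fermat.Agent.S53.TestAlg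

set_option autoImplicit false

namespace Fermat.Agent.S53

open IsLocalRing

section TangentQuot

variable (𝒪 : Type) [CommRing 𝒪] [IsLocalRing 𝒪]

/-- The `𝒪`-algebra structure on `k[ε]` used in `GaloisRep.TangentFinite`. -/
@[reducible] noncomputable def dnAlg : Algebra 𝒪 (DualNumber (ResidueField 𝒪)) :=
  ((algebraMap (ResidueField 𝒪) (DualNumber (ResidueField 𝒪))).comp
      (algebraMap 𝒪 (ResidueField 𝒪))).toAlgebra

/-- The algebra structure on the residue field of `k[ε]` used in `GaloisRep.TangentFinite`. -/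
@[reducible] noncomputable def dnResAlg :
    Algebra (ResidueField 𝒪) (ResidueField (DualNumber (ResidueField 𝒪))) :=
  ((IsLocalRing.residue (DualNumber (ResidueField 𝒪))).comp
      (algebraMap (ResidueField 𝒪) (DualNumber (ResidueField 𝒪)))).toAlgebra

variable (ρbar : ResidualGaloisRep (ResidueField 𝒪))
  (𝒟 : ∀ ⦃A : Type⦄ [CommRing A] [IsLocalRing A] [Algebra 𝒪 A], GaloisRepAdic A → Prop)

/-- The deformations to `k[ε]` of type `𝒟`. -/
def TangentSub : Type 1 :=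
  letI : Algebra 𝒪 (DualNumber (ResidueField 𝒪)) := dnAlg 𝒪
  letI : Algebra (ResidueField 𝒪) (ResidueField (DualNumber (ResidueField 𝒪))) := dnResAlg 𝒪
  {ρ : GaloisRepAdic (DualNumber (ResidueField 𝒪)) //
      𝒟 ρ ∧ ρ.residual.IsEquiv (ρbar.baseChange (ResidueField (DualNumber (ResidueField 𝒪)))) }

/-- Equivalence of deformations to `k[ε]`. -/
def tangentSetoid : Setoid (TangentSub 𝒪 ρbar 𝒟) :=
  ⟨fun ρ ρ' => ρ.1.IsEquiv ρ'.1, ⟨fun ρ => ⟨GaloisRepAdic.Equiv.refl ρ.1⟩,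
        fun ⟨e⟩ => ⟨e.symm⟩, fun ⟨e⟩ ⟨e'⟩ => ⟨e.trans e'⟩⟩⟩

lemma tangentFinite_iff :
    GaloisRep.TangentFinite 𝒪 ρbar 𝒟 ↔ Finite (Quotient (tangentSetoid 𝒪 ρbar 𝒟)) :=
  Iff.rfl

end TangentQuot

section MapLemmas

variable {𝒪 : Type} [CommRing 𝒪] [IsLocalRing 𝒪]
variable {A B : Type} [CommRing A] [IsLocalRing A] [Algebra 𝒪 A]
  [CommRing B] [IsLocalRing B] [Algebra 𝒪 B]

lemma tangent_framed_mapRep {ρm : Gal →* M2 (ResidueField 𝒪)} {r : Gal →* M2 A}
    (hf : Framed A ρm r) (φ : A →ₐ[𝒪] B) (hφ : IsLocalHom (φ : A →+* B)) :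
    Framed B ρm (mapRep (φ : A →+* B) r) := by
  intro σ i j x hx
  have h := hf σ i j x hx
  have h2 : (φ : A →+* B) (r σ i j - algebraMap 𝒪 A x) ∈ maximalIdeal B :=
    haveI := hφ
    map_nonunit (φ : A →+* B) _ h
  rw [map_sub] at h2
  simpa using h2

lemma tangent_evalAt_mapRep (r : Gal →* M2 A) (φ : A →ₐ[𝒪] B) (e : Gal →₀ 𝒪) (i j : Fin 2) :
    evalAt (mapRep (φ : A →+* B) r) e i j = φ (evalAt r e i j) := by
  rw [evalAt_apply, evalAt_apply, Finsupp.sum, Finsupp.sum, map_sum]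
  refine Finset.sum_congr rfl fun σ _ => ?_
  rw [map_mul, AlgHom.commutes]
  rfl

lemma tangent_rigid_mapRep {e u : Gal →₀ 𝒪} {r : Gal →* M2 A} (hr : Rigid e u r)
    (φ : A →ₐ[𝒪] B) : Rigid e u (mapRep (φ : A →+* B) r) := by
  obtain ⟨h1, h2, h3⟩ := hr
  refine ⟨?_, ?_, ?_⟩
  · rw [tangent_evalAt_mapRep, h1, map_zero]
  · rw [tangent_evalAt_mapRep, h2, map_zero]
  · rw [tangent_evalAt_mapRep, h3, map_one]

end MapLemmas

section Glue

variable {𝒪 : Type} [CommRing 𝒪] [IsLocalRing 𝒪]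

lemma dnAlg_algebraMap (x : 𝒪) :
    @algebraMap 𝒪 (DualNumber (ResidueField 𝒪)) _ _ (dnAlg 𝒪) x =
      TrivSqZeroExt.inl (residue 𝒪 x) := rfl

/-- `k[ε]` is a test ring. -/
lemma isTestRing_dualNumber [Finite (ResidueField 𝒪)] :
    @IsTestRing 𝒪 _ _ (DualNumber (ResidueField 𝒪)) _ (dnAlg 𝒪) := by
  letI := dnAlg 𝒪
  refine ⟨inferInstance, tangent_finite_dualNumber _, ?_, ?_⟩
  · intro a
    obtain ⟨x, hx⟩ := residue_surjective a.fst
    refine ⟨x, 2, ?_⟩
    rw [dnAlg_algebraMap, hx]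
    ext <;> simp [pow_two]
  · intro x hx
    have : algebraMap 𝒪 (DualNumber (ResidueField 𝒪)) x = 0 := by
      rw [dnAlg_algebraMap, (residue_eq_zero_iff x).2 hx, TrivSqZeroExt.inl_zero]
    rw [this]
    exact IsNilpotent.zero

variable {A : Type} [CommRing A] [IsLocalRing A] [Algebra 𝒪 A]

/-- A tangent vector as an `𝒪`-algebra homomorphism. -/
noncomputable def tangentAlgHom (u : TangentHom 𝒪 A) :
    @AlgHom 𝒪 A (DualNumber (ResidueField 𝒪)) _ _ _ _ (dnAlg 𝒪) :=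
  letI := dnAlg 𝒪
  { u.1 with commutes' := fun c => by rw [dnAlg_algebraMap]; exact u.2 c }

lemma tangentAlgHom_apply (u : TangentHom 𝒪 A) (a : A) :
    (letI := dnAlg 𝒪; (tangentAlgHom u : A →+* DualNumber (ResidueField 𝒪))) a = u.1 a := rfl

/-- Two tangent vectors agreeing on a generating set are equal. -/
lemma tangentHom_ext_of_adjoin {s : Set A} (hs : Algebra.adjoin 𝒪 s = ⊤)
    {u u' : TangentHom 𝒪 A} (h : ∀ a ∈ s, u.1 a = u'.1 a) : u = u' := by
  apply Subtype.ext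
  apply RingHom.ext
  intro a
  have ha : a ∈ Algebra.adjoin 𝒪 s := by rw [hs]; trivial
  induction ha using Algebra.adjoin_induction with
  | mem x hx => exact h x hx
  | algebraMap c => rw [u.2, u'.2]
  | add x y _ _ hx hy => rw [map_add, map_add, hx, hy]
  | mul x y _ _ hx hy => rw [map_mul, map_mul, hx, hy]

variable [Finite (ResidueField 𝒪)]
  {ρbar : ResidualGaloisRep (ResidueField 𝒪)}
  {𝒟 : ∀ ⦃A : Type⦄ [CommRing A] [IsLocalRing A] [Algebra 𝒪 A], GaloisRepAdic A → Prop}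

/-- The deformation to `k[ε]` attached to a tangent vector of `A` and a `𝒟`-lift over `A`. -/
lemma tangent_exists_tangentSub (h𝒟 : GaloisRep.IsDeformationCondition 𝒪 𝒟)
    (D : RigidDatum 𝒪 ρbar) (hA : GaloisRep.IsArtinianTestAlgebra 𝒪 A)
    (r : Gal →* M2 A) (hr : IsDLift A 𝒟 D.ρm r) (u : TangentHom 𝒪 A) :
    ∃ (t : TangentSub 𝒪 ρbar 𝒟) (hc' : MatCont (DualNumber (ResidueField 𝒪)) (mapRep u.1 r)),
      t.1 = ofMatrix (mapRep u.1 r) hc' := by
  letI := dnAlg 𝒪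
  letI := dnResAlg 𝒪
  have hε : IsTestRing 𝒪 (DualNumber (ResidueField 𝒪)) := isTestRing_dualNumber
  have hεA : GaloisRep.IsArtinianTestAlgebra 𝒪 (DualNumber (ResidueField 𝒪)) :=
    hε.isArtinianTestAlgebra
  have hεR : IsResAlg 𝒪 (DualNumber (ResidueField 𝒪)) := hε.isResAlg
  obtain ⟨hfr, hc, hD⟩ := hr
  let φ : A →ₐ[𝒪] DualNumber (ResidueField 𝒪) := tangentAlgHom u
  have hφ : IsLocalHom (φ : A →+* DualNumber (ResidueField 𝒪)) := hεR.isLocalHom_ringHom φ
  have hc' : MatCont (DualNumber (ResidueField 𝒪)) (mapRep (φ : A →+* DualNumber (ResidueField 𝒪)) r) := hc.map _ hφ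
  have h1 : 𝒟 ((ofMatrix r hc).baseChangeAlong (φ : A →+* DualNumber (ResidueField 𝒪)) hφ) :=
    h𝒟.baseChangeAlong hA hεA φ hφ hD
  have h2 : 𝒟 (ofMatrix (mapRep (φ : A →+* DualNumber (ResidueField 𝒪)) r) hc') :=
    h𝒟.of_isEquiv hεA (ofMatrix_baseChangeAlong_isEquiv _ hφ r hc hc') h1
  have hfr' : Framed (DualNumber (ResidueField 𝒪)) D.ρm (mapRep (φ : A →+* DualNumber (ResidueField 𝒪)) r) :=
    tangent_framed_mapRep hfr φ hφ
  have h3 : (ofMatrix (mapRep (φ : A →+* DualNumber (ResidueField 𝒪)) r) hc').residual.IsEquiv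
      (ρbar.baseChangeAlong ((IsLocalRing.residue (DualNumber (ResidueField 𝒪))).comp
        (algebraMap (ResidueField 𝒪) (DualNumber (ResidueField 𝒪))))) :=
    residual_isEquiv_of_framed (A := DualNumber (ResidueField 𝒪)) D
      ((IsLocalRing.residue (DualNumber (ResidueField 𝒪))).comp
        (algebraMap (ResidueField 𝒪) (DualNumber (ResidueField 𝒪)))) (fun x => rfl) _ hc' hfr'
  exact ⟨⟨ofMatrix (mapRep (φ : A →+* DualNumber (ResidueField 𝒪)) r) hc', h2, h3⟩, hc', rfl⟩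

/-- **D2, glue.** The number of tangent vectors of a test algebra carrying a framed rigid
`𝒟`-lift with generating entries is at most the number of deformation classes over `k[ε]`. -/
theorem tangentHom_card_le_of_lift (h𝒟 : GaloisRep.IsDeformationCondition 𝒪 𝒟)
    (hfin : GaloisRep.TangentFinite 𝒪 ρbar 𝒟)
    (D : RigidDatum 𝒪 ρbar) (hA : GaloisRep.IsArtinianTestAlgebra 𝒪 A)
    (r : Gal →* M2 A) (hr : IsDLift A 𝒟 D.ρm r) (hrig : Rigid D.e D.u r)
    (hgen : Algebra.adjoin 𝒪 {x : A | ∃ σ i j, x = r σ i j} = ⊤) :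
    Nat.card (TangentHom 𝒪 A) ≤ Nat.card (Quotient (tangentSetoid 𝒪 ρbar 𝒟)) := by
  haveI : Finite (Quotient (tangentSetoid 𝒪 ρbar 𝒟)) := (tangentFinite_iff 𝒪 ρbar 𝒟).1 hfin
  choose t hc' ht using tangent_exists_tangentSub h𝒟 D hA r hr
  refine Nat.card_le_card_of_injective
    (fun u => (Quotient.mk (tangentSetoid 𝒪 ρbar 𝒟) (t u))) ?_
  intro u u' huu'
  have h1 : (t u).1.IsEquiv (t u').1 := Quotient.exact huu'
  rw [ht, ht] at h1
  have hconj : Conj (mapRep u.1 r) (mapRep u'.1 r) := conj_of_isEquiv h1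
  letI := dnAlg 𝒪
  have hε : IsTestRing 𝒪 (DualNumber (ResidueField 𝒪)) := isTestRing_dualNumber
  have hεR : IsResAlg 𝒪 (DualNumber (ResidueField 𝒪)) := hε.isResAlg
  have hloc : ∀ v : TangentHom 𝒪 A,
      IsLocalHom ((tangentAlgHom v : A →ₐ[𝒪] DualNumber (ResidueField 𝒪)) :
        A →+* DualNumber (ResidueField 𝒪)) :=
    fun v => hεR.isLocalHom_ringHom (tangentAlgHom v)
  have heq : mapRep u.1 r = mapRep u'.1 r :=
    Rigid.eq_of_conj hεR.isLocalHom D.he
      (tangent_framed_mapRep hr.1 (tangentAlgHom u) (hloc u))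
      (tangent_framed_mapRep hr.1 (tangentAlgHom u') (hloc u'))
      (tangent_rigid_mapRep hrig (tangentAlgHom u))
      (tangent_rigid_mapRep hrig (tangentAlgHom u')) hconj
  refine tangentHom_ext_of_adjoin hgen ?_
  rintro _ ⟨σ, i, j, rfl⟩
  have := congrFun (congrFun (congrArg (fun f => f σ) heq) i) j
  exact this

/-- **D2, final form.** A uniform bound for the cardinality of test algebras with `𝔪 ^ n = 0`
carrying a framed rigid `𝒟`-lift with generating entries. -/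
theorem tangent_card_le_of_lift [IsNoetherianRing 𝒪] (h𝒟 : GaloisRep.IsDeformationCondition 𝒪 𝒟)
    (hfin : GaloisRep.TangentFinite 𝒪 ρbar 𝒟)
    (D : RigidDatum 𝒪 ρbar) (hA : GaloisRep.IsArtinianTestAlgebra 𝒪 A)
    (r : Gal →* M2 A) (hr : IsDLift A 𝒟 D.ρm r) (hrig : Rigid D.e D.u r)
    (hgen : Algebra.adjoin 𝒪 {x : A | ∃ σ i j, x = r σ i j} = ⊤)
    {n : ℕ} (hn : maximalIdeal A ^ n = ⊥) :
    Finite A ∧
      Nat.card A ≤ tangentBound 𝒪 (Nat.card (Quotient (tangentSetoid 𝒪 ρbar 𝒟))) n := by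
  have hT : IsTestRing 𝒪 A := isTestRing_of_isArtinianTestAlgebra hA
  haveI := hT.finite
  exact ⟨hT.finite, tangent_card_le hT.isResAlg hn
    (tangentHom_card_le_of_lift h𝒟 hfin D hA r hr hrig hgen)⟩

end Glue

end Fermat.Agent.S53
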