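/-
S53, piece T (test algebras).  Owner: helper59.
Intrinsic description of the Artinian test algebras of `GaloisRep.IsArtinianTestAlgebra`
(no `IsLocalRing` instance needed as input) and their closure properties.
-/
import Fermat.Agent.S53.Defs

set_option autoImplicit false
set_option linter.unusedSectionVars false

namespace Fermat.Agent.S53

open IsLocalRing

section TestRing

variable (𝒪 : Type) [CommRing 𝒪] [IsLocalRing 𝒪]

/-- Intrinsic form of "finite Artinian test algebra": a nontrivial finite `𝒪`-algebra in which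
every element is congruent to a scalar modulo nilpotents, and `𝔪_𝒪` maps to nilpotents. -/
structure IsTestRing (A : Type) [CommRing A] [Algebra 𝒪 A] : Prop where
  nontrivial : Nontrivial A
  finite : Finite A
  res : ∀ a : A, ∃ x : 𝒪, IsNilpotent (a - algebraMap 𝒪 A x)
  nil : ∀ x ∈ maximalIdeal 𝒪, IsNilpotent (algebraMap 𝒪 A x)

variable {𝒪}
variable {A : Type} [CommRing A] [Algebra 𝒪 A]

/-- In a test ring, an element is a unit or nilpotent. -/
theorem IsTestRing.isUnit_or_isNilpotent (h : IsTestRing 𝒪 A) (a : A) :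
    IsUnit a ∨ IsNilpotent a := by
  obtain ⟨x, hx⟩ := h.res a
  by_cases hxu : IsUnit x
  · left
    have h1 : IsUnit (algebraMap 𝒪 A x) := hxu.map _
    have h2 : a = (a - algebraMap 𝒪 A x) + algebraMap 𝒪 A x := by ring
    rw [h2]
    exact hx.isUnit_add_right_of_commute h1 (Commute.all _ _)
  · right
    have hxm : x ∈ maximalIdeal 𝒪 := (IsLocalRing.mem_maximalIdeal x).2 hxu
    have h2 : a = (a - algebraMap 𝒪 A x) + algebraMap 𝒪 A x := by ring
    rw [h2]
    exact (Commute.all _ _).isNilpotent_add hx (h.nil x hxm)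

theorem IsTestRing.not_isUnit_iff_isNilpotent (h : IsTestRing 𝒪 A) (a : A) :
    ¬ IsUnit a ↔ IsNilpotent a := by
  have := h.nontrivial
  constructor
  · intro hu
    exact (h.isUnit_or_isNilpotent a).resolve_left hu
  · intro hn hu
    exact hn.not_isUnit hu

/-- A test ring is a local ring. -/
theorem IsTestRing.isLocalRing (h : IsTestRing 𝒪 A) : IsLocalRing A := by
  have := h.nontrivial
  refine IsLocalRing.of_nonunits_add ?_
  intro a b ha hb
  have ha' : IsNilpotent a := (h.not_isUnit_iff_isNilpotent a).1 ha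
  have hb' : IsNilpotent b := (h.not_isUnit_iff_isNilpotent b).1 hb
  exact (h.not_isUnit_iff_isNilpotent (a + b)).2 ((Commute.all _ _).isNilpotent_add ha' hb')

theorem IsTestRing.mem_maximalIdeal_iff [IsLocalRing A] (h : IsTestRing 𝒪 A) (a : A) :
    a ∈ maximalIdeal A ↔ IsNilpotent a := by
  rw [IsLocalRing.mem_maximalIdeal, mem_nonunits_iff]
  exact h.not_isUnit_iff_isNilpotent a

theorem IsTestRing.maximalIdeal_eq_nilradical [IsLocalRing A] (h : IsTestRing 𝒪 A) :
    maximalIdeal A = nilradical A := by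
  ext a
  rw [h.mem_maximalIdeal_iff, mem_nilradical]

theorem IsTestRing.isLocalHom [IsLocalRing A] (h : IsTestRing 𝒪 A) :
    IsLocalHom (algebraMap 𝒪 A) := by
  have := h.nontrivial
  refine ⟨fun x hx => ?_⟩
  by_contra hxu
  have hxm : x ∈ maximalIdeal 𝒪 := (IsLocalRing.mem_maximalIdeal x).2 hxu
  exact (h.nil x hxm).not_isUnit hx

theorem IsTestRing.residue_surjective [IsLocalRing A] (h : IsTestRing 𝒪 A) :
    Function.Surjective (IsLocalRing.residue A ∘ algebraMap 𝒪 A) := by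
  intro y
  obtain ⟨a, rfl⟩ := IsLocalRing.residue_surjective y
  obtain ⟨x, hx⟩ := h.res a
  refine ⟨x, ?_⟩
  have hm : a - algebraMap 𝒪 A x ∈ maximalIdeal A := (h.mem_maximalIdeal_iff _).2 hx
  have := (IsLocalRing.residue_eq_zero_iff _).2 hm
  rw [map_sub, sub_eq_zero] at this
  exact this.symm

theorem IsTestRing.isResAlg [IsLocalRing A] (h : IsTestRing 𝒪 A) : IsResAlg 𝒪 A :=
  ⟨h.isLocalHom, h.residue_surjective⟩

/-- A test ring is an Artinian test algebra in the sense of the prelude. -/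
theorem IsTestRing.isArtinianTestAlgebra [IsLocalRing A] (h : IsTestRing 𝒪 A) :
    GaloisRep.IsArtinianTestAlgebra 𝒪 A :=
  haveI := h.finite
  ⟨h.isLocalHom, h.residue_surjective, inferInstance⟩

/-- Test rings pull back along injective `𝒪`-algebra homomorphisms. -/
theorem IsTestRing.of_injective {B : Type} [CommRing B] [Algebra 𝒪 B] (h : IsTestRing 𝒪 A)
    (φ : B →ₐ[𝒪] A) (hφ : Function.Injective φ) : IsTestRing 𝒪 B := by
  have := h.nontrivial
  have := h.finite
  refine ⟨?_, Finite.of_injective φ hφ, ?_, ?_⟩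
  · exact ⟨⟨0, 1, fun h01 => zero_ne_one (α := A) (by simpa using congrArg φ h01)⟩⟩
  · intro b
    obtain ⟨x, hx⟩ := h.res (φ b)
    refine ⟨x, ?_⟩
    have : φ (b - algebraMap 𝒪 B x) = φ b - algebraMap 𝒪 A x := by simp
    rw [← this] at hx
    exact (IsNilpotent.map_iff hφ).1 hx
  · intro x hx
    have := h.nil x hx
    rw [← φ.commutes] at this
    exact (IsNilpotent.map_iff hφ).1 this

/-- Test rings push forward along surjective `𝒪`-algebra homomorphisms onto nontrivial rings. -/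
theorem IsTestRing.of_surjective {B : Type} [CommRing B] [Algebra 𝒪 B] [Nontrivial B]
    (h : IsTestRing 𝒪 A) (φ : A →ₐ[𝒪] B) (hφ : Function.Surjective φ) : IsTestRing 𝒪 B := by
  have := h.finite
  refine ⟨inferInstance, Finite.of_surjective φ hφ, ?_, ?_⟩
  · intro b
    obtain ⟨a, rfl⟩ := hφ b
    obtain ⟨x, hx⟩ := h.res a
    refine ⟨x, ?_⟩
    have := hx.map φ
    simpa using this
  · intro x hx
    have := (h.nil x hx).map φ
    simpa using this

/-- Transport along an `𝒪`-algebra isomorphism. -/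
theorem IsTestRing.of_algEquiv {B : Type} [CommRing B] [Algebra 𝒪 B]
    (h : IsTestRing 𝒪 A) (e : A ≃ₐ[𝒪] B) : IsTestRing 𝒪 B :=
  h.of_injective (e.symm : B →ₐ[𝒪] A) e.symm.injective

/-- A subalgebra of a test ring is a test ring. -/
theorem IsTestRing.subalgebra (h : IsTestRing 𝒪 A) (S : Subalgebra 𝒪 A) : IsTestRing 𝒪 S :=
  h.of_injective S.val Subtype.val_injective

/-- The range of an `𝒪`-algebra hom into a test ring is a test ring. -/
theorem IsTestRing.range {B : Type} [CommRing B] [Algebra 𝒪 B] (h : IsTestRing 𝒪 A)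
    (φ : B →ₐ[𝒪] A) : IsTestRing 𝒪 φ.range :=
  h.subalgebra φ.range

/-- The quotient of a test ring by a proper ideal is a test ring. -/
theorem IsTestRing.quotient (h : IsTestRing 𝒪 A) (I : Ideal A) (hI : I ≠ ⊤) :
    IsTestRing 𝒪 (A ⧸ I) := by
  have : Nontrivial (A ⧸ I) := Ideal.Quotient.nontrivial_iff.mpr hI
  exact h.of_surjective (Ideal.Quotient.mkₐ 𝒪 I) (Ideal.Quotient.mkₐ_surjective 𝒪 I)

/-- The maximal ideal of a test ring is nilpotent. -/
theorem IsTestRing.exists_maximalIdeal_pow_eq_bot [IsLocalRing A] (h : IsTestRing 𝒪 A) :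
    ∃ n, maximalIdeal A ^ n = ⊥ := by
  have := h.finite
  obtain ⟨n, hn⟩ := IsArtinianRing.isNilpotent_jacobson_bot (R := A)
  rw [IsLocalRing.jacobson_eq_maximalIdeal _ bot_ne_top] at hn
  exact ⟨n, hn⟩

theorem isResAlg_of_isArtinianTestAlgebra [IsLocalRing A]
    (h : GaloisRep.IsArtinianTestAlgebra 𝒪 A) : IsResAlg 𝒪 A :=
  ⟨h.isLocalHom, h.residue_surjective⟩

/-- The residue field of a local `𝒪`-algebra with `IsResAlg` is finite if that of `𝒪` is. -/
theorem IsResAlg.finite_residueField [IsLocalRing A] [Finite (ResidueField 𝒪)]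
    (h : IsResAlg 𝒪 A) : Finite (ResidueField A) := by
  have := h.isLocalHom
  refine Finite.of_surjective (IsLocalRing.ResidueField.map (algebraMap 𝒪 A)) ?_
  intro y
  obtain ⟨x, hx⟩ := h.residue_surjective y
  exact ⟨IsLocalRing.residue 𝒪 x, by rw [IsLocalRing.ResidueField.map_residue]; exact hx⟩

/-- Elements of a local `𝒪`-algebra with `IsResAlg` are scalars modulo the maximal ideal. -/
theorem IsResAlg.exists_sub_mem [IsLocalRing A] (h : IsResAlg 𝒪 A) (a : A) :
    ∃ x : 𝒪, a - algebraMap 𝒪 A x ∈ maximalIdeal A := by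
  obtain ⟨x, hx⟩ := h.residue_surjective (IsLocalRing.residue A a)
  refine ⟨x, ?_⟩
  rw [← IsLocalRing.residue_eq_zero_iff, map_sub, sub_eq_zero]
  exact hx.symm

theorem IsResAlg.algebraMap_mem [IsLocalRing A] (h : IsResAlg 𝒪 A) {x : 𝒪}
    (hx : x ∈ maximalIdeal 𝒪) : algebraMap 𝒪 A x ∈ maximalIdeal A := by
  have := h.isLocalHom
  exact map_nonunit (algebraMap 𝒪 A) x hx

theorem IsResAlg.algebraMap_mem_iff [IsLocalRing A] (h : IsResAlg 𝒪 A) {x : 𝒪} :
    algebraMap 𝒪 A x ∈ maximalIdeal A ↔ x ∈ maximalIdeal 𝒪 := by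
  refine ⟨fun hx => ?_, h.algebraMap_mem⟩
  by_contra hxm
  have hu : IsUnit x := by
    by_contra hu
    exact hxm ((IsLocalRing.mem_maximalIdeal x).2 hu)
  exact (IsLocalRing.mem_maximalIdeal _).1 hx (hu.map _)

/-- A Noetherian local `𝒪`-algebra with `IsResAlg` and nilpotent maximal ideal is a test ring. -/
theorem isTestRing_of_isResAlg_of_pow_eq_bot [IsLocalRing A] [IsNoetherianRing A]
    [Finite (ResidueField 𝒪)] (h : IsResAlg 𝒪 A) (n : ℕ) (hn : maximalIdeal A ^ n = ⊥) :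
    IsTestRing 𝒪 A := by
  have := h.finite_residueField
  refine ⟨inferInstance, ?_, ?_, ?_⟩
  · have hfin : Finite (A ⧸ (⊥ : Ideal A)) := IsLocalRing.finite_quotient_iff.2 ⟨n, hn.le⟩
    exact Finite.of_injective (Ideal.Quotient.mk (⊥ : Ideal A))
      ((injective_iff_map_eq_zero _).2 fun a ha => by
        rwa [Ideal.Quotient.eq_zero_iff_mem, Ideal.mem_bot] at ha)
  · intro a
    obtain ⟨x, hx⟩ := h.exists_sub_mem a
    refine ⟨x, n, ?_⟩
    have := Ideal.pow_mem_pow hx n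
    rwa [hn, Ideal.mem_bot] at this
  · intro x hx
    refine ⟨n, ?_⟩
    have := Ideal.pow_mem_pow (h.algebraMap_mem hx) n
    rwa [hn, Ideal.mem_bot] at this

/-- Converse: an Artinian test algebra (prelude sense) over `𝒪` with finite residue field is a
test ring. -/
theorem isTestRing_of_isArtinianTestAlgebra [IsLocalRing A] [Finite (ResidueField 𝒪)]
    (h : GaloisRep.IsArtinianTestAlgebra 𝒪 A) : IsTestRing 𝒪 A := by
  have := h.isArtinian
  obtain ⟨n, hn⟩ := IsArtinianRing.isNilpotent_jacobson_bot (R := A)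
  rw [IsLocalRing.jacobson_eq_maximalIdeal _ bot_ne_top] at hn
  exact isTestRing_of_isResAlg_of_pow_eq_bot (isResAlg_of_isArtinianTestAlgebra h) n hn

theorem isTestRing_iff_isArtinianTestAlgebra [IsLocalRing A] [Finite (ResidueField 𝒪)] :
    IsTestRing 𝒪 A ↔ GaloisRep.IsArtinianTestAlgebra 𝒪 A :=
  ⟨fun h => h.isArtinianTestAlgebra, isTestRing_of_isArtinianTestAlgebra⟩

/-- For a Noetherian local `𝒪`-algebra `A` with the same residue field, `A ⧸ 𝔪 ^ n` (`n ≥ 1`)
is a test ring. -/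
theorem isTestRing_quotient_maximalIdeal_pow [IsLocalRing A] [IsNoetherianRing A]
    [Finite (ResidueField 𝒪)] (h : IsResAlg 𝒪 A) (n : ℕ) (hn : 1 ≤ n) :
    IsTestRing 𝒪 (A ⧸ maximalIdeal A ^ n) := by
  have := h.finite_residueField
  have hne : maximalIdeal A ^ n ≠ ⊤ := by
    intro htop
    have h1 : maximalIdeal A ^ n ≤ maximalIdeal A := Ideal.pow_le_self (by omega)
    rw [htop] at h1
    exact (IsLocalRing.maximalIdeal.isMaximal A).ne_top (top_le_iff.1 h1)
  refine ⟨Ideal.Quotient.nontrivial_iff.mpr hne, IsLocalRing.finite_quotient_iff.2 ⟨n, le_rfl⟩,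
    ?_, ?_⟩
  · intro b
    obtain ⟨a, rfl⟩ := Ideal.Quotient.mk_surjective b
    obtain ⟨x, hx⟩ := h.exists_sub_mem a
    refine ⟨x, n, ?_⟩
    have h1 := Ideal.pow_mem_pow hx n
    have h2 : (Ideal.Quotient.mk (maximalIdeal A ^ n) a -
        algebraMap 𝒪 (A ⧸ maximalIdeal A ^ n) x) ^ n =
        Ideal.Quotient.mk (maximalIdeal A ^ n) ((a - algebraMap 𝒪 A x) ^ n) := by
      rw [map_pow, map_sub]; rfl
    rw [h2]
    exact Ideal.Quotient.eq_zero_iff_mem.2 h1
  · intro x hx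
    refine ⟨n, ?_⟩
    have h1 := Ideal.pow_mem_pow (h.algebraMap_mem hx) n
    have h2 : (algebraMap 𝒪 (A ⧸ maximalIdeal A ^ n) x) ^ n =
        Ideal.Quotient.mk (maximalIdeal A ^ n) ((algebraMap 𝒪 A x) ^ n) := by
      rw [map_pow]; rfl
    rw [h2]
    exact Ideal.Quotient.eq_zero_iff_mem.2 h1

end TestRing

section Quotient

variable {𝒪 : Type} [CommRing 𝒪] [IsLocalRing 𝒪]
variable {P : Type} [CommRing P] [Algebra 𝒪 P]

theorem isNilpotent_quotient_mk_iff (J : Ideal P) (p : P) :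
    IsNilpotent (Ideal.Quotient.mk J p) ↔ p ∈ J.radical := by
  constructor
  · rintro ⟨n, hn⟩
    rw [← map_pow, Ideal.Quotient.eq_zero_iff_mem] at hn
    exact ⟨n, hn⟩
  · rintro ⟨n, hn⟩
    refine ⟨n, ?_⟩
    rw [← map_pow, Ideal.Quotient.eq_zero_iff_mem]
    exact hn

/-- Ideal-theoretic criterion for `P ⧸ J` to be a test ring. -/
theorem isTestRing_quotient_iff (J : Ideal P) :
    IsTestRing 𝒪 (P ⧸ J) ↔
      J ≠ ⊤ ∧ Finite (P ⧸ J) ∧ (∀ p : P, ∃ x : 𝒪, p - algebraMap 𝒪 P x ∈ J.radical) ∧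
        ∀ x ∈ maximalIdeal 𝒪, algebraMap 𝒪 P x ∈ J.radical := by
  constructor
  · intro h
    refine ⟨?_, h.finite, ?_, ?_⟩
    · have := h.nontrivial
      exact Ideal.Quotient.nontrivial_iff.mp this
    · intro p
      obtain ⟨x, hx⟩ := h.res (Ideal.Quotient.mk J p)
      refine ⟨x, ?_⟩
      rw [← isNilpotent_quotient_mk_iff, map_sub]
      exact hx
    · intro x hx
      rw [← isNilpotent_quotient_mk_iff]
      exact h.nil x hx
  · rintro ⟨hne, hfin, hres, hnil⟩
    refine ⟨Ideal.Quotient.nontrivial_iff.mpr hne, hfin, ?_, ?_⟩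
    · intro b
      obtain ⟨p, rfl⟩ := Ideal.Quotient.mk_surjective b
      obtain ⟨x, hx⟩ := hres p
      refine ⟨x, ?_⟩
      rw [← isNilpotent_quotient_mk_iff, map_sub] at hx
      exact hx
    · intro x hx
      have := hnil x hx
      rw [← isNilpotent_quotient_mk_iff] at this
      exact this

/-- If `P ⧸ J` and `P ⧸ J'` are test rings and `J ⊔ J' ≠ ⊤`, then `P ⧸ (J ⊓ J')` is a test ring.
(The hypothesis `J ⊔ J' ≠ ⊤` is necessary: otherwise `P ⧸ (J ⊓ J')` is a product.) -/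
theorem IsTestRing.quotient_inf {J J' : Ideal P} (hJ : IsTestRing 𝒪 (P ⧸ J))
    (hJ' : IsTestRing 𝒪 (P ⧸ J')) (hne : J ⊔ J' ≠ ⊤) : IsTestRing 𝒪 (P ⧸ (J ⊓ J')) := by
  rw [isTestRing_quotient_iff] at hJ hJ' ⊢
  obtain ⟨hJne, hJfin, hJres, hJnil⟩ := hJ
  obtain ⟨hJ'ne, hJ'fin, hJ'res, hJ'nil⟩ := hJ'
  refine ⟨fun htop => hJne (top_le_iff.1 (htop ▸ inf_le_left)), ?_, ?_, ?_⟩
  · -- finiteness: `P ⧸ (J ⊓ J')` embeds into `(P ⧸ J) × (P ⧸ J')`
    let f : P ⧸ (J ⊓ J') → (P ⧸ J) × (P ⧸ J') := fun x =>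
      (Ideal.Quotient.factor (inf_le_left : J ⊓ J' ≤ J) x,
        Ideal.Quotient.factor (inf_le_right : J ⊓ J' ≤ J') x)
    refine Finite.of_injective f ?_
    intro a b hab
    obtain ⟨a, rfl⟩ := Ideal.Quotient.mk_surjective a
    obtain ⟨b, rfl⟩ := Ideal.Quotient.mk_surjective b
    simp only [f, Prod.mk.injEq, Ideal.Quotient.factor_mk] at hab
    rw [Ideal.Quotient.eq]
    exact ⟨Ideal.Quotient.eq.1 hab.1, Ideal.Quotient.eq.1 hab.2⟩
  · intro p
    obtain ⟨x, hx⟩ := hJres p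
    obtain ⟨x', hx'⟩ := hJ'res p
    refine ⟨x, ?_⟩
    rw [Ideal.radical_inf]
    refine ⟨hx, ?_⟩
    -- `x - x'` is not a unit
    have hxx : x' - x ∈ maximalIdeal 𝒪 := by
      rw [IsLocalRing.mem_maximalIdeal, mem_nonunits_iff]
      intro hu
      have h1 : algebraMap 𝒪 P (x' - x) ∈ (J ⊔ J').radical := by
        have e : algebraMap 𝒪 P (x' - x) = (p - algebraMap 𝒪 P x) - (p - algebraMap 𝒪 P x') := by
          rw [map_sub]; ring
        rw [e]
        exact Ideal.sub_mem _ (Ideal.radical_mono le_sup_left hx)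
          (Ideal.radical_mono le_sup_right hx')
      have h2 : (J ⊔ J').radical = ⊤ :=
        Ideal.eq_top_of_isUnit_mem _ h1 (hu.map _)
      exact hne (Ideal.radical_eq_top.1 h2)
    have e : p - algebraMap 𝒪 P x = (p - algebraMap 𝒪 P x') + algebraMap 𝒪 P (x' - x) := by
      rw [map_sub]; ring
    rw [e]
    exact Ideal.add_mem _ hx' (hJ'nil _ hxx)
  · intro x hx
    rw [Ideal.radical_inf]
    exact ⟨hJnil x hx, hJ'nil x hx⟩

/-- `P ⧸ (J ⊓ J')` embeds into `(P ⧸ J) × (P ⧸ J')`. -/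
theorem quotient_inf_injective (J J' : Ideal P) :
    Function.Injective (fun x : P ⧸ (J ⊓ J') =>
      (Ideal.Quotient.factorₐ 𝒪 (inf_le_left : J ⊓ J' ≤ J) x,
        Ideal.Quotient.factorₐ 𝒪 (inf_le_right : J ⊓ J' ≤ J') x)) := by
  intro a b hab
  obtain ⟨a, rfl⟩ := Ideal.Quotient.mk_surjective a
  obtain ⟨b, rfl⟩ := Ideal.Quotient.mk_surjective b
  simp only [Prod.mk.injEq, Ideal.Quotient.factorₐ_apply_mk] at hab
  rw [Ideal.Quotient.eq]
  exact ⟨Ideal.Quotient.eq.1 hab.1, Ideal.Quotient.eq.1 hab.2⟩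

/-- `P ⧸ (J ⊓ J')` is the fibre product of `P ⧸ J` and `P ⧸ J'` over `P ⧸ (J ⊔ J')`. -/
theorem quotient_inf_fibre (J J' : Ideal P) (a : P ⧸ J) (b : P ⧸ J')
    (hab : Ideal.Quotient.factorₐ 𝒪 (le_sup_left : J ≤ J ⊔ J') a =
      Ideal.Quotient.factorₐ 𝒪 (le_sup_right : J' ≤ J ⊔ J') b) :
    ∃ x : P ⧸ (J ⊓ J'), Ideal.Quotient.factorₐ 𝒪 (inf_le_left : J ⊓ J' ≤ J) x = a ∧
      Ideal.Quotient.factorₐ 𝒪 (inf_le_right : J ⊓ J' ≤ J') x = b := by
  obtain ⟨p, rfl⟩ := Ideal.Quotient.mk_surjective a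
  obtain ⟨p', rfl⟩ := Ideal.Quotient.mk_surjective b
  simp only [Ideal.Quotient.factorₐ_apply_mk] at hab
  rw [Ideal.Quotient.eq, Submodule.mem_sup] at hab
  obtain ⟨j, hj, j', hj', hjj⟩ := hab
  refine ⟨Ideal.Quotient.mk _ (p - j), ?_, ?_⟩
  · simp only [Ideal.Quotient.factorₐ_apply_mk]
    rw [Ideal.Quotient.eq]
    have : p - j - p = -j := by ring
    rw [this]
    exact J.neg_mem hj
  · simp only [Ideal.Quotient.factorₐ_apply_mk]
    rw [Ideal.Quotient.eq]
    have : p - j - p' = j' := by linear_combination -hjj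
    rw [this]
    exact hj'

/-- The two composites `P ⧸ (J ⊓ J') → P ⧸ (J ⊔ J')` agree. -/
theorem quotient_inf_comm (J J' : Ideal P) :
    (Ideal.Quotient.factorₐ 𝒪 (le_sup_left : J ≤ J ⊔ J')).comp
        (Ideal.Quotient.factorₐ 𝒪 (inf_le_left : J ⊓ J' ≤ J)) =
      (Ideal.Quotient.factorₐ 𝒪 (le_sup_right : J' ≤ J ⊔ J')).comp
        (Ideal.Quotient.factorₐ 𝒪 (inf_le_right : J ⊓ J' ≤ J')) := by
  apply AlgHom.ext
  intro x
  obtain ⟨p, rfl⟩ := Ideal.Quotient.mk_surjective x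
  simp only [AlgHom.comp_apply, Ideal.Quotient.factorₐ_apply_mk]

end Quotient

section LocalHom

variable {𝒪 : Type} [CommRing 𝒪] [IsLocalRing 𝒪]
variable {A B : Type} [CommRing A] [IsLocalRing A] [Algebra 𝒪 A]
  [CommRing B] [IsLocalRing B] [Algebra 𝒪 B]

/-- Any `𝒪`-algebra homomorphism from a local ring to a local `𝒪`-algebra with the same residue
field as `𝒪` is a local homomorphism. -/
theorem IsResAlg.isUnit_of_map (hB : IsResAlg 𝒪 B) (φ : A →ₐ[𝒪] B) (a : A)
    (ha : IsUnit (φ a)) : IsUnit a := by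
  by_contra hna
  have hm : a ∈ maximalIdeal A := (IsLocalRing.mem_maximalIdeal a).2 hna
  obtain ⟨y, hy⟩ := hB.exists_sub_mem (φ a)
  -- `y` is a unit of `𝒪`
  have hyu : IsUnit y := by
    by_contra hyn
    have hym : algebraMap 𝒪 B y ∈ maximalIdeal B :=
      hB.algebraMap_mem ((IsLocalRing.mem_maximalIdeal y).2 hyn)
    have : φ a ∈ maximalIdeal B := by
      have e : φ a = (φ a - algebraMap 𝒪 B y) + algebraMap 𝒪 B y := by ring
      rw [e]
      exact Ideal.add_mem _ hy hym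
    exact (IsLocalRing.mem_maximalIdeal _).1 this ha
  -- so `a - y` is a unit of `A`, but its image is not a unit
  have h1 : IsUnit (a - algebraMap 𝒪 A y) := by
    by_contra hn
    have hm' : a - algebraMap 𝒪 A y ∈ maximalIdeal A := (IsLocalRing.mem_maximalIdeal _).2 hn
    have : algebraMap 𝒪 A y ∈ maximalIdeal A := by
      have e : algebraMap 𝒪 A y = a - (a - algebraMap 𝒪 A y) := by ring
      rw [e]
      exact Ideal.sub_mem _ hm hm'
    exact (IsLocalRing.mem_maximalIdeal _).1 this (hyu.map _)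
  have h2 : IsUnit (φ a - algebraMap 𝒪 B y) := by
    have := h1.map φ
    simpa using this
  exact (IsLocalRing.mem_maximalIdeal _).1 hy h2

theorem IsResAlg.isLocalHom_algHom (hB : IsResAlg 𝒪 B) (φ : A →ₐ[𝒪] B) : IsLocalHom φ :=
  ⟨fun a ha => hB.isUnit_of_map φ a ha⟩

theorem IsResAlg.isLocalHom_ringHom (hB : IsResAlg 𝒪 B) (φ : A →ₐ[𝒪] B) :
    IsLocalHom (φ : A →+* B) :=
  ⟨fun a ha => hB.isUnit_of_map φ a ha⟩

end LocalHom

end Fermat.Agent.S53
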