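/-
S53: the residual representation itself is a rigid framed `𝒟`-lift to the residue field
(the base point, needed for non-emptiness of the family of admissible ideals).  (Owner: helper53.)
-/
import Fermat.Agent.S53.Matrix
import Fermat.Agent.S53.TestAlg

set_option autoImplicit false

namespace Fermat.Agent.S53

open IsLocalRing GaloisRep

variable {𝒪 : Type} [CommRing 𝒪] [IsLocalRing 𝒪]
  {ρbar : ResidualGaloisRep (IsLocalRing.ResidueField 𝒪)}
  {𝒟 : ∀ ⦃A : Type⦄ [CommRing A] [IsLocalRing A] [Algebra 𝒪 A], GaloisRepAdic A → Prop}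

/-- the residue field is an Artinian test algebra -/
lemma isArtinianTestAlgebra_residueField : IsArtinianTestAlgebra 𝒪 (ResidueField 𝒪) where
  isLocalHom := by
    constructor
    intro a ha
    by_contra hna
    have h0 : IsLocalRing.residue 𝒪 a = 0 := (IsLocalRing.residue_eq_zero_iff a).2 hna
    rw [IsLocalRing.ResidueField.algebraMap_eq, h0] at ha
    exact not_isUnit_zero ha
  residue_surjective := by
    intro y
    obtain ⟨z, rfl⟩ := IsLocalRing.residue_surjective y
    obtain ⟨x, rfl⟩ := IsLocalRing.residue_surjective z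
    exact ⟨x, rfl⟩
  isArtinian := inferInstance

lemma framed_bar (D : RigidDatum 𝒪 ρbar) : Framed (ResidueField 𝒪) D.ρm D.ρm := by
  intro σ i j x hx
  rw [IsLocalRing.ResidueField.algebraMap_eq, hx, sub_self]
  exact zero_mem _

lemma matCont_bar (D : RigidDatum 𝒪 ρbar) : MatCont (ResidueField 𝒪) D.ρm := by
  intro n
  obtain ⟨L, hL, h⟩ := ρbar.factorsThroughFiniteLevel
  refine ⟨L, hL, fun σ hσ i j => ?_⟩
  have h1 : D.ρm σ = 1 := by
    rw [D.ρm_eq, h σ hσ]
    exact LinearMap.toMatrix_one D.b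
  rw [h1, sub_self]
  exact zero_mem _

lemma rigid_bar (D : RigidDatum 𝒪 ρbar) : Rigid D.e D.u D.ρm := by
  refine ⟨?_, ?_, ?_⟩
  · rw [D.he]; simp [Matrix.single]
  · rw [D.hu]; simp [Matrix.single]
  · rw [D.hu]; simp [Matrix.single]

/-- the base point: `ρbar` in matrix form is a `𝒟`-lift of itself -/
theorem isDLift_bar (h𝒟 : IsDeformationCondition 𝒪 𝒟) (D : RigidDatum 𝒪 ρbar)
    (hbar : 𝒟 (GaloisRepAdic.ofResidualGaloisRep ρbar)) :
    IsDLift (ResidueField 𝒪) 𝒟 D.ρm D.ρm := by
  refine ⟨framed_bar D, matCont_bar D, ?_⟩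
  have e : GaloisRepAdic.Equiv (GaloisRepAdic.ofResidualGaloisRep ρbar)
      (ofMatrix D.ρm (matCont_bar D)) :=
    { toLinearEquiv := D.b.equivFun
      map_apply := fun σ x => by
        show D.b.equivFun (ρbar.ρ σ x) = (D.ρm σ).mulVec (D.b.equivFun x)
        rw [D.ρm_eq]
        exact (LinearMap.toMatrix_mulVec_repr D.b D.b (ρbar.ρ σ) x).symm }
  exact h𝒟.of_isEquiv isArtinianTestAlgebra_residueField ⟨e⟩ hbar

end Fermat.Agent.S53
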