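/-
S53 part F: from Artinian-level universality of a rigid pair `(R, r)` to `DeformationRingData`.
(Owner: helper53.)
-/
import Fermat.Agent.S53.Matrix
import Fermat.Agent.S53.Rigid
import Fermat.Agent.S53.TestAlg

set_option autoImplicit false

namespace Fermat.Agent.S53

open IsLocalRing GaloisRep

section Maps

variable {𝒪 : Type} [CommRing 𝒪] [IsLocalRing 𝒪]
variable {A B : Type} [CommRing A] [IsLocalRing A] [Algebra 𝒪 A]
  [CommRing B] [IsLocalRing B] [Algebra 𝒪 B]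

lemma Final.framed_map {ρm : Gal →* M2 (ResidueField 𝒪)} {r : Gal →* M2 A}
    (hf : Framed A ρm r) (φ : A →ₐ[𝒪] B) (hφ : IsLocalHom (φ : A →+* B)) :
    Framed B ρm (mapRep (φ : A →+* B) r) := by
  intro σ i j x hx
  have h1 := hf σ i j x hx
  have h2 : mapRep (φ : A →+* B) r σ i j - algebraMap 𝒪 B x = φ (r σ i j - algebraMap 𝒪 A x) := by
    rw [map_sub, AlgHom.commutes]; rfl
  rw [h2]
  have := map_maximalIdeal_pow_le (φ : A →+* B) hφ 1 (by simpa using h1)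
  simpa using this

lemma Final.evalAt_mapRep (r : Gal →* M2 A) (φ : A →ₐ[𝒪] B) (e : Gal →₀ 𝒪) (i j : Fin 2) :
    evalAt (mapRep (φ : A →+* B) r) e i j = φ (evalAt r e i j) := by
  rw [evalAt_apply, evalAt_apply, Finsupp.sum, Finsupp.sum, map_sum]
  refine Finset.sum_congr rfl fun σ _ => ?_
  rw [map_mul, AlgHom.commutes]; rfl

lemma Final.rigid_map {e u : Gal →₀ 𝒪} {r : Gal →* M2 A} (h : Rigid e u r) (φ : A →ₐ[𝒪] B) :
    Rigid e u (mapRep (φ : A →+* B) r) := by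
  obtain ⟨h1, h2, h3⟩ := h
  refine ⟨?_, ?_, ?_⟩
  · rw [Final.evalAt_mapRep, h1, map_zero]
  · rw [Final.evalAt_mapRep, h2, map_zero]
  · rw [Final.evalAt_mapRep, h3, map_one]

end Maps

section Main

variable {𝒪 : Type} [CommRing 𝒪] [IsDomain 𝒪] [IsDiscreteValuationRing 𝒪]
  [IsAdicComplete (IsLocalRing.maximalIdeal 𝒪) 𝒪] [Finite (IsLocalRing.ResidueField 𝒪)]
  {ρbar : ResidualGaloisRep (IsLocalRing.ResidueField 𝒪)}
  {𝒟 : ∀ ⦃A : Type⦄ [CommRing A] [IsLocalRing A] [Algebra 𝒪 A], GaloisRepAdic A → Prop}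

/-- Hausdorff: an element lying in all powers of the maximal ideal is zero. -/
lemma Final.eq_zero_of_forall_mem_pow {A : Type} [CommRing A] [IsLocalRing A]
    [IsAdicComplete (maximalIdeal A) A] (x : A) (h : ∀ n, x ∈ maximalIdeal A ^ n) : x = 0 := by
  refine IsHausdorff.haus (IsAdicComplete.toIsHausdorff (I := maximalIdeal A) (M := A)) x ?_
  intro n
  rw [SModEq.zero]
  simpa using h n

/-- The reduction of a `𝒟`-deformation over a complete ring to an Artinian quotient. -/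
lemma Final.isDLift_quotient (h𝒟 : IsDeformationCondition 𝒪 𝒟) (D : RigidDatum 𝒪 ρbar)
    {A : Type} [CommRing A] [IsLocalRing A] [IsNoetherianRing A]
    [IsAdicComplete (maximalIdeal A) A] [Algebra 𝒪 A]
    (hloc : IsLocalHom (algebraMap 𝒪 A))
    (hsurj : Function.Surjective (IsLocalRing.residue A ∘ algebraMap 𝒪 A))
    (ρA : GaloisRepAdic A) (hρA : 𝒟 ρA) (rA : Gal →* M2 A) (hcA : MatCont A rA)
    (hfA : Framed A D.ρm rA) (heq : ρA.IsEquiv (ofMatrix rA hcA))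
    {B : Type} [CommRing B] [IsLocalRing B] [Algebra 𝒪 B] (hB : IsArtinianTestAlgebra 𝒪 B)
    (q : A →ₐ[𝒪] B) (hq : IsLocalHom (q : A →+* B)) (hqs : Function.Surjective q) :
    IsDLift B 𝒟 D.ρm (mapRep (q : A →+* B) rA) := by
  refine ⟨Final.framed_map hfA q hq, hcA.map _ hq, ?_⟩
  have h1 := (h𝒟.iff_forall_surjective hloc hsurj ρA).1 hρA hB q hq hqs
  obtain ⟨e⟩ := heq
  exact h𝒟.of_isEquiv hB
    ⟨(e.baseChangeAlong (q : A →+* B) hq).trans (ofMatrixBaseChangeEquiv _ hq rA hcA)⟩ h1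

/-- Two algebra maps into a complete local ring that agree modulo all powers of the maximal
ideal are equal. -/
lemma Final.algHom_ext_of_forall_mk {R A : Type} [CommRing R] [Algebra 𝒪 R] [CommRing A]
    [IsLocalRing A] [IsAdicComplete (maximalIdeal A) A] [Algebra 𝒪 A] (Φ Φ' : R →ₐ[𝒪] A)
    (h : ∀ n, 1 ≤ n → (Ideal.Quotient.mkₐ 𝒪 (maximalIdeal A ^ n)).comp Φ =
      (Ideal.Quotient.mkₐ 𝒪 (maximalIdeal A ^ n)).comp Φ') : Φ = Φ' := by
  ext x
  rw [← sub_eq_zero]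
  apply Final.eq_zero_of_forall_mem_pow
  intro n
  have hn : maximalIdeal A ^ (n + 1) ≤ maximalIdeal A ^ n := Ideal.pow_le_pow_right (by omega)
  apply hn
  rw [← Ideal.Quotient.eq]
  exact congrArg (fun ψ : R →ₐ[𝒪] A ⧸ maximalIdeal A ^ (n + 1) => ψ x) (h (n + 1) (by omega))

variable (h𝒟 : IsDeformationCondition 𝒪 𝒟) (D : RigidDatum 𝒪 ρbar)
  {R : Type} [CommRing R] [IsLocalRing R] [Algebra 𝒪 R]
  (r : Gal →* M2 R)
  (hex : ∀ (B : Type) [CommRing B] [IsLocalRing B] [Algebra 𝒪 B], IsArtinianTestAlgebra 𝒪 B →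
    ∀ s : Gal →* M2 B, IsDLift B 𝒟 D.ρm s → Rigid D.e D.u s →
      ∃ φ : R →ₐ[𝒪] B, mapRep (φ : R →+* B) r = s)
  (hext : ∀ (B : Type) [CommRing B] [IsLocalRing B] [Algebra 𝒪 B], IsArtinianTestAlgebra 𝒪 B →
    ∀ φ ψ : R →ₐ[𝒪] B, mapRep (φ : R →+* B) r = mapRep (ψ : R →+* B) r → φ = ψ)

include hext in
/-- uniqueness over a complete ring -/
lemma Final.hom_ext {A : Type} [CommRing A] [IsLocalRing A] [IsNoetherianRing A]
    [IsAdicComplete (maximalIdeal A) A] [Algebra 𝒪 A] (hA : IsResAlg 𝒪 A)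
    (Φ Φ' : R →ₐ[𝒪] A) (h : mapRep (Φ : R →+* A) r = mapRep (Φ' : R →+* A) r) : Φ = Φ' := by
  apply Final.algHom_ext_of_forall_mk
  intro n hn
  have hT : IsTestRing 𝒪 (A ⧸ maximalIdeal A ^ n) := isTestRing_quotient_maximalIdeal_pow hA n hn
  haveI : IsLocalRing (A ⧸ maximalIdeal A ^ n) := hT.isLocalRing
  apply hext _ hT.isArtinianTestAlgebra
  ext σ i j
  have := congrArg (fun ρ : Gal →* M2 A => Ideal.Quotient.mk (maximalIdeal A ^ n) (ρ σ i j)) h
  exact this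

include h𝒟 hex hext in
/-- existence over a complete ring -/
lemma Final.exists_hom {A : Type} [CommRing A] [IsLocalRing A] [IsNoetherianRing A]
    [IsAdicComplete (maximalIdeal A) A] [Algebra 𝒪 A]
    (hloc : IsLocalHom (algebraMap 𝒪 A))
    (hsurj : Function.Surjective (IsLocalRing.residue A ∘ algebraMap 𝒪 A))
    (ρA : GaloisRepAdic A) (hρA : 𝒟 ρA) (rA : Gal →* M2 A) (hcA : MatCont A rA)
    (hfA : Framed A D.ρm rA) (hrA : Rigid D.e D.u rA) (heq : ρA.IsEquiv (ofMatrix rA hcA)) :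
    ∃ Φ : R →ₐ[𝒪] A, mapRep (Φ : R →+* A) r = rA := by
  have hA : IsResAlg 𝒪 A := ⟨hloc, hsurj⟩
  have hT : ∀ n, 1 ≤ n → IsTestRing 𝒪 (A ⧸ maximalIdeal A ^ n) := fun n hn =>
    isTestRing_quotient_maximalIdeal_pow hA n hn
  -- the maps at finite level
  have hφ : ∀ n, 1 ≤ n → ∃ φ : R →ₐ[𝒪] A ⧸ maximalIdeal A ^ n,
      mapRep (φ : R →+* A ⧸ maximalIdeal A ^ n) r =
        mapRep (Ideal.Quotient.mk (maximalIdeal A ^ n)) rA := by
    intro n hn
    haveI : IsLocalRing (A ⧸ maximalIdeal A ^ n) := (hT n hn).isLocalRing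
    have hB := (hT n hn).isArtinianTestAlgebra
    have hq : IsLocalHom ((Ideal.Quotient.mkₐ 𝒪 (maximalIdeal A ^ n) :
        A →ₐ[𝒪] A ⧸ maximalIdeal A ^ n) : A →+* A ⧸ maximalIdeal A ^ n) :=
      (hT n hn).isResAlg.isLocalHom_ringHom (Ideal.Quotient.mkₐ 𝒪 (maximalIdeal A ^ n))
    have h1 : IsDLift (A ⧸ maximalIdeal A ^ n) 𝒟 D.ρm
        (mapRep (Ideal.Quotient.mk (maximalIdeal A ^ n)) rA) :=
      Final.isDLift_quotient (B := A ⧸ maximalIdeal A ^ n) h𝒟 D hloc hsurj ρA hρA rA hcA hfA heq hB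
        (Ideal.Quotient.mkₐ 𝒪 (maximalIdeal A ^ n)) hq (Ideal.Quotient.mkₐ_surjective _ _)
    have h2 : Rigid D.e D.u (mapRep (Ideal.Quotient.mk (maximalIdeal A ^ n)) rA) :=
      Final.rigid_map hrA (Ideal.Quotient.mkₐ 𝒪 (maximalIdeal A ^ n))
    exact hex (A ⧸ maximalIdeal A ^ n) hB _ h1 h2
  choose φ hφ using hφ
  have hcompat : ∀ a b (ha : 1 ≤ a) (hab : a ≤ b),
      (Ideal.Quotient.factorₐ 𝒪 (Ideal.pow_le_pow_right hab)).comp (φ b (ha.trans hab)) =
        φ a ha := by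
    intro a b ha hab
    haveI : IsLocalRing (A ⧸ maximalIdeal A ^ a) := (hT a ha).isLocalRing
    apply hext _ (hT a ha).isArtinianTestAlgebra
    ext σ i j
    have h1 := congrArg (fun ρ : Gal →* M2 (A ⧸ maximalIdeal A ^ b) => ρ σ i j)
      (hφ b (ha.trans hab))
    have h2 := congrArg (fun ρ : Gal →* M2 (A ⧸ maximalIdeal A ^ a) => ρ σ i j) (hφ a ha)
    simp only [mapRep_apply] at h1 h2
    show Ideal.Quotient.factor (Ideal.pow_le_pow_right hab) (φ b (ha.trans hab) (r σ i j)) =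
      φ a ha (r σ i j)
    have h1' : φ b (ha.trans hab) (r σ i j) = Ideal.Quotient.mk _ (rA σ i j) := h1
    have h2' : φ a ha (r σ i j) = Ideal.Quotient.mk _ (rA σ i j) := h2
    rw [h1', h2', Ideal.Quotient.factor_mk]
  let f : (n : ℕ) → R →ₐ[𝒪] A ⧸ maximalIdeal A ^ n := fun n =>
    (Ideal.Quotient.factorₐ 𝒪 (Ideal.pow_le_pow_right (Nat.le_succ n))).comp
      (φ (n + 1) (Nat.succ_le_succ (Nat.zero_le n)))
  have hf : ∀ {m n : ℕ} (hle : m ≤ n),
      (Ideal.Quotient.factorₐ 𝒪 (Ideal.pow_le_pow_right hle)).comp (f n) = f m := by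
    intro m n hle
    ext x
    have hc := congrArg (fun ψ : R →ₐ[𝒪] A ⧸ maximalIdeal A ^ (m + 1) => ψ x)
      (hcompat (m + 1) (n + 1) (by omega) (by omega))
    simp only [f, AlgHom.comp_apply]
    rw [← hc]
    simp only [AlgHom.comp_apply]
    obtain ⟨y, hy⟩ := Ideal.Quotient.mk_surjective (φ (n + 1) (by omega) x)
    rw [← hy]
    rfl
  refine ⟨IsAdicComplete.liftAlgHom (maximalIdeal A) f hf, ?_⟩
  ext σ i j
  show IsAdicComplete.liftAlgHom (maximalIdeal A) f hf (r σ i j) = rA σ i j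
  rw [← sub_eq_zero]
  apply Final.eq_zero_of_forall_mem_pow
  intro n
  rw [← Ideal.Quotient.eq, IsAdicComplete.mk_liftAlgHom]
  have h1 := congrArg (fun ρ : Gal →* M2 (A ⧸ maximalIdeal A ^ (n + 1)) => ρ σ i j)
    (hφ (n + 1) (by omega))
  simp only [mapRep_apply] at h1
  have h1' : φ (n + 1) (by omega) (r σ i j) = Ideal.Quotient.mk _ (rA σ i j) := h1
  simp only [f, AlgHom.comp_apply]
  rw [h1']
  rfl

omit [IsLocalRing R] in
include h𝒟 hex hext in
/-- **Part F**: a complete Noetherian local `𝒪`-algebra `R` with a rigid framed `𝒟`-lift `r`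
that is universal among rigid framed `𝒟`-lifts to Artinian test algebras is a universal
deformation ring. -/
theorem nonempty_deformationRingData_of_universal
    (habs : ρbar.IsAbsolutelyIrreducible)
    [IsLocalRing R] [IsNoetherianRing R]
    [IsAdicComplete (maximalIdeal R) R] [IsLocalHom (algebraMap 𝒪 R)]
    (hres : Function.Surjective (IsLocalRing.residue R ∘ algebraMap 𝒪 R))
    (hcont : MatCont R r) (hframed : Framed R D.ρm r) (hrigid : Rigid D.e D.u r)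
    (h𝒟r : 𝒟 (ofMatrix r hcont)) :
    Nonempty (DeformationRingData 𝒪 ρbar 𝒟) := by
  refine ⟨{ R := R, residue_surjective := hres, absIrr := habs, ρ := ofMatrix r hcont,
            isOfType := h𝒟r, residual_isEquiv := ?_, universal := ?_ }⟩
  · exact residual_isEquiv_of_framed D (IsLocalRing.ResidueField.map (algebraMap 𝒪 R))
      (fun x => IsLocalRing.ResidueField.map_residue _ x) r hcont hframed
  · intro A _ _ _ _ _ hlocA hsurjA ρA hρA hresA
    obtain ⟨r₀, hr₀, hf₀, he₀⟩ := exists_framed_of_residual_isEquiv D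
      (IsLocalRing.ResidueField.map (algebraMap 𝒪 A))
      (fun x => IsLocalRing.ResidueField.map_residue _ x) ρA hresA
    obtain ⟨G, -, hfG, hrG⟩ := exists_rigid_conj hlocA D.he D.hu hf₀
    have hcA : MatCont A (conjHom G r₀) := matCont_conjHom G hr₀
    have heq : ρA.IsEquiv (ofMatrix (conjHom G r₀) hcA) :=
      GaloisRepAdic_isEquiv_trans he₀ (isEquiv_of_conj hr₀ hcA (conj_conjHom G r₀))
    obtain ⟨Φ, hΦ⟩ := Final.exists_hom h𝒟 D r hex hext hlocA hsurjA ρA hρA (conjHom G r₀) hcA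
      hfG hrG heq
    have hA : IsResAlg 𝒪 A := ⟨hlocA, hsurjA⟩
    have hΦloc : IsLocalHom (Φ : R →+* A) := hA.isLocalHom_ringHom Φ
    refine ⟨Φ, ⟨hΦloc, ?_⟩, ?_⟩
    · have hc' : MatCont A (mapRep (Φ : R →+* A) r) := hΦ ▸ hcA
      have h1 := ofMatrix_baseChangeAlong_isEquiv (Φ : R →+* A) hΦloc r hcont hc'
      have h2 : (ofMatrix (mapRep (Φ : R →+* A) r) hc').IsEquiv (ofMatrix (conjHom G r₀) hcA) :=
        isEquiv_of_conj hc' hcA (hΦ ▸ Conj.refl _)
      exact GaloisRepAdic_isEquiv_trans h1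
        (GaloisRepAdic_isEquiv_trans h2 (GaloisRepAdic_isEquiv_symm heq))
    · rintro Φ' ⟨hΦ'loc, hΦ'eq⟩
      apply Final.hom_ext r hext hA
      rw [hΦ]
      have hc' : MatCont A (mapRep (Φ' : R →+* A) r) := hcont.map _ hΦ'loc
      have h1 := ofMatrix_baseChangeAlong_isEquiv (Φ' : R →+* A) hΦ'loc r hcont hc'
      have h2 : (ofMatrix (mapRep (Φ' : R →+* A) r) hc').IsEquiv (ofMatrix (conjHom G r₀) hcA) :=
        GaloisRepAdic_isEquiv_trans (GaloisRepAdic_isEquiv_symm h1)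
          (GaloisRepAdic_isEquiv_trans hΦ'eq heq)
      exact Rigid.eq_of_conj hlocA D.he (Final.framed_map hframed Φ' hΦ'loc) hfG
        (Final.rigid_map hrigid Φ') hrG (conj_of_isEquiv h2)

end Main

end Fermat.Agent.S53
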