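import Mathlib

/-!
# S53, part D (auxiliary ring theory, independent of Galois representations)

Pure commutative algebra used for the "level-n universal object":
* `P/(I ⊓ J)` is the fibre product of `P/I` and `P/J` over `P/(I ⊔ J)`;
* `P/(I ⊓ J)` is local / finite if `P/I` and `P/J` are local with the same maximal ideal / finite;
* a nonempty family of ideals, closed under `⊓`, with finite quotients of bounded cardinality,
  has a smallest element.
-/

namespace Fermat.Agent.S53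

section FibreProduct

variable {P : Type*} [CommRing P] (I J : Ideal P)

theorem factor_inf_injective :
    Function.Injective (fun x : P ⧸ (I ⊓ J) =>
      (Ideal.Quotient.factor (inf_le_left : I ⊓ J ≤ I) x,
       Ideal.Quotient.factor (inf_le_right : I ⊓ J ≤ J) x)) := by
  intro x y h
  obtain ⟨a, rfl⟩ := Ideal.Quotient.mk_surjective x
  obtain ⟨b, rfl⟩ := Ideal.Quotient.mk_surjective y
  simp only [Prod.mk.injEq, Ideal.Quotient.factor_mk] at h
  rw [Ideal.Quotient.eq, Ideal.Quotient.eq] at h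
  rw [Ideal.Quotient.eq]
  exact ⟨h.1, h.2⟩

theorem factor_sup_comp_factor_inf :
    (Ideal.Quotient.factor (le_sup_left : I ≤ I ⊔ J)).comp
        (Ideal.Quotient.factor (inf_le_left : I ⊓ J ≤ I)) =
      (Ideal.Quotient.factor (le_sup_right : J ≤ I ⊔ J)).comp
        (Ideal.Quotient.factor (inf_le_right : I ⊓ J ≤ J)) := by
  apply Ideal.Quotient.ringHom_ext
  ext x
  simp

theorem exists_factor_inf_eq {a : P ⧸ I} {b : P ⧸ J}
    (h : Ideal.Quotient.factor (le_sup_left : I ≤ I ⊔ J) a =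
      Ideal.Quotient.factor (le_sup_right : J ≤ I ⊔ J) b) :
    ∃ x : P ⧸ (I ⊓ J), Ideal.Quotient.factor (inf_le_left : I ⊓ J ≤ I) x = a ∧
      Ideal.Quotient.factor (inf_le_right : I ⊓ J ≤ J) x = b := by
  obtain ⟨p, rfl⟩ := Ideal.Quotient.mk_surjective a
  obtain ⟨q, rfl⟩ := Ideal.Quotient.mk_surjective b
  simp only [Ideal.Quotient.factor_mk] at h
  rw [Ideal.Quotient.eq, Submodule.mem_sup] at h
  obtain ⟨i, hi, j, hj, hij⟩ := h
  refine ⟨Ideal.Quotient.mk _ (p - i), ?_, ?_⟩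
  · simp only [Ideal.Quotient.factor_mk]
    rw [Ideal.Quotient.eq]
    simpa using I.neg_mem hi
  · simp only [Ideal.Quotient.factor_mk]
    rw [Ideal.Quotient.eq]
    have : p - i - q = j := by linear_combination -hij
    rw [this]
    exact hj

theorem finite_quotient_inf [Finite (P ⧸ I)] [Finite (P ⧸ J)] : Finite (P ⧸ (I ⊓ J)) :=
  Finite.of_injective _ (factor_inf_injective I J)

/-- If `P/I` and `P/J` are local and `I`, `J` lie in a common maximal ideal, then `P/(I ⊓ J)` is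
local. -/
theorem isLocalRing_quotient_inf {M : Ideal P} (hM : M.IsMaximal) (hI : I ≤ M) (hJ : J ≤ M)
    (hIl : IsLocalRing (P ⧸ I)) (hJl : IsLocalRing (P ⧸ J)) : IsLocalRing (P ⧸ (I ⊓ J)) := by
  -- the image of `M` in a quotient by `K ≤ M` is a proper ideal
  have hmap_ne : ∀ K : Ideal P, K ≤ M → M.map (Ideal.Quotient.mk K) ≠ ⊤ := by
    intro K hKM h
    have h4 := congrArg (Ideal.comap (Ideal.Quotient.mk K)) h
    rw [Ideal.comap_map_of_surjective _ Ideal.Quotient.mk_surjective, ← RingHom.ker_eq_comap_bot,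
      Ideal.mk_ker, sup_of_le_left hKM, Ideal.comap_top] at h4
    exact hM.ne_top h4
  -- every maximal ideal of `P` containing `K` equals `M`, if `P/K` is local and `K ≤ M`
  have key : ∀ (K : Ideal P) (_ : IsLocalRing (P ⧸ K)), K ≤ M → ∀ N : Ideal P, N.IsMaximal →
      K ≤ N → N = M := by
    intro K hK hKM N hN hKN
    have aux : ∀ N' : Ideal P, N'.IsMaximal → K ≤ N' →
        N' = (IsLocalRing.maximalIdeal (P ⧸ K)).comap (Ideal.Quotient.mk K) := by
      intro N' hN' hKN'
      have hne : N'.map (Ideal.Quotient.mk K) ≠ ⊤ := by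
        intro h
        have h4 := congrArg (Ideal.comap (Ideal.Quotient.mk K)) h
        rw [Ideal.comap_map_of_surjective _ Ideal.Quotient.mk_surjective,
          ← RingHom.ker_eq_comap_bot, Ideal.mk_ker, sup_of_le_left hKN', Ideal.comap_top] at h4
        exact hN'.ne_top h4
      have hle : N' ≤ (IsLocalRing.maximalIdeal (P ⧸ K)).comap (Ideal.Quotient.mk K) :=
        Ideal.map_le_iff_le_comap.mp (IsLocalRing.le_maximalIdeal hne)
      have hc : ((IsLocalRing.maximalIdeal (P ⧸ K)).comap (Ideal.Quotient.mk K)).IsMaximal :=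
        Ideal.comap_isMaximal_of_surjective _ Ideal.Quotient.mk_surjective
      exact hN'.eq_of_le hc.ne_top hle
    rw [aux N hN hKN, ← aux M hM hKM]
  have hmax : (M.map (Ideal.Quotient.mk (I ⊓ J))).IsMaximal :=
    (Ideal.map_eq_top_or_isMaximal_of_surjective _ Ideal.Quotient.mk_surjective hM).resolve_left
      (hmap_ne _ (inf_le_left.trans hI))
  refine IsLocalRing.of_unique_max_ideal ⟨_, hmax, fun N hN => ?_⟩
  have hNc : (N.comap (Ideal.Quotient.mk (I ⊓ J))).IsMaximal :=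
    Ideal.comap_isMaximal_of_surjective _ Ideal.Quotient.mk_surjective
  have hle : I ⊓ J ≤ N.comap (Ideal.Quotient.mk (I ⊓ J)) := by
    intro x hx
    rw [Ideal.mem_comap, Ideal.Quotient.eq_zero_iff_mem.mpr hx]
    exact N.zero_mem
  have hNM : N.comap (Ideal.Quotient.mk (I ⊓ J)) = M := by
    rcases (Ideal.IsPrime.inf_le hNc.isPrime).mp hle with h | h
    · exact key I hIl hI _ hNc h
    · exact key J hJl hJ _ hNc h
  rw [← hNM, Ideal.map_comap_of_surjective _ Ideal.Quotient.mk_surjective]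

end FibreProduct

section Smallest

variable {P : Type*} [CommRing P]

/-- A nonempty family of ideals, closed under `⊓`, whose quotients are finite of bounded
cardinality, has a smallest element. -/
theorem exists_smallest_of_card_le (S : Set (Ideal P)) (hne : S.Nonempty)
    (hinf : ∀ I ∈ S, ∀ J ∈ S, I ⊓ J ∈ S) (hfin : ∀ I ∈ S, Finite (P ⧸ I)) (B : ℕ)
    (hB : ∀ I ∈ S, Nat.card (P ⧸ I) ≤ B) : ∃ J₀ ∈ S, ∀ J ∈ S, J₀ ≤ J := by
  classical
  -- choose `J₀` with maximal cardinality of the quotient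
  have hbdd : ∃ m, ∀ I ∈ S, Nat.card (P ⧸ I) ≤ m := ⟨B, hB⟩
  obtain ⟨I₀, hI₀⟩ := hne
  let T : Set ℕ := (fun I : Ideal P => Nat.card (P ⧸ I)) '' S
  have hTne : T.Nonempty := ⟨_, I₀, hI₀, rfl⟩
  have hTbdd : BddAbove T := ⟨B, by rintro _ ⟨I, hI, rfl⟩; exact hB I hI⟩
  obtain ⟨J₀, hJ₀, hJ₀max⟩ : ∃ J₀ ∈ S, ∀ I ∈ S, Nat.card (P ⧸ I) ≤ Nat.card (P ⧸ J₀) := by
    have hmem := Nat.sSup_mem hTne hTbdd
    obtain ⟨J₀, hJ₀, hJ₀eq⟩ := hmem
    refine ⟨J₀, hJ₀, fun I hI => ?_⟩
    have h2 : Nat.card (P ⧸ J₀) = sSup T := hJ₀eq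
    rw [h2]
    exact le_csSup hTbdd ⟨I, hI, rfl⟩
  refine ⟨J₀, hJ₀, fun J hJ => ?_⟩
  have hmem := hinf J₀ hJ₀ J hJ
  have := hfin _ hmem
  have := hfin _ hJ₀
  have hsurj : Function.Surjective (Ideal.Quotient.factor (inf_le_left : J₀ ⊓ J ≤ J₀)) :=
    Ideal.Quotient.factor_surjective _
  have hbij := hsurj.bijective_of_nat_card_le (hJ₀max _ hmem)
  have : J₀ ≤ J₀ ⊓ J := by
    intro x hx
    have h0 : Ideal.Quotient.factor (inf_le_left : J₀ ⊓ J ≤ J₀) (Ideal.Quotient.mk _ x) = 0 := by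
      rw [Ideal.Quotient.factor_mk, Ideal.Quotient.eq_zero_iff_mem]
      exact hx
    have h1 := hbij.1 (h0.trans (map_zero _).symm)
    exact Ideal.Quotient.eq_zero_iff_mem.mp h1
  exact this.trans inf_le_right

end Smallest

end Fermat.Agent.S53
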