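/-
S53, part D (basics): the residual maximal ideal `resIdeal ρm ⊂ URing 𝒪`, the local structure of
`URing 𝒪 ⧸ J` for `M ^ n ≤ J ≤ M`, functoriality of `evalAt`.  (Owner: helper27.)
-/
import Fermat.Agent.S53.URing
import Fermat.Agent.S53.LevelAux

set_option autoImplicit false

noncomputable section

namespace Fermat.Agent.S53

open IsLocalRing

/-! ### Generic ring theory -/

section Generic

variable {R : Type*} [CommRing R]

/-- If `M` is maximal and `M ^ n ≤ J ≤ M`, then `M` is the only maximal ideal containing `J`. -/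
theorem eq_of_isMaximal_of_pow_le {M J N : Ideal R} (hM : M.IsMaximal) {n : ℕ}
    (hpow : M ^ n ≤ J) (hN : N.IsMaximal) (hJN : J ≤ N) : N = M := by
  have h1 : M ≤ N := by
    have := hN.isPrime
    exact Ideal.IsPrime.le_of_pow_le (hpow.trans hJN)
  exact (hM.eq_of_le hN.ne_top h1).symm

/-- `R ⧸ J` is local when `M ^ n ≤ J ≤ M` for a maximal ideal `M`. -/
theorem isLocalRing_quotient_of_pow_le {M J : Ideal R} (hM : M.IsMaximal) {n : ℕ}
    (hle : J ≤ M) (hpow : M ^ n ≤ J) : IsLocalRing (R ⧸ J) := by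
  have hmax : (M.map (Ideal.Quotient.mk J)).IsMaximal := by
    refine (Ideal.map_eq_top_or_isMaximal_of_surjective _ Ideal.Quotient.mk_surjective
      hM).resolve_left fun h => ?_
    have h4 := congrArg (Ideal.comap (Ideal.Quotient.mk J)) h
    rw [Ideal.comap_map_of_surjective _ Ideal.Quotient.mk_surjective, ← RingHom.ker_eq_comap_bot,
      Ideal.mk_ker, sup_of_le_left hle, Ideal.comap_top] at h4
    exact hM.ne_top h4
  refine IsLocalRing.of_unique_max_ideal ⟨_, hmax, fun N hN => ?_⟩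
  have hNc : (N.comap (Ideal.Quotient.mk J)).IsMaximal :=
    Ideal.comap_isMaximal_of_surjective _ Ideal.Quotient.mk_surjective
  have hJN : J ≤ N.comap (Ideal.Quotient.mk J) := by
    intro x hx
    rw [Ideal.mem_comap, Ideal.Quotient.eq_zero_iff_mem.mpr hx]
    exact N.zero_mem
  have := eq_of_isMaximal_of_pow_le hM hpow hNc hJN
  rw [← this, Ideal.map_comap_of_surjective _ Ideal.Quotient.mk_surjective]

theorem maximalIdeal_quotient_of_pow_le {M J : Ideal R} (hM : M.IsMaximal)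
    (hle : J ≤ M) (h : IsLocalRing (R ⧸ J)) :
    @maximalIdeal (R ⧸ J) _ h = M.map (Ideal.Quotient.mk J) := by
  have hmax : (M.map (Ideal.Quotient.mk J)).IsMaximal := by
    refine (Ideal.map_eq_top_or_isMaximal_of_surjective _ Ideal.Quotient.mk_surjective
      hM).resolve_left fun h => ?_
    have h4 := congrArg (Ideal.comap (Ideal.Quotient.mk J)) h
    rw [Ideal.comap_map_of_surjective _ Ideal.Quotient.mk_surjective, ← RingHom.ker_eq_comap_bot,
      Ideal.mk_ker, sup_of_le_left hle, Ideal.comap_top] at h4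
    exact hM.ne_top h4
  exact (IsLocalRing.eq_maximalIdeal hmax).symm

theorem maximalIdeal_quotient_pow_eq_bot {M J : Ideal R} (hM : M.IsMaximal) {n : ℕ}
    (hle : J ≤ M) (hpow : M ^ n ≤ J) (h : IsLocalRing (R ⧸ J)) :
    (@maximalIdeal (R ⧸ J) _ h) ^ n = ⊥ := by
  rw [maximalIdeal_quotient_of_pow_le hM hle h, ← Ideal.map_pow, eq_bot_iff]
  rw [Ideal.map_le_iff_le_comap]
  intro x hx
  rw [Ideal.mem_comap, Ideal.mem_bot, Ideal.Quotient.eq_zero_iff_mem]
  exact hpow hx

theorem mk_mem_maximalIdeal_quotient_iff {M J : Ideal R} (hM : M.IsMaximal)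
    (hle : J ≤ M) (h : IsLocalRing (R ⧸ J)) (x : R) :
    Ideal.Quotient.mk J x ∈ @maximalIdeal (R ⧸ J) _ h ↔ x ∈ M := by
  rw [maximalIdeal_quotient_of_pow_le hM hle h]
  constructor
  · intro hx
    have : x ∈ (M.map (Ideal.Quotient.mk J)).comap (Ideal.Quotient.mk J) := hx
    rwa [Ideal.comap_map_of_surjective _ Ideal.Quotient.mk_surjective,
      ← RingHom.ker_eq_comap_bot, Ideal.mk_ker, sup_of_le_left hle] at this
  · exact fun hx => Ideal.mem_map_of_mem _ hx

end Generic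

/-! ### The residual point of `URing 𝒪` -/

section Res

variable {𝒪 : Type} [CommRing 𝒪] [IsLocalRing 𝒪]
variable (ρm : Gal →* M2 (ResidueField 𝒪))

/-- The `𝒪`-algebra map `URing 𝒪 → k` classifying `ρm`. -/
def resMap : URing 𝒪 →ₐ[𝒪] ResidueField 𝒪 := ulift ρm

/-- The maximal ideal of `URing 𝒪` corresponding to `ρm`. -/
def resIdeal : Ideal (URing 𝒪) := RingHom.ker (resMap ρm : URing 𝒪 →+* ResidueField 𝒪)

lemma mem_resIdeal {p : URing 𝒪} : p ∈ resIdeal ρm ↔ resMap ρm p = 0 := RingHom.mem_ker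

lemma resMap_algebraMap (x : 𝒪) : resMap ρm (algebraMap 𝒪 (URing 𝒪) x) = residue 𝒪 x := by
  rw [AlgHom.commutes]; rfl

lemma resMap_surjective : Function.Surjective (resMap ρm) := by
  intro y
  obtain ⟨x, rfl⟩ := residue_surjective y
  exact ⟨algebraMap 𝒪 (URing 𝒪) x, resMap_algebraMap ρm x⟩

lemma resIdeal_isMaximal : (resIdeal ρm).IsMaximal :=
  RingHom.ker_isMaximal_of_surjective _ (resMap_surjective ρm)

lemma exists_sub_mem_resIdeal (p : URing 𝒪) :
    ∃ x : 𝒪, p - algebraMap 𝒪 (URing 𝒪) x ∈ resIdeal ρm := by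
  obtain ⟨x, hx⟩ := residue_surjective (resMap ρm p)
  refine ⟨x, ?_⟩
  rw [mem_resIdeal, map_sub, resMap_algebraMap, hx, sub_self]

lemma algebraMap_mem_resIdeal_iff (x : 𝒪) :
    algebraMap 𝒪 (URing 𝒪) x ∈ resIdeal ρm ↔ x ∈ maximalIdeal 𝒪 := by
  rw [mem_resIdeal, resMap_algebraMap, residue_eq_zero_iff]

lemma taut_sub_mem_resIdeal (σ : Gal) (i j : Fin 2) (x : 𝒪) (hx : residue 𝒪 x = ρm σ i j) :
    taut 𝒪 σ i j - algebraMap 𝒪 (URing 𝒪) x ∈ resIdeal ρm := by
  rw [mem_resIdeal, map_sub, resMap_algebraMap, hx]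
  show ulift ρm (taut 𝒪 σ i j) - _ = 0
  rw [ulift_taut, sub_self]

end Res

end Fermat.Agent.S53

end
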