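import Fermat.Agent.S53.Matrix
import Fermat.Agent.S53.Rigid

/-!
# S53, piece "Transfer": the deformation condition `𝒟` in matrix form

(P1) `IsDLift.map`, (P2) `IsDLift.of_map_injective`, (P3) `IsDLift.of_conj`,
(P4) `IsDLift.of_fibreProduct`, (P5) `isDLift_of_complete`, (P6) `𝒟_of_forall_artinian`,
and `Rigid.map`, `Rigid.of_map_injective`, `Framed.map`, `Framed.of_map`.
(Owner: helper76.)
-/

set_option autoImplicit false

namespace Fermat.Agent.S53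

open IsLocalRing

section FramedRigid

variable {𝒪 : Type} [CommRing 𝒪] [IsLocalRing 𝒪]
variable {A B : Type} [CommRing A] [IsLocalRing A] [Algebra 𝒪 A]
  [CommRing B] [IsLocalRing B] [Algebra 𝒪 B]

lemma Framed.map {ρm : Gal →* M2 (ResidueField 𝒪)} {r : Gal →* M2 A} (hf : Framed A ρm r)
    (φ : A →ₐ[𝒪] B) (hφ : IsLocalHom (φ : A →+* B)) :
    Framed B ρm (mapRep (φ : A →+* B) r) := by
  intro σ i j x hx
  have h := hf σ i j x hx
  have e : mapRep (φ : A →+* B) r σ i j - algebraMap 𝒪 B x =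
      (φ : A →+* B) (r σ i j - algebraMap 𝒪 A x) := by
    rw [mapRep_apply, map_sub]
    congr 1
    exact (φ.commutes x).symm
  rw [e]
  have := map_maximalIdeal_pow_le (φ : A →+* B) hφ 1 (by rwa [pow_one])
  rwa [pow_one] at this

lemma Framed.of_map {ρm : Gal →* M2 (ResidueField 𝒪)} {r : Gal →* M2 A}
    (φ : A →ₐ[𝒪] B) (hf : Framed B ρm (mapRep (φ : A →+* B) r)) :
    Framed A ρm r := by
  intro σ i j x hx
  have h := hf σ i j x hx
  have e : mapRep (φ : A →+* B) r σ i j - algebraMap 𝒪 B x =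
      (φ : A →+* B) (r σ i j - algebraMap 𝒪 A x) := by
    rw [mapRep_apply, map_sub]
    congr 1
    exact (φ.commutes x).symm
  rw [e] at h
  rw [IsLocalRing.mem_maximalIdeal, mem_nonunits_iff] at h ⊢
  exact fun hu => h (hu.map _)

lemma evalAt_mapRep (φ : A →ₐ[𝒪] B) (r : Gal →* M2 A) (e : Gal →₀ 𝒪) :
    evalAt (mapRep (φ : A →+* B) r) e = (evalAt r e).map (φ : A →+* B) := by
  ext i j
  rw [Matrix.map_apply, evalAt_apply, evalAt_apply, Finsupp.sum, Finsupp.sum, map_sum]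
  refine Finset.sum_congr rfl fun σ _ => ?_
  rw [map_mul, mapRep_apply]
  congr 1
  exact (φ.commutes _).symm

lemma Rigid.map {e u : Gal →₀ 𝒪} {r : Gal →* M2 A} (h : Rigid e u r) (φ : A →ₐ[𝒪] B) :
    Rigid e u (mapRep (φ : A →+* B) r) := by
  obtain ⟨h1, h2, h3⟩ := h
  refine ⟨?_, ?_, ?_⟩
  · rw [evalAt_mapRep, Matrix.map_apply, h1, map_zero]
  · rw [evalAt_mapRep, Matrix.map_apply, h2, map_zero]
  · rw [evalAt_mapRep, Matrix.map_apply, h3, map_one]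

lemma Rigid.of_map_injective {e u : Gal →₀ 𝒪} {r : Gal →* M2 A} (φ : A →ₐ[𝒪] B)
    (hinj : Function.Injective φ) (h : Rigid e u (mapRep (φ : A →+* B) r)) : Rigid e u r := by
  obtain ⟨h1, h2, h3⟩ := h
  rw [evalAt_mapRep, Matrix.map_apply] at h1 h2 h3
  refine ⟨hinj ?_, hinj ?_, hinj ?_⟩
  · rw [map_zero]; exact h1
  · rw [map_zero]; exact h2
  · rw [map_one]; exact h3

end FramedRigid

section Transfer

variable {𝒪 : Type} [CommRing 𝒪] [IsLocalRing 𝒪]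
variable {𝒟 : ∀ ⦃A : Type⦄ [CommRing A] [IsLocalRing A] [Algebra 𝒪 A], GaloisRepAdic A → Prop}
variable {ρm : Gal →* M2 (ResidueField 𝒪)}

/-- in an Artinian local ring, a continuous representation is trivial on an open subgroup -/
lemma MatCont.exists_trivial {A : Type} [CommRing A] [IsLocalRing A] [IsArtinianRing A]
    {r : Gal →* M2 A} (hr : MatCont A r) :
    ∃ L : IntermediateField ℚ (AlgebraicClosure ℚ), FiniteDimensional ℚ L ∧
      ∀ σ : Gal, (∀ x ∈ L, σ x = x) → r σ = 1 := by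
  obtain ⟨n, hn⟩ := (isArtinianRing_iff_isNilpotent_maximalIdeal A).mp ‹_›
  obtain ⟨L, hL, h⟩ := hr n
  refine ⟨L, hL, fun σ hσ => ?_⟩
  ext i j
  have := h σ hσ i j
  rw [hn, Ideal.zero_eq_bot, Ideal.mem_bot, Matrix.sub_apply, sub_eq_zero] at this
  exact this

lemma matCont_of_trivial {A : Type} [CommRing A] [IsLocalRing A] {r : Gal →* M2 A}
    (h : ∃ L : IntermediateField ℚ (AlgebraicClosure ℚ), FiniteDimensional ℚ L ∧
      ∀ σ : Gal, (∀ x ∈ L, σ x = x) → r σ = 1) : MatCont A r := by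
  obtain ⟨L, hL, h⟩ := h
  intro n
  refine ⟨L, hL, fun σ hσ i j => ?_⟩
  rw [h σ hσ, sub_self]
  exact Ideal.zero_mem _

variable (h𝒟 : GaloisRep.IsDeformationCondition 𝒪 𝒟)
include h𝒟

/-- (P1) -/
theorem IsDLift.map {A B : Type} [CommRing A] [IsLocalRing A] [Algebra 𝒪 A]
    [CommRing B] [IsLocalRing B] [Algebra 𝒪 B]
    (hA : GaloisRep.IsArtinianTestAlgebra 𝒪 A) (hB : GaloisRep.IsArtinianTestAlgebra 𝒪 B)
    (φ : A →ₐ[𝒪] B) (hφ : IsLocalHom (φ : A →+* B)) {r : Gal →* M2 A}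
    (h : IsDLift A 𝒟 ρm r) : IsDLift B 𝒟 ρm (mapRep (φ : A →+* B) r) := by
  obtain ⟨hf, hc, hD⟩ := h
  refine ⟨hf.map φ hφ, hc.map _ hφ, ?_⟩
  exact h𝒟.of_isEquiv hB (ofMatrix_baseChangeAlong_isEquiv _ hφ r hc (hc.map _ hφ))
    (h𝒟.baseChangeAlong hA hB φ hφ hD)

/-- (P2) -/
theorem IsDLift.of_map_injective {A B : Type} [CommRing A] [IsLocalRing A] [Algebra 𝒪 A]
    [CommRing B] [IsLocalRing B] [Algebra 𝒪 B]
    (hA : GaloisRep.IsArtinianTestAlgebra 𝒪 A) (hB : GaloisRep.IsArtinianTestAlgebra 𝒪 B)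
    (φ : A →ₐ[𝒪] B) (hφ : IsLocalHom (φ : A →+* B)) (hinj : Function.Injective φ)
    {r : Gal →* M2 A} (h : IsDLift B 𝒟 ρm (mapRep (φ : A →+* B) r)) : IsDLift A 𝒟 ρm r := by
  obtain ⟨hf, hc, hD⟩ := h
  have := hB.isArtinian
  have hcA : MatCont A r := by
    obtain ⟨L, hL, h⟩ := hc.exists_trivial
    refine matCont_of_trivial ⟨L, hL, fun σ hσ => ?_⟩
    ext i j
    apply hinj
    have := congrFun (congrFun (h σ hσ) i) j
    rw [mapRep_apply] at this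
    rw [Matrix.one_apply] at this ⊢
    split_ifs at this ⊢ with hij
    · rw [map_one]; exact this
    · rw [map_zero]; exact this
  refine ⟨Framed.of_map φ hf, hcA, ?_⟩
  apply h𝒟.of_baseChangeAlong_injective hA hB φ hφ hinj
  exact h𝒟.of_isEquiv hB
    (GaloisRepAdic_isEquiv_symm (ofMatrix_baseChangeAlong_isEquiv _ hφ r hcA hc)) hD

/-- (P3) -/
theorem IsDLift.of_conj {A : Type} [CommRing A] [IsLocalRing A] [Algebra 𝒪 A]
    (hA : GaloisRep.IsArtinianTestAlgebra 𝒪 A) {r r' : Gal →* M2 A}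
    (h : IsDLift A 𝒟 ρm r) (hconj : Conj r r') (hf' : Framed A ρm r') :
    IsDLift A 𝒟 ρm r' := by
  obtain ⟨-, hc, hD⟩ := h
  obtain ⟨u, rfl⟩ := hconj.exists_conjRep
  exact ⟨hf', hc.conj u, h𝒟.of_isEquiv hA (isEquiv_of_conj hc (hc.conj u) hconj) hD⟩

/-- (P4) -/
theorem IsDLift.of_fibreProduct {A B C P : Type} [CommRing A] [IsLocalRing A] [Algebra 𝒪 A]
    [CommRing B] [IsLocalRing B] [Algebra 𝒪 B] [CommRing C] [IsLocalRing C] [Algebra 𝒪 C]
    [CommRing P] [IsLocalRing P] [Algebra 𝒪 P]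
    (hA : GaloisRep.IsArtinianTestAlgebra 𝒪 A) (hB : GaloisRep.IsArtinianTestAlgebra 𝒪 B)
    (hC : GaloisRep.IsArtinianTestAlgebra 𝒪 C) (hP : GaloisRep.IsArtinianTestAlgebra 𝒪 P)
    (f : A →ₐ[𝒪] C) (g : B →ₐ[𝒪] C) (pA : P →ₐ[𝒪] A) (pB : P →ₐ[𝒪] B)
    (hpA : IsLocalHom (pA : P →+* A)) (hpB : IsLocalHom (pB : P →+* B))
    (hcomm : f.comp pA = g.comp pB)
    (hinj : Function.Injective (fun x => (pA x, pB x)))
    (hsurj : ∀ a b, f a = g b → ∃ x, pA x = a ∧ pB x = b)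
    {r : Gal →* M2 P}
    (hrA : IsDLift A 𝒟 ρm (mapRep (pA : P →+* A) r))
    (hrB : IsDLift B 𝒟 ρm (mapRep (pB : P →+* B) r)) : IsDLift P 𝒟 ρm r := by
  obtain ⟨hfA, hcA, hDA⟩ := hrA
  obtain ⟨hfB, hcB, hDB⟩ := hrB
  have := hA.isArtinian
  have := hB.isArtinian
  have hcP : MatCont P r := by
    obtain ⟨L, hL, h⟩ := hcA.exists_trivial
    obtain ⟨L', hL', h'⟩ := hcB.exists_trivial
    refine matCont_of_trivial ⟨L ⊔ L', inferInstance, fun σ hσ => ?_⟩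
    have h1 := h σ fun x hx => hσ x ((le_sup_left : L ≤ L ⊔ L') hx)
    have h2 := h' σ fun x hx => hσ x ((le_sup_right : L' ≤ L ⊔ L') hx)
    ext i j
    apply hinj
    have e1 := congrFun (congrFun h1 i) j
    have e2 := congrFun (congrFun h2 i) j
    rw [mapRep_apply] at e1 e2
    rw [Matrix.one_apply] at e1 e2 ⊢
    split_ifs at e1 e2 ⊢ with hij
    · simp only [Prod.mk.injEq, map_one]
      exact ⟨e1, e2⟩
    · simp only [Prod.mk.injEq, map_zero]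
      exact ⟨e1, e2⟩
  refine ⟨Framed.of_map pA hfA, hcP, ?_⟩
  refine h𝒟.of_fibreProduct hA hB hC hP f g pA pB hpA hpB hcomm hinj hsurj ?_ ?_
  · exact h𝒟.of_isEquiv hA
      (GaloisRepAdic_isEquiv_symm (ofMatrix_baseChangeAlong_isEquiv _ hpA r hcP hcA)) hDA
  · exact h𝒟.of_isEquiv hB
      (GaloisRepAdic_isEquiv_symm (ofMatrix_baseChangeAlong_isEquiv _ hpB r hcP hcB)) hDB

/-- (P5) complete → Artinian -/
theorem isDLift_of_complete {A : Type} [CommRing A] [IsLocalRing A] [IsNoetherianRing A]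
    [IsAdicComplete (maximalIdeal A) A] [Algebra 𝒪 A] (hA : IsResAlg 𝒪 A)
    (ρ : GaloisRepAdic A) (hρ : 𝒟 ρ) {r : Gal →* M2 A} (hr : MatCont A r)
    (he : ρ.IsEquiv (ofMatrix r hr)) (hf : Framed A ρm r)
    {B : Type} [CommRing B] [IsLocalRing B] [Algebra 𝒪 B]
    (hB : GaloisRep.IsArtinianTestAlgebra 𝒪 B) (q : A →ₐ[𝒪] B)
    (hq : IsLocalHom (q : A →+* B)) (hqs : Function.Surjective q) :
    IsDLift B 𝒟 ρm (mapRep (q : A →+* B) r) := by
  refine ⟨hf.map q hq, hr.map _ hq, ?_⟩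
  have h1 := (h𝒟.iff_forall_surjective hA.isLocalHom hA.residue_surjective ρ).mp hρ hB q hq hqs
  obtain ⟨e⟩ := he
  exact h𝒟.of_isEquiv hB
    (GaloisRepAdic_isEquiv_trans ⟨e.baseChangeAlong (q : A →+* B) hq⟩
      (ofMatrix_baseChangeAlong_isEquiv _ hq r hr (hr.map _ hq))) h1

/-- (P6) Artinian → complete -/
theorem 𝒟_of_forall_artinian {R : Type} [CommRing R] [IsLocalRing R] [IsNoetherianRing R]
    [IsAdicComplete (maximalIdeal R) R] [Algebra 𝒪 R]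
    (hloc : IsLocalHom (algebraMap 𝒪 R))
    (hres : Function.Surjective (IsLocalRing.residue R ∘ algebraMap 𝒪 R))
    {r : Gal →* M2 R} (hr : MatCont R r)
    (h : ∀ (B : Type) [CommRing B] [IsLocalRing B] [Algebra 𝒪 B],
      GaloisRep.IsArtinianTestAlgebra 𝒪 B → ∀ (q : R →ₐ[𝒪] B) (_ : IsLocalHom (q : R →+* B)),
        Function.Surjective q → ∃ hc, 𝒟 (ofMatrix (mapRep (q : R →+* B) r) hc)) :
    𝒟 (ofMatrix r hr) := by
  rw [h𝒟.iff_forall_surjective hloc hres]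
  intro B _ _ _ hB q hq hqs
  obtain ⟨hc, hD⟩ := h B hB q hq hqs
  exact h𝒟.of_isEquiv hB
    (GaloisRepAdic_isEquiv_symm (ofMatrix_baseChangeAlong_isEquiv _ hq r hr hc)) hD

end Transfer

end Fermat.Agent.S53
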