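/-
S53, part D: `n`-admissible ideals of `URing 𝒪` and the level-`n` universal ideal `Jn`.
(Owner: helper27.)

* `IsAdm 𝒟 D n J`  : `J` is `n`-admissible: `M ^ n ≤ J ≤ M` (`M = resIdeal D.ρm`), `URing 𝒪 ⧸ J` finite,
  the tautological representation `tautQ J` is continuous, rigid and of type `𝒟`.
* D1 `IsAdm.inf`, `IsAdm.of_le`, D4 `isAdm_ker_ulift`, base point `isAdm_resIdeal`.
* D3 `Jn 𝒟 D n = sInf {J | IsAdm 𝒟 D n J}` and its properties.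
-/
import Fermat.Agent.S53.LevelBasic
import Fermat.Agent.S53.Matrix
import Fermat.Agent.S53.TestAlg
import Fermat.Agent.S53.Transfer
import Fermat.Agent.S53.TangentGlue
import Fermat.Agent.S53.Bar

set_option autoImplicit false

noncomputable section

namespace Fermat.Agent.S53

open IsLocalRing

section Adm

variable {𝒪 : Type} [CommRing 𝒪]

/-- The tautological representation over a quotient of `URing 𝒪`. -/
def tautQ (J : Ideal (URing 𝒪)) :=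
  mapRep (A := URing 𝒪) (B := URing 𝒪 ⧸ J) (Ideal.Quotient.mk J) (taut 𝒪)

lemma tautQ_apply (J : Ideal (URing 𝒪)) (σ : Gal) (i j : Fin 2) :
    tautQ J σ i j = Ideal.Quotient.mk J (taut 𝒪 σ i j) := rfl

lemma mapRep_factor_tautQ {J J' : Ideal (URing 𝒪)} (h : J ≤ J') :
    mapRep (Ideal.Quotient.factorₐ 𝒪 h : URing 𝒪 ⧸ J →+* URing 𝒪 ⧸ J') (tautQ J) = tautQ J' := by
  ext σ i j
  rfl

lemma mapRep_kerLift_tautQ {A : Type} [CommRing A] [Algebra 𝒪 A] (r : Gal →* M2 A) :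
    mapRep (Ideal.kerLiftAlg (ulift (𝒪 := 𝒪) r) : URing 𝒪 ⧸ RingHom.ker (ulift (𝒪 := 𝒪) r) →+* A)
      (tautQ (RingHom.ker (ulift (𝒪 := 𝒪) r))) = r := by
  ext σ i j
  show Ideal.kerLiftAlg (ulift (𝒪 := 𝒪) r) (Ideal.Quotient.mk _ (taut 𝒪 σ i j)) = r σ i j
  rw [Ideal.kerLiftAlg_mk, ulift_taut]

lemma tautQ_sub_one_apply (J : Ideal (URing 𝒪)) (σ : Gal) (i j : Fin 2) :
    (tautQ J σ - 1) i j = Ideal.Quotient.mk J ((taut 𝒪 σ - 1) i j) := by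
  simp only [Matrix.sub_apply, tautQ_apply, map_sub, Matrix.one_apply]
  split_ifs <;> simp

variable [IsLocalRing 𝒪] (ρm : Gal →* M2 (ResidueField 𝒪))

/-- `URing 𝒪 ⧸ J` is a test ring as soon as it is finite and `M ^ n ≤ J ≤ M`. -/
lemma isTestRing_quot {J : Ideal (URing 𝒪)} {n : ℕ} (hfin : Finite (URing 𝒪 ⧸ J))
    (hle : J ≤ resIdeal ρm) (hpow : resIdeal ρm ^ n ≤ J) : IsTestRing 𝒪 (URing 𝒪 ⧸ J) := by
  have hrad : resIdeal ρm ≤ J.radical := fun x hx => ⟨n, hpow (Ideal.pow_mem_pow hx n)⟩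
  rw [isTestRing_quotient_iff]
  refine ⟨fun h => (resIdeal_isMaximal ρm).ne_top (top_le_iff.mp (h ▸ hle)), hfin, fun p => ?_,
    fun x hx => hrad ((algebraMap_mem_resIdeal_iff ρm x).mpr hx)⟩
  obtain ⟨x, hx⟩ := exists_sub_mem_resIdeal ρm p
  exact ⟨x, hrad hx⟩

lemma isLocalRing_quot {J : Ideal (URing 𝒪)} {n : ℕ} (hfin : Finite (URing 𝒪 ⧸ J))
    (hle : J ≤ resIdeal ρm) (hpow : resIdeal ρm ^ n ≤ J) : IsLocalRing (URing 𝒪 ⧸ J) :=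
  (isTestRing_quot ρm hfin hle hpow).isLocalRing

lemma mk_mem_maximalIdeal_quot_iff {J : Ideal (URing 𝒪)} [IsLocalRing (URing 𝒪 ⧸ J)]
    (hle : J ≤ resIdeal ρm) (x : URing 𝒪) :
    Ideal.Quotient.mk J x ∈ maximalIdeal (URing 𝒪 ⧸ J) ↔ x ∈ resIdeal ρm :=
  mk_mem_maximalIdeal_quotient_iff (resIdeal_isMaximal ρm) hle inferInstance x

lemma maximalIdeal_quot_pow {J : Ideal (URing 𝒪)} [IsLocalRing (URing 𝒪 ⧸ J)] {n : ℕ}
    (hle : J ≤ resIdeal ρm) (hpow : resIdeal ρm ^ n ≤ J) :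
    maximalIdeal (URing 𝒪 ⧸ J) ^ n = ⊥ :=
  maximalIdeal_quotient_pow_eq_bot (resIdeal_isMaximal ρm) hle hpow inferInstance

lemma framed_tautQ {J : Ideal (URing 𝒪)} [IsLocalRing (URing 𝒪 ⧸ J)]
    (hle : J ≤ resIdeal ρm) : Framed (URing 𝒪 ⧸ J) ρm (tautQ J) := by
  intro σ i j x hx
  have h := taut_sub_mem_resIdeal ρm σ i j x hx
  rw [← mk_mem_maximalIdeal_quot_iff ρm hle] at h
  rwa [map_sub] at h

lemma matCont_tautQ {J : Ideal (URing 𝒪)} [IsLocalRing (URing 𝒪 ⧸ J)]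
    (hcont : ∃ L : IntermediateField ℚ (AlgebraicClosure ℚ), FiniteDimensional ℚ L ∧
      ∀ σ : Gal, (∀ x ∈ L, σ x = x) → ∀ i j, (taut 𝒪 σ - 1) i j ∈ J) :
    MatCont (URing 𝒪 ⧸ J) (tautQ J) := by
  intro n
  obtain ⟨L, hL, h⟩ := hcont
  refine ⟨L, hL, fun σ hσ i j => ?_⟩
  rw [tautQ_sub_one_apply, Ideal.Quotient.eq_zero_iff_mem.mpr (h σ hσ i j)]
  exact Ideal.zero_mem _

end Adm

/-! ### Admissible ideals -/

section IsAdmSec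

variable {𝒪 : Type} [CommRing 𝒪] [IsLocalRing 𝒪]
variable (𝒟 : ∀ ⦃A : Type⦄ [CommRing A] [IsLocalRing A] [Algebra 𝒪 A], GaloisRepAdic A → Prop)
variable {ρbar : ResidualGaloisRep (ResidueField 𝒪)} (D : RigidDatum 𝒪 ρbar)

/-- `J` is `n`-admissible. -/
structure IsAdm (n : ℕ) (J : Ideal (URing 𝒪)) : Prop where
  finite : Finite (URing 𝒪 ⧸ J)
  le : J ≤ resIdeal D.ρm
  pow_le : resIdeal D.ρm ^ n ≤ J
  rigid : Rigid D.e D.u (tautQ J)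
  dlift : ∀ (_ : IsLocalRing (URing 𝒪 ⧸ J)), IsDLift (URing 𝒪 ⧸ J) 𝒟 D.ρm (tautQ J)

variable {𝒟 D}

lemma IsAdm.isTestRing {n : ℕ} {J : Ideal (URing 𝒪)} (h : IsAdm 𝒟 D n J) :
    IsTestRing 𝒪 (URing 𝒪 ⧸ J) :=
  isTestRing_quot D.ρm h.finite h.le h.pow_le

lemma IsAdm.isLocalRing {n : ℕ} {J : Ideal (URing 𝒪)} (h : IsAdm 𝒟 D n J) :
    IsLocalRing (URing 𝒪 ⧸ J) :=
  h.isTestRing.isLocalRing

lemma IsAdm.isArtinianTestAlgebra {n : ℕ} {J : Ideal (URing 𝒪)} (h : IsAdm 𝒟 D n J)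
    [IsLocalRing (URing 𝒪 ⧸ J)] : GaloisRep.IsArtinianTestAlgebra 𝒪 (URing 𝒪 ⧸ J) :=
  h.isTestRing.isArtinianTestAlgebra

lemma IsAdm.isDLift {n : ℕ} {J : Ideal (URing 𝒪)} (h : IsAdm 𝒟 D n J)
    [IsLocalRing (URing 𝒪 ⧸ J)] : IsDLift (URing 𝒪 ⧸ J) 𝒟 D.ρm (tautQ J) :=
  h.dlift inferInstance

lemma IsAdm.maximalIdeal_pow {n : ℕ} {J : Ideal (URing 𝒪)} (h : IsAdm 𝒟 D n J)
    [IsLocalRing (URing 𝒪 ⧸ J)] : maximalIdeal (URing 𝒪 ⧸ J) ^ n = ⊥ :=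
  maximalIdeal_quot_pow D.ρm h.le h.pow_le

lemma IsAdm.pos {n : ℕ} {J : Ideal (URing 𝒪)} (h : IsAdm 𝒟 D n J) : 1 ≤ n := by
  rcases Nat.eq_zero_or_pos n with hn | hn
  · exfalso
    have h1 := h.pow_le.trans h.le
    have h2 : resIdeal D.ρm ^ n = ⊤ := by rw [hn, Submodule.pow_zero, Ideal.one_eq_top]
    rw [h2, top_le_iff] at h1
    exact (resIdeal_isMaximal D.ρm).ne_top h1
  · exact hn

/-! ### D4: the kernel of a classifying map is admissible -/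

/-- For a framed `r : Gal →* M2 A`, the classifying map pulls the maximal ideal of `A` back to
`resIdeal`. -/
lemma mem_resIdeal_iff_ulift_mem {A : Type} [CommRing A] [IsLocalRing A] [Algebra 𝒪 A]
    (hA : IsResAlg 𝒪 A) {ρm : Gal →* M2 (ResidueField 𝒪)} {r : Gal →* M2 A}
    (hf : Framed A ρm r) (p : URing 𝒪) :
    p ∈ resIdeal ρm ↔ ulift (𝒪 := 𝒪) r p ∈ maximalIdeal A := by
  have := hA.isLocalHom
  let ι : ResidueField 𝒪 →+* ResidueField A := ResidueField.map (algebraMap 𝒪 A)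
  have hι : ∀ x : 𝒪, ι (residue 𝒪 x) = residue A (algebraMap 𝒪 A x) := fun x =>
    ResidueField.map_residue _ x
  have hfr := (framed_iff ι hι ρm r).1 hf
  have key : (residue A).comp (ulift (𝒪 := 𝒪) r : URing 𝒪 →+* A) =
      ι.comp (resMap ρm : URing 𝒪 →+* ResidueField 𝒪) := by
    apply Ideal.Quotient.ringHom_ext
    apply MvPolynomial.ringHom_ext
    · intro a
      show residue A (ulift (𝒪 := 𝒪) r (algebraMap 𝒪 (URing 𝒪) a)) =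
        ι (resMap ρm (algebraMap 𝒪 (URing 𝒪) a))
      rw [AlgHom.commutes, resMap_algebraMap, hι]
    · rintro ⟨σ, i, j⟩
      show residue A (ulift (𝒪 := 𝒪) r (taut 𝒪 σ i j)) = ι (ulift (𝒪 := 𝒪) ρm (taut 𝒪 σ i j))
      rw [ulift_taut, ulift_taut]
      exact congrFun (congrFun (hfr σ) i) j
  have key2 : residue A (ulift (𝒪 := 𝒪) r p) = ι (resMap ρm p) := congrArg (fun f => f p) key
  rw [mem_resIdeal, ← residue_eq_zero_iff, key2, map_eq_zero ι]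

lemma resIdeal_eq_ker (ρm : Gal →* M2 (ResidueField 𝒪)) :
    resIdeal ρm = RingHom.ker (ulift (𝒪 := 𝒪) ρm) := rfl

theorem isAdm_ker_ulift (h𝒟 : GaloisRep.IsDeformationCondition 𝒪 𝒟) {n : ℕ}
    {A : Type} [CommRing A] [IsLocalRing A] [Algebra 𝒪 A] (hA : IsTestRing 𝒪 A)
    (hn : maximalIdeal A ^ n = ⊥) {r : Gal →* M2 A} (hr : IsDLift A 𝒟 D.ρm r)
    (hrig : Rigid D.e D.u r) : IsAdm 𝒟 D n (RingHom.ker (ulift (𝒪 := 𝒪) r)) := by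
  have hinj : Function.Injective (Ideal.kerLiftAlg (ulift (𝒪 := 𝒪) r)) :=
    Ideal.kerLiftAlg_injective _
  have hK : IsTestRing 𝒪 (URing 𝒪 ⧸ RingHom.ker (ulift (𝒪 := 𝒪) r)) :=
    hA.of_injective (Ideal.kerLiftAlg (ulift (𝒪 := 𝒪) r)) hinj
  have hle : RingHom.ker (ulift (𝒪 := 𝒪) r) ≤ resIdeal D.ρm := by
    intro p hp
    rw [mem_resIdeal_iff_ulift_mem hA.isResAlg hr.1, RingHom.mem_ker.mp hp]
    exact Ideal.zero_mem _
  have hKloc : IsLocalRing (URing 𝒪 ⧸ RingHom.ker (ulift (𝒪 := 𝒪) r)) := hK.isLocalRing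
  refine ⟨hK.finite, hle, ?_, ?_, ?_⟩
  · have h1 : resIdeal D.ρm ≤ (maximalIdeal A).comap (ulift (𝒪 := 𝒪) r) := fun p hp =>
      (mem_resIdeal_iff_ulift_mem hA.isResAlg hr.1 p).1 hp
    intro p hp
    have h2 : p ∈ (maximalIdeal A ^ n).comap (ulift (𝒪 := 𝒪) r) :=
      Ideal.le_comap_pow _ n (Ideal.pow_right_mono h1 n hp)
    rw [hn] at h2
    exact h2
  · exact Rigid.of_map_injective (Ideal.kerLiftAlg (ulift (𝒪 := 𝒪) r)) hinj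
      (by rw [mapRep_kerLift_tautQ]; exact hrig)
  · intro hloc
    have hφ : IsLocalHom (Ideal.kerLiftAlg (ulift (𝒪 := 𝒪) r) :
        URing 𝒪 ⧸ RingHom.ker (ulift (𝒪 := 𝒪) r) →+* A) :=
      IsResAlg.isLocalHom_ringHom (A := URing 𝒪 ⧸ RingHom.ker (ulift (𝒪 := 𝒪) r))
        hA.isResAlg (Ideal.kerLiftAlg (ulift (𝒪 := 𝒪) r))
    exact IsDLift.of_map_injective h𝒟 hK.isArtinianTestAlgebra hA.isArtinianTestAlgebra
      (Ideal.kerLiftAlg (ulift (𝒪 := 𝒪) r)) hφ hinj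
      (by rw [mapRep_kerLift_tautQ]; exact hr)

/-! ### Quotients of admissible ideals -/

theorem IsAdm.of_le (h𝒟 : GaloisRep.IsDeformationCondition 𝒪 𝒟) {n m : ℕ}
    {J J' : Ideal (URing 𝒪)} (hJ : IsAdm 𝒟 D n J) (hJJ' : J ≤ J') (hJ'M : J' ≤ resIdeal D.ρm)
    (hpow : resIdeal D.ρm ^ m ≤ J') : IsAdm 𝒟 D m J' := by
  have hfin : Finite (URing 𝒪 ⧸ J') :=
    haveI := hJ.finite
    Finite.of_surjective _ (Ideal.Quotient.factor_surjective hJJ')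
  have hJloc : IsLocalRing (URing 𝒪 ⧸ J) := hJ.isLocalRing
  have hT' : IsTestRing 𝒪 (URing 𝒪 ⧸ J') := isTestRing_quot D.ρm hfin hJ'M hpow
  have hJ'loc : IsLocalRing (URing 𝒪 ⧸ J') := hT'.isLocalRing
  refine ⟨hfin, hJ'M, hpow, ?_, ?_⟩
  · have := Rigid.map (A := URing 𝒪 ⧸ J) (B := URing 𝒪 ⧸ J') hJ.rigid
      (Ideal.Quotient.factorₐ 𝒪 hJJ')
    rwa [mapRep_factor_tautQ] at this
  · intro _
    have hφ : IsLocalHom (Ideal.Quotient.factorₐ 𝒪 hJJ' : URing 𝒪 ⧸ J →+* URing 𝒪 ⧸ J') :=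
      IsResAlg.isLocalHom_ringHom (A := URing 𝒪 ⧸ J) hT'.isResAlg (Ideal.Quotient.factorₐ 𝒪 hJJ')
    have := IsDLift.map (A := URing 𝒪 ⧸ J) (B := URing 𝒪 ⧸ J') h𝒟 hJ.isArtinianTestAlgebra
      hT'.isArtinianTestAlgebra (Ideal.Quotient.factorₐ 𝒪 hJJ') hφ hJ.isDLift
    rwa [mapRep_factor_tautQ] at this

theorem IsAdm.mono (h𝒟 : GaloisRep.IsDeformationCondition 𝒪 𝒟) {n m : ℕ}
    {J : Ideal (URing 𝒪)} (hJ : IsAdm 𝒟 D n J) (hnm : n ≤ m) : IsAdm 𝒟 D m J :=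
  hJ.of_le h𝒟 le_rfl hJ.le ((Ideal.pow_le_pow_right hnm).trans hJ.pow_le)

/-! ### D1: admissible ideals are closed under intersection -/

theorem IsAdm.inf (h𝒟 : GaloisRep.IsDeformationCondition 𝒪 𝒟) {n : ℕ}
    {J J' : Ideal (URing 𝒪)} (hJ : IsAdm 𝒟 D n J) (hJ' : IsAdm 𝒟 D n J') :
    IsAdm 𝒟 D n (J ⊓ J') := by
  have hfin : Finite (URing 𝒪 ⧸ (J ⊓ J')) :=
    haveI := hJ.finite
    haveI := hJ'.finite
    finite_quotient_inf J J'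
  have hle : J ⊓ J' ≤ resIdeal D.ρm := inf_le_left.trans hJ.le
  have hpow : resIdeal D.ρm ^ n ≤ J ⊓ J' := le_inf hJ.pow_le hJ'.pow_le
  have hS : IsAdm 𝒟 D n (J ⊔ J') :=
    hJ.of_le h𝒟 le_sup_left (sup_le hJ.le hJ'.le) (hJ.pow_le.trans le_sup_left)
  have hJloc : IsLocalRing (URing 𝒪 ⧸ J) := hJ.isLocalRing
  have hJ'loc : IsLocalRing (URing 𝒪 ⧸ J') := hJ'.isLocalRing
  have hSloc : IsLocalRing (URing 𝒪 ⧸ (J ⊔ J')) := hS.isLocalRing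
  have hT : IsTestRing 𝒪 (URing 𝒪 ⧸ (J ⊓ J')) := isTestRing_quot D.ρm hfin hle hpow
  have hIloc : IsLocalRing (URing 𝒪 ⧸ (J ⊓ J')) := hT.isLocalRing
  have hpA : IsLocalHom (Ideal.Quotient.factorₐ 𝒪 (inf_le_left : J ⊓ J' ≤ J) :
      URing 𝒪 ⧸ (J ⊓ J') →+* URing 𝒪 ⧸ J) :=
    IsResAlg.isLocalHom_ringHom (A := URing 𝒪 ⧸ (J ⊓ J')) hJ.isTestRing.isResAlg _
  have hpB : IsLocalHom (Ideal.Quotient.factorₐ 𝒪 (inf_le_right : J ⊓ J' ≤ J') :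
      URing 𝒪 ⧸ (J ⊓ J') →+* URing 𝒪 ⧸ J') :=
    IsResAlg.isLocalHom_ringHom (A := URing 𝒪 ⧸ (J ⊓ J')) hJ'.isTestRing.isResAlg _
  have hdl : IsDLift (URing 𝒪 ⧸ (J ⊓ J')) 𝒟 D.ρm (tautQ (J ⊓ J')) :=
    IsDLift.of_fibreProduct (A := URing 𝒪 ⧸ J) (B := URing 𝒪 ⧸ J') (C := URing 𝒪 ⧸ (J ⊔ J'))
      (P := URing 𝒪 ⧸ (J ⊓ J')) h𝒟 hJ.isArtinianTestAlgebra hJ'.isArtinianTestAlgebra
      hS.isArtinianTestAlgebra hT.isArtinianTestAlgebra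
      (Ideal.Quotient.factorₐ 𝒪 (le_sup_left : J ≤ J ⊔ J'))
      (Ideal.Quotient.factorₐ 𝒪 (le_sup_right : J' ≤ J ⊔ J'))
      (Ideal.Quotient.factorₐ 𝒪 (inf_le_left : J ⊓ J' ≤ J))
      (Ideal.Quotient.factorₐ 𝒪 (inf_le_right : J ⊓ J' ≤ J')) hpA hpB
      (quotient_inf_comm J J') (quotient_inf_injective J J')
      (fun a b hab => quotient_inf_fibre J J' a b hab)
      (by rw [mapRep_factor_tautQ]; exact hJ.isDLift)
      (by rw [mapRep_factor_tautQ]; exact hJ'.isDLift)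
  refine ⟨hfin, hle, hpow, ?_, fun _ => hdl⟩
  -- rigidity: check the three equations in both factors
  have hinj := quotient_inf_injective (𝒪 := 𝒪) J J'
  have key : ∀ (e : Gal →₀ 𝒪) (i j : Fin 2) (c : URing 𝒪 ⧸ (J ⊓ J')),
      evalAt (tautQ J) e i j = Ideal.Quotient.factorₐ 𝒪 (inf_le_left : J ⊓ J' ≤ J) c →
      evalAt (tautQ J') e i j = Ideal.Quotient.factorₐ 𝒪 (inf_le_right : J ⊓ J' ≤ J') c →
      evalAt (tautQ (J ⊓ J')) e i j = c := by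
    intro e i j c h1 h2
    apply hinj
    simp only [Prod.mk.injEq]
    constructor
    · rw [← h1, ← mapRep_factor_tautQ (inf_le_left : J ⊓ J' ≤ J), evalAt_mapRep]
      rfl
    · rw [← h2, ← mapRep_factor_tautQ (inf_le_right : J ⊓ J' ≤ J'), evalAt_mapRep]
      rfl
  obtain ⟨a1, a2, a3⟩ := hJ.rigid
  obtain ⟨b1, b2, b3⟩ := hJ'.rigid
  exact ⟨key _ _ _ 0 (by rw [a1, map_zero]) (by rw [b1, map_zero]),
    key _ _ _ 0 (by rw [a2, map_zero]) (by rw [b2, map_zero]),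
    key _ _ _ 1 (by rw [a3, map_one]) (by rw [b3, map_one])⟩

/-! ### The base point -/

theorem isAdm_resIdeal [Finite (ResidueField 𝒪)] (h𝒟 : GaloisRep.IsDeformationCondition 𝒪 𝒟)
    (hbar : 𝒟 (GaloisRepAdic.ofResidualGaloisRep ρbar)) : IsAdm 𝒟 D 1 (resIdeal D.ρm) := by
  have hT : IsTestRing 𝒪 (ResidueField 𝒪) :=
    isTestRing_of_isArtinianTestAlgebra isArtinianTestAlgebra_residueField
  have hn : maximalIdeal (ResidueField 𝒪) ^ 1 = ⊥ := by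
    rw [pow_one]
    exact IsLocalRing.maximalIdeal_eq_bot
  have := isAdm_ker_ulift (D := D) h𝒟 hT hn (isDLift_bar h𝒟 D hbar) (rigid_bar D)
  rwa [← resIdeal_eq_ker] at this

/-- every `1`-admissible ideal is `resIdeal` -/
lemma IsAdm.eq_resIdeal {J : Ideal (URing 𝒪)} (hJ : IsAdm 𝒟 D 1 J) : J = resIdeal D.ρm :=
  le_antisymm hJ.le (by have := hJ.pow_le; rwa [Submodule.pow_one] at this)

/-! ### D2 applied to admissible ideals -/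

lemma adjoin_tautQ_eq_top (J : Ideal (URing 𝒪)) :
    Algebra.adjoin 𝒪 {x : URing 𝒪 ⧸ J | ∃ σ i j, x = tautQ J σ i j} = ⊤ := by
  have h := adjoin_taut_eq_top (𝒪 := 𝒪)
  have h2 := congrArg (Subalgebra.map (Ideal.Quotient.mkₐ 𝒪 J)) h
  rw [Algebra.map_top, (AlgHom.range_eq_top _).2 (Ideal.Quotient.mkₐ_surjective 𝒪 J),
    AlgHom.map_adjoin] at h2
  rw [← h2]
  congr 1
  ext x
  constructor
  · rintro ⟨σ, i, j, rfl⟩
    exact ⟨taut 𝒪 σ i j, ⟨σ, i, j, rfl⟩, rfl⟩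
  · rintro ⟨y, ⟨σ, i, j, rfl⟩, rfl⟩
    exact ⟨σ, i, j, rfl⟩

theorem IsAdm.card_le [Finite (ResidueField 𝒪)] [IsNoetherianRing 𝒪]
    (h𝒟 : GaloisRep.IsDeformationCondition 𝒪 𝒟)
    (hfin : GaloisRep.TangentFinite 𝒪 ρbar 𝒟) {n : ℕ} {J : Ideal (URing 𝒪)}
    (hJ : IsAdm 𝒟 D n J) :
    Nat.card (URing 𝒪 ⧸ J) ≤
      tangentBound 𝒪 (Nat.card (Quotient (tangentSetoid 𝒪 ρbar 𝒟))) n := by
  haveI : IsLocalRing (URing 𝒪 ⧸ J) := hJ.isLocalRing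
  exact (tangent_card_le_of_lift (A := URing 𝒪 ⧸ J) h𝒟 hfin D hJ.isArtinianTestAlgebra
    (tautQ J) hJ.isDLift hJ.rigid (adjoin_tautQ_eq_top J) hJ.maximalIdeal_pow).2

/-! ### D3: the smallest admissible ideal -/

variable (𝒟 D) in
/-- The level-`n` universal ideal: the intersection of all `n`-admissible ideals. -/
def Jn (n : ℕ) : Ideal (URing 𝒪) := sInf {J | IsAdm 𝒟 D n J}

lemma Jn_le {n : ℕ} {J : Ideal (URing 𝒪)} (hJ : IsAdm 𝒟 D n J) : Jn 𝒟 D n ≤ J :=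
  sInf_le hJ

lemma Jn_zero : Jn 𝒟 D 0 = ⊤ := by
  have : {J | IsAdm 𝒟 D 0 J} = ∅ := by
    refine Set.eq_empty_of_forall_notMem fun J (h : IsAdm 𝒟 D 0 J) => ?_
    have := h.pos
    omega
  rw [Jn, this, sInf_empty]

theorem isAdm_Jn [Finite (ResidueField 𝒪)] [IsNoetherianRing 𝒪]
    (h𝒟 : GaloisRep.IsDeformationCondition 𝒪 𝒟)
    (hbar : 𝒟 (GaloisRepAdic.ofResidualGaloisRep ρbar))
    (hfin : GaloisRep.TangentFinite 𝒪 ρbar 𝒟) {n : ℕ} (hn : 1 ≤ n) :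
    IsAdm 𝒟 D n (Jn 𝒟 D n) := by
  obtain ⟨J₀, hJ₀, hmin⟩ := exists_smallest_of_card_le {J | IsAdm 𝒟 D n J}
    ⟨resIdeal D.ρm, (isAdm_resIdeal h𝒟 hbar).mono h𝒟 hn⟩
    (fun I hI J hJ => IsAdm.inf h𝒟 hI hJ) (fun I hI => hI.finite)
    (tangentBound 𝒪 (Nat.card (Quotient (tangentSetoid 𝒪 ρbar 𝒟))) n)
    (fun I hI => hI.card_le h𝒟 hfin)
  have : Jn 𝒟 D n = J₀ := le_antisymm (Jn_le hJ₀) (le_sInf hmin)
  rw [this]
  exact hJ₀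

/-- **D4 (universal property).** The classifying map of a rigid `𝒟`-lift over a test algebra with
`𝔪 ^ n = 0` kills `Jn n`. -/
theorem Jn_le_ker_ulift (h𝒟 : GaloisRep.IsDeformationCondition 𝒪 𝒟) {n : ℕ}
    {A : Type} [CommRing A] [IsLocalRing A] [Algebra 𝒪 A] (hA : IsTestRing 𝒪 A)
    (hn : maximalIdeal A ^ n = ⊥) {r : Gal →* M2 A} (hr : IsDLift A 𝒟 D.ρm r)
    (hrig : Rigid D.e D.u r) : Jn 𝒟 D n ≤ RingHom.ker (ulift (𝒪 := 𝒪) r) :=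
  Jn_le (isAdm_ker_ulift h𝒟 hA hn hr hrig)

/-! ### The hypotheses of the limit ring construction -/

lemma Jn_anti (h𝒟 : GaloisRep.IsDeformationCondition 𝒪 𝒟) (n : ℕ) :
    Jn 𝒟 D (n + 1) ≤ Jn 𝒟 D n :=
  sInf_le_sInf fun _ hJ => IsAdm.mono h𝒟 hJ (Nat.le_succ n)

section Interface

variable [Finite (ResidueField 𝒪)] [IsNoetherianRing 𝒪]
  (h𝒟 : GaloisRep.IsDeformationCondition 𝒪 𝒟)
  (hbar : 𝒟 (GaloisRepAdic.ofResidualGaloisRep ρbar))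
  (hfin : GaloisRep.TangentFinite 𝒪 ρbar 𝒟)
include h𝒟 hbar hfin

lemma Jn_one : Jn 𝒟 D 1 = resIdeal D.ρm :=
  (isAdm_Jn (D := D) h𝒟 hbar hfin le_rfl).eq_resIdeal

lemma finite_quot_Jn {n : ℕ} (hn : 1 ≤ n) : Finite (URing 𝒪 ⧸ Jn 𝒟 D n) :=
  (isAdm_Jn (D := D) h𝒟 hbar hfin hn).finite

lemma exists_sub_mem_Jn_one (p : URing 𝒪) :
    ∃ x : 𝒪, p - algebraMap 𝒪 (URing 𝒪) x ∈ Jn 𝒟 D 1 := by
  rw [Jn_one h𝒟 hbar hfin]
  exact exists_sub_mem_resIdeal D.ρm p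

lemma algebraMap_mem_Jn_one_iff (x : 𝒪) :
    algebraMap 𝒪 (URing 𝒪) x ∈ Jn 𝒟 D 1 ↔ x ∈ maximalIdeal 𝒪 := by
  rw [Jn_one h𝒟 hbar hfin]
  exact algebraMap_mem_resIdeal_iff D.ρm x

lemma Jn_eq_sup_pow {n : ℕ} (hn : 1 ≤ n) :
    Jn 𝒟 D n = Jn 𝒟 D (n + 1) ⊔ Jn 𝒟 D 1 ^ n := by
  have h1 := isAdm_Jn (D := D) h𝒟 hbar hfin hn
  have h2 := isAdm_Jn (D := D) h𝒟 hbar hfin (Nat.le_succ_of_le hn)
  rw [Jn_one h𝒟 hbar hfin]
  apply le_antisymm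
  · refine Jn_le (h2.of_le h𝒟 le_sup_left (sup_le h2.le (Ideal.pow_le_self (by omega)))
      le_sup_right)
  · exact sup_le (Jn_anti h𝒟 n) h1.pow_le

end Interface

end IsAdmSec

end Fermat.Agent.S53

end
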