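/-
S53 part E (helper72): successive approximation in an adically precomplete ring.
-/
import Mathlib

set_option autoImplicit false

namespace Fermat.Agent.S53.Limit

variable {S : Type*} [CommRing S]

/-- Successive approximation: if `K m ≤ K (m+1) ⊔ 𝔵^m` and `𝔵^m ≤ K m`, a compatible family of
classes modulo `K m` comes from an element, which can moreover be chosen `𝔵^n₀`-close to `x n₀`. -/
theorem exists_approx (𝔵 : Ideal S) [IsPrecomplete 𝔵 S] (K : ℕ → Ideal S)
    (hK : ∀ m, K m ≤ K (m + 1) ⊔ 𝔵 ^ m) (h𝔵 : ∀ m, 𝔵 ^ m ≤ K m)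
    (hanti : ∀ m, K (m + 1) ≤ K m)
    (x : ℕ → S) (hx : ∀ m, x (m + 1) - x m ∈ K m) (n₀ : ℕ) :
    ∃ f : S, (∀ m, f - x m ∈ K m) ∧ f - x n₀ ∈ 𝔵 ^ n₀ := by
  classical
  -- antitone
  have hanti' : ∀ a b, a ≤ b → K b ≤ K a := by
    intro a b hab
    induction hab with
    | refl => exact le_rfl
    | step _ ih => exact (hanti _).trans ih
  -- telescoping of x
  have hx' : ∀ a b, a ≤ b → x b - x a ∈ K a := by
    intro a b hab
    induction hab with
    | refl => simp
    | @step b hb ih =>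
      have : x (b + 1) - x a = (x (b + 1) - x b) + (x b - x a) := by ring
      rw [this]
      exact (K a).add_mem (hanti' a b hb (hx b)) ih
  -- one step
  have step : ∀ k (z : S), z - x (n₀ + k) ∈ K (n₀ + k) →
      ∃ z' : S, z' - x (n₀ + k + 1) ∈ K (n₀ + k + 1) ∧ z' - z ∈ 𝔵 ^ (n₀ + k) := by
    intro k z hz
    have h1 : x (n₀ + k + 1) - z ∈ K (n₀ + k) := by
      have : x (n₀ + k + 1) - z = (x (n₀ + k + 1) - x (n₀ + k)) - (z - x (n₀ + k)) := by ring
      rw [this]
      exact (K _).sub_mem (hx _) hz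
    obtain ⟨κ, hκ, μ, hμ, hsum⟩ := Submodule.mem_sup.mp (hK _ h1)
    refine ⟨z + μ, ?_, by simpa using hμ⟩
    have : z + μ - x (n₀ + k + 1) = -κ := by
      have : μ = x (n₀ + k + 1) - z - κ := by rw [← hsum]; ring
      rw [this]; ring
    rw [this]
    exact (K _).neg_mem hκ
  -- the recursive sequence
  let next : ℕ → S → S := fun k z =>
    if h : z - x (n₀ + k) ∈ K (n₀ + k) then (step k z h).choose else z
  let Z : ℕ → S := fun k => Nat.rec (x n₀) (fun k z => next k z) k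
  have hZ0 : Z 0 = x n₀ := rfl
  have hZsucc : ∀ k, Z (k + 1) = next k (Z k) := fun k => rfl
  have hZmem : ∀ k, Z k - x (n₀ + k) ∈ K (n₀ + k) := by
    intro k
    induction k with
    | zero => simp [hZ0]
    | succ k ih =>
      rw [hZsucc]
      simp only [next, dif_pos ih]
      exact (step k (Z k) ih).choose_spec.1
  have hZs : ∀ k, Z (k + 1) - Z k ∈ 𝔵 ^ (n₀ + k) := by
    intro k
    rw [hZsucc]
    simp only [next, dif_pos (hZmem k)]
    exact (step k (Z k) (hZmem k)).choose_spec.2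
  -- telescoping of Z
  have hZ' : ∀ a b, a ≤ b → Z b - Z a ∈ 𝔵 ^ (n₀ + a) := by
    intro a b hab
    induction hab with
    | refl => simp
    | @step b hb ih =>
      have : Z (b + 1) - Z a = (Z (b + 1) - Z b) + (Z b - Z a) := by ring
      rw [this]
      exact (𝔵 ^ (n₀ + a)).add_mem
        (Ideal.pow_le_pow_right (Nat.add_le_add_left hb n₀) (hZs b)) ih
  -- the Cauchy sequence
  let w : ℕ → S := fun m => Z (m - n₀)
  have hw : ∀ {m n}, m ≤ n → w m ≡ w n [SMOD (𝔵 ^ m • ⊤ : Submodule S S)] := by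
    intro m n hmn
    rw [SModEq.sub_mem, smul_eq_mul, Ideal.mul_top]
    have h1 : m - n₀ ≤ n - n₀ := Nat.sub_le_sub_right hmn n₀
    have h2 := hZ' _ _ h1
    have h3 : Z (m - n₀) - Z (n - n₀) ∈ 𝔵 ^ (n₀ + (m - n₀)) := by
      have : Z (m - n₀) - Z (n - n₀) = -(Z (n - n₀) - Z (m - n₀)) := by ring
      rw [this]; exact (𝔵 ^ _).neg_mem h2
    exact Ideal.pow_le_pow_right (by omega) h3
  obtain ⟨f, hf⟩ := IsPrecomplete.prec ‹IsPrecomplete 𝔵 S› hw
  have hf' : ∀ m, w m - f ∈ 𝔵 ^ m := by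
    intro m
    have := hf m
    rwa [SModEq.sub_mem, smul_eq_mul, Ideal.mul_top] at this
  refine ⟨f, ?_, ?_⟩
  · intro m
    by_cases hm : n₀ ≤ m
    · -- f - x m = (f - w m) + (w m - x m)
      have e : f - x m = -(w m - f) + (Z (m - n₀) - x m) := by simp only [w]; ring
      rw [e]
      refine (K m).add_mem ((K m).neg_mem (h𝔵 m (hf' m))) ?_
      have h4 := hZmem (m - n₀)
      have e2 : n₀ + (m - n₀) = m := by omega
      rw [e2] at h4
      exact h4
    · have hm : m < n₀ := Nat.lt_of_not_le hm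
      -- f - x m = (f - w n₀) + (w n₀ - x n₀) + (x n₀ - x m)
      have hwn : w n₀ = x n₀ := by simp only [w, Nat.sub_self]; exact hZ0
      have e : f - x m = -(w n₀ - f) + (x n₀ - x m) := by rw [hwn]; ring
      rw [e]
      refine (K m).add_mem ((K m).neg_mem ?_) (hx' m n₀ hm.le)
      exact hanti' m n₀ hm.le (h𝔵 n₀ (hf' n₀))
  · have hwn : w n₀ = x n₀ := by simp only [w, Nat.sub_self]; exact hZ0
    have e : f - x n₀ = -(w n₀ - f) := by rw [hwn]; ring
    rw [e]
    exact (𝔵 ^ n₀).neg_mem (hf' n₀)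

end Fermat.Agent.S53.Limit
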