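/-
S53 part E (helper72): nilpotent Nakayama lemmas.
-/
import Mathlib

set_option autoImplicit false

namespace Fermat.Agent.S53.Limit

/-- generators of `I` mod `I²` generate `I` when `I` is nilpotent -/
theorem ideal_le_span_of_nilpotent {B : Type*} [CommRing B] (I : Ideal B) (n : ℕ) (hn : I ^ n = ⊥)
    (L : Ideal B) (h : I ≤ L ⊔ I ^ 2) : I ≤ L := by
  have key : ∀ k : ℕ, I ≤ L ⊔ I ^ (k + 2) := by
    intro k
    induction k with
    | zero => simpa using h
    | succ k ih =>
      refine ih.trans (sup_le le_sup_left ?_)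
      -- I^(k+2) = I^(k+1) * I ≤ I^(k+1) * (L ⊔ I^2)
      calc I ^ (k + 2) = I ^ (k + 1) * I := by rw [pow_succ]
        _ ≤ I ^ (k + 1) * (L ⊔ I ^ 2) := Ideal.mul_mono_right h
        _ = I ^ (k + 1) * L ⊔ I ^ (k + 1) * I ^ 2 := by rw [Ideal.mul_sup]
        _ ≤ L ⊔ I ^ (k + 1 + 2) := by
            refine sup_le_sup Ideal.mul_le_right ?_
            rw [← pow_add]
  have h1 : I ≤ L ⊔ I ^ (n + 2) := key n
  have h2 : I ^ (n + 2) = ⊥ := by
    rw [pow_add, hn, Ideal.bot_mul]
  simpa [h2] using h1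

theorem ideal_span_eq_of_nilpotent {B : Type*} [CommRing B] (I : Ideal B) (n : ℕ) (hn : I ^ n = ⊥)
    (T : Set B) (hT : T ⊆ I) (h : I ≤ Ideal.span T ⊔ I ^ 2) : Ideal.span T = I :=
  le_antisymm (Ideal.span_le.mpr hT) (ideal_le_span_of_nilpotent I n hn _ h)

/-- nilpotent Nakayama for subrings -/
theorem subring_eq_top_of_nilpotent {B : Type*} [CommRing B] (A : Subring B) (I : Ideal B) (n : ℕ)
    (hn : I ^ n = ⊥) (hAI : ∀ b : B, ∃ a ∈ A, b - a ∈ I)
    (hI : ∀ x ∈ I, ∃ a ∈ A, x - a ∈ I ^ 2) : A = ⊤ := by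
  -- key: every element of I^j is in A + I^(j+1)
  have step : ∀ j : ℕ, ∀ x ∈ I ^ (j + 1), ∃ a ∈ A, x - a ∈ I ^ (j + 2) := by
    intro j
    induction j with
    | zero =>
      intro x hx
      simpa using hI x (by simpa using hx)
    | succ j ih =>
      intro x hx
      rw [pow_succ] at hx
      refine Submodule.mul_induction_on hx ?_ ?_
      · intro u hu v hv
        obtain ⟨a, ha, hua⟩ := ih u hu
        obtain ⟨a', ha', hva⟩ := hI v hv
        refine ⟨a * a', A.mul_mem ha ha', ?_⟩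
        have haI : a ∈ I ^ (j + 1) := by
          have : a = u - (u - a) := by ring
          rw [this]
          exact (I ^ (j + 1)).sub_mem hu (Ideal.pow_le_pow_right (by omega) hua)
        have e : u * v - a * a' = (u - a) * v + a * (v - a') := by ring
        rw [e]
        refine (I ^ (j + 1 + 2)).add_mem ?_ ?_
        · have : (u - a) * v ∈ I ^ (j + 2) * I := Ideal.mul_mem_mul hua hv
          rwa [← pow_succ] at this
        · have : a * (v - a') ∈ I ^ (j + 1) * I ^ 2 := Ideal.mul_mem_mul haI hva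
          rwa [← pow_add] at this
      · intro x y ⟨a, ha, hxa⟩ ⟨b, hb, hyb⟩
        refine ⟨a + b, A.add_mem ha hb, ?_⟩
        have e : x + y - (a + b) = (x - a) + (y - b) := by ring
        rw [e]
        exact (I ^ (j + 1 + 2)).add_mem hxa hyb
  -- hence I^(j+1) ⊆ A + I^(j+1+k) for all k
  have step2 : ∀ k j : ℕ, ∀ x ∈ I ^ (j + 1), ∃ a ∈ A, x - a ∈ I ^ (j + 1 + k) := by
    intro k
    induction k with
    | zero => intro j x hx; exact ⟨0, A.zero_mem, by simpa using hx⟩
    | succ k ih =>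
      intro j x hx
      obtain ⟨a, ha, hxa⟩ := step j x hx
      obtain ⟨a', ha', hxa'⟩ := ih (j + 1) (x - a) hxa
      refine ⟨a + a', A.add_mem ha ha', ?_⟩
      have e : x - (a + a') = x - a - a' := by ring
      rw [e]
      have e2 : j + 1 + (k + 1) = j + 1 + 1 + k := by omega
      rw [e2]
      exact hxa'
  have hIA : ∀ x ∈ I, x ∈ A := by
    intro x hx
    obtain ⟨a, ha, hxa⟩ := step2 n 0 x (by simpa using hx)
    have h0 : I ^ (0 + 1 + n) = ⊥ := by
      rw [add_comm, pow_add, hn, Ideal.bot_mul]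
    rw [h0, Ideal.mem_bot, sub_eq_zero] at hxa
    rw [hxa]; exact ha
  rw [eq_top_iff]
  intro b _
  obtain ⟨a, ha, hba⟩ := hAI b
  have : b = a + (b - a) := by ring
  rw [this]
  exact A.add_mem ha (hIA _ hba)

end Fermat.Agent.S53.Limit
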