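/-
S53 part E2 (helper72): the limit ring `R = lim P/J n` as a quotient of a power series ring.
-/
import Mathlib
import Fermat.Prelude.Thm_IsAdicComplete_of_module_finite
import Fermat.Agent.S53.LimitNak
import Fermat.Agent.S53.LimitApprox

set_option autoImplicit false
set_option linter.unusedSectionVars false

namespace Fermat.Agent.S53.Limit

open IsLocalRing MvPowerSeries

section Psi

variable {𝒪 : Type} [CommRing 𝒪]
variable {P : Type} [CommRing P] [Algebra 𝒪 P]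
variable {σ : Type} [Finite σ]

/-- The `𝒪`-algebra hom `𝒪[X]/(X)^n → P/J` sending `X i` to `t i`, when `(t)^n ⊆ J`. -/
noncomputable def psiPoly (t : σ → P) (J : Ideal P) (n : ℕ)
    (h : ∀ a ∈ MvPolynomial.idealOfVars σ 𝒪 ^ n,
      ((Ideal.Quotient.mkₐ 𝒪 J).comp (MvPolynomial.aeval t)) a = 0) :
    MvPolynomial σ 𝒪 ⧸ (MvPolynomial.idealOfVars σ 𝒪 ^ n) →ₐ[𝒪] P ⧸ J :=
  Ideal.Quotient.liftₐ _ ((Ideal.Quotient.mkₐ 𝒪 J).comp (MvPolynomial.aeval t)) h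

/-- The `𝒪`-algebra hom `𝒪⟦X⟧ → P/J` sending `X i` to `t i`, when `(t)^n ⊆ J`. -/
noncomputable def psi (t : σ → P) (J : Ideal P) (n : ℕ)
    (h : ∀ a ∈ MvPolynomial.idealOfVars σ 𝒪 ^ n,
      ((Ideal.Quotient.mkₐ 𝒪 J).comp (MvPolynomial.aeval t)) a = 0) :
    MvPowerSeries σ 𝒪 →ₐ[𝒪] P ⧸ J :=
  (psiPoly t J n h).comp ((truncTotalAlgHom σ 𝒪 n).restrictScalars 𝒪)

lemma psi_apply (t : σ → P) (J : Ideal P) (n : ℕ)
    (h : ∀ a ∈ MvPolynomial.idealOfVars σ 𝒪 ^ n,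
      ((Ideal.Quotient.mkₐ 𝒪 J).comp (MvPolynomial.aeval t)) a = 0) (f : MvPowerSeries σ 𝒪) :
    psi t J n h f = Ideal.Quotient.mk J (MvPolynomial.aeval t (truncTotal n f)) := by
  rfl

end Psi

section Main

variable {𝒪 : Type} [CommRing 𝒪]
variable {P : Type} [CommRing P] [Algebra 𝒪 P]
variable {σ : Type} [Finite σ]

/-- The hypotheses of the limit construction. -/
structure Hyp (𝒪 : Type) [CommRing 𝒪] {P : Type} [CommRing P] [Algebra 𝒪 P] {σ : Type}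
    (t : σ → P) (𝔪 : Ideal P) (J : ℕ → Ideal P) : Prop where
  isMax : 𝔪.IsMaximal
  res : ∀ p : P, ∃ x : 𝒪, p - algebraMap 𝒪 P x ∈ 𝔪
  le : ∀ n, 1 ≤ n → J n ≤ 𝔪
  pow : ∀ n, 𝔪 ^ n ≤ J n
  succ : ∀ n, J n = J (n + 1) ⊔ 𝔪 ^ n
  tmem : ∀ i, t i ∈ 𝔪
  gen : 𝔪 ≤ Ideal.span (Set.range t) ⊔ J 2

variable {t : σ → P} {𝔪 : Ideal P} {J : ℕ → Ideal P}

namespace Hyp

variable (H : Hyp 𝒪 t 𝔪 J)
include H

lemma anti (n : ℕ) : J (n + 1) ≤ J n := by
  rw [H.succ n]; exact le_sup_left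

lemma anti' {a b : ℕ} (hab : a ≤ b) : J b ≤ J a := by
  induction hab with
  | refl => exact le_rfl
  | step _ ih => exact (H.anti _).trans ih

lemma J_two_le (n : ℕ) : J 2 ≤ J n ⊔ 𝔪 ^ 2 := by
  by_cases hn : n ≤ 2
  · exact (H.anti' hn).trans le_sup_left
  · have key : ∀ k, J 2 ≤ J (2 + k) ⊔ 𝔪 ^ 2 := by
      intro k
      induction k with
      | zero => exact le_sup_left
      | succ k ih =>
        refine ih.trans (sup_le ?_ le_sup_right)
        rw [H.succ (2 + k)]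
        refine sup_le le_sup_left ?_
        exact (Ideal.pow_le_pow_right (by omega)).trans le_sup_right
    have := key (n - 2)
    rwa [show 2 + (n - 2) = n by omega] at this

lemma aeval_mem (n : ℕ) (a : MvPolynomial σ 𝒪) (ha : a ∈ MvPolynomial.idealOfVars σ 𝒪 ^ n) :
    MvPolynomial.aeval t a ∈ 𝔪 ^ n := by
  have h1 : (MvPolynomial.idealOfVars σ 𝒪).map (MvPolynomial.aeval (R := 𝒪) t).toRingHom ≤ 𝔪 := by
    rw [MvPolynomial.idealOfVars, Ideal.map_span, Ideal.span_le]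
    rintro _ ⟨_, ⟨i, rfl⟩, rfl⟩
    simpa using H.tmem i
  have h2 : (MvPolynomial.idealOfVars σ 𝒪 ^ n).map (MvPolynomial.aeval (R := 𝒪) t).toRingHom
      ≤ 𝔪 ^ n := by
    rw [Ideal.map_pow]
    exact Ideal.pow_right_mono h1 n
  exact h2 (Ideal.mem_map_of_mem _ ha)

lemma psi_cond (n : ℕ) : ∀ a ∈ MvPolynomial.idealOfVars σ 𝒪 ^ n,
    ((Ideal.Quotient.mkₐ 𝒪 (J n)).comp (MvPolynomial.aeval t)) a = 0 := by
  intro a ha
  simp only [AlgHom.comp_apply, Ideal.Quotient.mkₐ_eq_mk]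
  rw [Ideal.Quotient.eq_zero_iff_mem]
  exact H.pow n (H.aeval_mem n a ha)

/-- The evaluation maps `𝒪⟦X⟧ → P / J n`. -/
noncomputable def Ψ (n : ℕ) : MvPowerSeries σ 𝒪 →ₐ[𝒪] P ⧸ J n :=
  psi t (J n) n (H.psi_cond n)

lemma Ψ_apply (n : ℕ) (f : MvPowerSeries σ 𝒪) :
    H.Ψ n f = Ideal.Quotient.mk (J n) (MvPolynomial.aeval t (truncTotal n f)) := rfl

lemma rep_sub_mem {n m : ℕ} (hnm : n ≤ m) (f : MvPowerSeries σ 𝒪) :
    MvPolynomial.aeval t (truncTotal m f) - MvPolynomial.aeval t (truncTotal n f) ∈ 𝔪 ^ n := by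
  rw [← map_sub]
  exact H.aeval_mem n _ (truncTotal_sub_truncTotal_mem_pow_idealOfVars hnm le_rfl f)

lemma Ψ_eq_mk_of_le {n m : ℕ} (hnm : n ≤ m) (f : MvPowerSeries σ 𝒪) :
    H.Ψ n f = Ideal.Quotient.mk (J n) (MvPolynomial.aeval t (truncTotal m f)) := by
  rw [Ψ_apply, eq_comm, Ideal.Quotient.eq]
  exact H.pow n (H.rep_sub_mem hnm f)

lemma Ψ_coe (n : ℕ) (p : MvPolynomial σ 𝒪) :
    H.Ψ n (p : MvPowerSeries σ 𝒪) = Ideal.Quotient.mk (J n) (MvPolynomial.aeval t p) := by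
  rw [Ψ_apply, Ideal.Quotient.eq, ← map_sub]
  refine H.pow n (H.aeval_mem n _ ?_)
  refine (MvPolynomial.mem_pow_idealOfVars_iff' ..).mpr fun x hx => ?_
  rw [MvPolynomial.coeff_sub, sub_eq_zero, coeff_truncTotal _ hx, MvPolynomial.coeff_coe]

lemma Ψ_X (n : ℕ) (i : σ) : H.Ψ n (X i) = Ideal.Quotient.mk (J n) (t i) := by
  have := H.Ψ_coe n (MvPolynomial.X i)
  rwa [MvPolynomial.coe_X, MvPolynomial.aeval_X] at this

lemma Ψ_algebraMap (n : ℕ) (x : 𝒪) :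
    H.Ψ n (algebraMap 𝒪 _ x) = Ideal.Quotient.mk (J n) (algebraMap 𝒪 P x) := by
  rw [AlgHom.commutes]; rfl

/-- compatibility of the `Ψ n` -/
lemma Ψ_compat {n m : ℕ} (hnm : n ≤ m) (f : MvPowerSeries σ 𝒪) (p : P)
    (h : H.Ψ m f = Ideal.Quotient.mk (J m) p) : H.Ψ n f = Ideal.Quotient.mk (J n) p := by
  rw [H.Ψ_eq_mk_of_le hnm, Ideal.Quotient.eq]
  rw [Ψ_apply, Ideal.Quotient.eq] at h
  exact H.anti' hnm h

/-- the kernels -/
noncomputable def K (n : ℕ) : Ideal (MvPowerSeries σ 𝒪) := RingHom.ker (H.Ψ n).toRingHom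

lemma mem_K (n : ℕ) (f : MvPowerSeries σ 𝒪) : f ∈ H.K n ↔ H.Ψ n f = 0 := Iff.rfl

lemma K_anti (n : ℕ) : H.K (n + 1) ≤ H.K n := by
  intro f hf
  rw [mem_K] at hf ⊢
  have := H.Ψ_compat (Nat.le_succ n) f 0 (by simpa using hf)
  simpa using this

/-- the image of the maximal ideal in `P / J n` -/
noncomputable def mB (_H : Hyp 𝒪 t 𝔪 J) (n : ℕ) : Ideal (P ⧸ J n) :=
  Ideal.map (Ideal.Quotient.mk (J n)) 𝔪

lemma mB_pow (n : ℕ) : H.mB n ^ n = ⊥ := by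
  rw [mB, ← Ideal.map_pow]
  exact Ideal.map_mk_eq_bot_of_le (H.pow n)

lemma mem_mB (n : ℕ) (p : P) (hp : p ∈ 𝔪) : Ideal.Quotient.mk (J n) p ∈ H.mB n :=
  Ideal.mem_map_of_mem _ hp

lemma exists_of_mem_mB_pow (n k : ℕ) (b : P ⧸ J n) (hb : b ∈ H.mB n ^ k) :
    ∃ p ∈ 𝔪 ^ k, Ideal.Quotient.mk (J n) p = b := by
  rw [mB, ← Ideal.map_pow] at hb
  exact (Ideal.mem_map_iff_of_surjective _ Ideal.Quotient.mk_surjective).mp hb

/-- `𝔵 = (X)` -/
noncomputable abbrev xI (𝒪 : Type) [CommRing 𝒪] (σ : Type) : Ideal (MvPowerSeries σ 𝒪) :=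
  Ideal.span (Set.range X)

lemma map_xI_le (n : ℕ) : Ideal.map (H.Ψ n).toRingHom (xI 𝒪 σ) ≤ H.mB n := by
  rw [xI, Ideal.map_span, Ideal.span_le]
  rintro _ ⟨_, ⟨i, rfl⟩, rfl⟩
  show (H.Ψ n) (X i) ∈ _
  rw [H.Ψ_X]
  exact H.mem_mB n _ (H.tmem i)

lemma xI_pow_le_K (n : ℕ) : xI 𝒪 σ ^ n ≤ H.K n := by
  intro f hf
  rw [mem_K]
  have h1 : (H.Ψ n).toRingHom f ∈ Ideal.map (H.Ψ n).toRingHom (xI 𝒪 σ ^ n) :=
    Ideal.mem_map_of_mem _ hf
  rw [Ideal.map_pow] at h1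
  have h2 := Ideal.pow_right_mono (H.map_xI_le n) n h1
  rw [H.mB_pow] at h2
  simpa using h2

/-- generators: `𝔪_B ≤ (t̄) ⊔ 𝔪_B²` -/
lemma mB_le (n : ℕ) :
    H.mB n ≤ Ideal.span (Set.range fun i => Ideal.Quotient.mk (J n) (t i)) ⊔ H.mB n ^ 2 := by
  rw [mB, Ideal.map_le_iff_le_comap]
  intro p hp
  rw [Ideal.mem_comap]
  obtain ⟨a, ha, b, hb, rfl⟩ := Submodule.mem_sup.mp (H.gen hp)
  rw [map_add]
  refine Ideal.add_mem _ (Ideal.mem_sup_left ?_) (Ideal.mem_sup_right ?_)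
  · have : Ideal.map (Ideal.Quotient.mk (J n)) (Ideal.span (Set.range t)) =
        Ideal.span (Set.range fun i => Ideal.Quotient.mk (J n) (t i)) := by
      rw [Ideal.map_span, ← Set.range_comp]; rfl
    rw [← this]
    exact Ideal.mem_map_of_mem _ ha
  · obtain ⟨c, hc, d, hd, rfl⟩ := Submodule.mem_sup.mp (H.J_two_le n hb)
    rw [map_add, Ideal.Quotient.eq_zero_iff_mem.mpr hc, zero_add, ← Ideal.map_pow]
    exact Ideal.mem_map_of_mem _ hd

lemma span_eq_mB (n : ℕ) :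
    Ideal.span (Set.range fun i => Ideal.Quotient.mk (J n) (t i)) = H.mB n :=
  ideal_span_eq_of_nilpotent (H.mB n) n (H.mB_pow n) _
    (by rintro _ ⟨i, rfl⟩; exact H.mem_mB n _ (H.tmem i)) (H.mB_le n)

lemma map_xI_eq (n : ℕ) : Ideal.map (H.Ψ n).toRingHom (xI 𝒪 σ) = H.mB n := by
  refine le_antisymm (H.map_xI_le n) ?_
  rw [← H.span_eq_mB n, Ideal.span_le]
  rintro _ ⟨i, rfl⟩
  change Ideal.Quotient.mk (J n) (t i) ∈ _
  rw [← H.Ψ_X n i]
  exact Ideal.mem_map_of_mem _ (Ideal.subset_span ⟨i, rfl⟩)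

/-- surjectivity of `Ψ n` -/
lemma Ψ_surjective (n : ℕ) : Function.Surjective (H.Ψ n) := by
  have hA : (H.Ψ n).range.toSubring = ⊤ := by
    refine subring_eq_top_of_nilpotent _ (H.mB n) n (H.mB_pow n) ?_ ?_
    · intro b
      obtain ⟨p, rfl⟩ := Ideal.Quotient.mk_surjective b
      obtain ⟨x, hx⟩ := H.res p
      refine ⟨Ideal.Quotient.mk (J n) (algebraMap 𝒪 P x), ⟨algebraMap 𝒪 _ x, H.Ψ_algebraMap n x⟩, ?_⟩
      rw [← map_sub]
      exact H.mem_mB n _ hx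
    · intro x hx
      -- x ∈ span (t̄) since span = mB
      rw [← H.span_eq_mB n] at hx
      -- elements of span (range t̄) are in A + mB^2
      refine Submodule.span_induction (p := fun x _ => ∃ a ∈ (H.Ψ n).range.toSubring,
        x - a ∈ H.mB n ^ 2) ?_ ?_ ?_ ?_ hx
      · rintro _ ⟨i, rfl⟩
        exact ⟨_, ⟨X i, H.Ψ_X n i⟩, by simp⟩
      · exact ⟨0, Subring.zero_mem _, by simp⟩
      · rintro x y _ _ ⟨a, ha, hxa⟩ ⟨b, hb, hyb⟩
        refine ⟨a + b, Subring.add_mem _ ha hb, ?_⟩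
        have e : x + y - (a + b) = (x - a) + (y - b) := by ring
        rw [e]; exact Ideal.add_mem _ hxa hyb
      · rintro c x hxs ⟨a, ha, hxa⟩
        -- c = c₀ + c₁ with c₀ ∈ A (image of 𝒪), c₁ ∈ mB
        obtain ⟨q, rfl⟩ := Ideal.Quotient.mk_surjective c
        obtain ⟨y, hy⟩ := H.res q
        have hxm : x ∈ H.mB n := by
          rw [← H.span_eq_mB n]; exact hxs
        have ham : a ∈ H.mB n := by
          have : a = x - (x - a) := by ring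
          rw [this]
          exact Ideal.sub_mem _ hxm (Ideal.pow_le_self (by norm_num) hxa)
        refine ⟨Ideal.Quotient.mk (J n) (algebraMap 𝒪 P y) * a,
          Subring.mul_mem _ ⟨algebraMap 𝒪 _ y, H.Ψ_algebraMap n y⟩ ha, ?_⟩
        have e : Ideal.Quotient.mk (J n) q • x - Ideal.Quotient.mk (J n) (algebraMap 𝒪 P y) * a
            = Ideal.Quotient.mk (J n) q * (x - a)
              + Ideal.Quotient.mk (J n) (q - algebraMap 𝒪 P y) * a := by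
          rw [smul_eq_mul, map_sub]; ring
        rw [e]
        refine Ideal.add_mem _ (Ideal.mul_mem_left _ _ hxa) ?_
        rw [pow_two]
        exact Ideal.mul_mem_mul (H.mem_mB n _ hy) ham
  intro b
  have : b ∈ (H.Ψ n).range.toSubring := by rw [hA]; trivial
  exact this

lemma K_succ (n : ℕ) : H.K n ≤ H.K (n + 1) ⊔ xI 𝒪 σ ^ n := by
  intro f hf
  rw [mem_K, Ψ_apply, Ideal.Quotient.eq_zero_iff_mem] at hf
  -- rep (n+1) f ∈ J n = J (n+1) ⊔ 𝔪^n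
  have h1 : MvPolynomial.aeval t (truncTotal (n + 1) f) ∈ J n := by
    have := H.pow n (H.rep_sub_mem (Nat.le_succ n) f)
    have e : MvPolynomial.aeval t (truncTotal (n + 1) f) =
        (MvPolynomial.aeval t (truncTotal (n + 1) f) - MvPolynomial.aeval t (truncTotal n f))
          + MvPolynomial.aeval t (truncTotal n f) := by ring
    rw [e]; exact Ideal.add_mem _ this hf
  rw [H.succ n] at h1
  obtain ⟨j, hj, μ, hμ, hsum⟩ := Submodule.mem_sup.mp h1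
  -- find g ∈ 𝔵^n with Ψ (n+1) g = mk μ
  have h2 : Ideal.Quotient.mk (J (n + 1)) μ ∈ Ideal.map (H.Ψ (n + 1)).toRingHom (xI 𝒪 σ ^ n) := by
    rw [Ideal.map_pow, H.map_xI_eq, mB, ← Ideal.map_pow]
    exact Ideal.mem_map_of_mem _ hμ
  obtain ⟨g, hg, hgμ⟩ := (Ideal.mem_map_iff_of_surjective _ (H.Ψ_surjective (n + 1))).mp h2
  have h3 : f - g ∈ H.K (n + 1) := by
    rw [mem_K, map_sub, sub_eq_zero]
    have : (H.Ψ (n + 1)) g = Ideal.Quotient.mk (J (n + 1)) μ := hgμ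
    rw [this, Ψ_apply, ← hsum, map_add, Ideal.Quotient.eq_zero_iff_mem.mpr hj, zero_add]
  have : f = (f - g) + g := by ring
  rw [this]
  exact Ideal.add_mem _ (Ideal.mem_sup_left h3) (Ideal.mem_sup_right hg)

/-- the intersection of the kernels -/
noncomputable def Kinf : Ideal (MvPowerSeries σ 𝒪) := ⨅ n, H.K n

lemma mem_Kinf (f : MvPowerSeries σ 𝒪) : f ∈ H.Kinf ↔ ∀ n, H.Ψ n f = 0 := by
  simp [Kinf, mem_K]

lemma exists_lift (p : P) : ∃ f : MvPowerSeries σ 𝒪, ∀ n, H.Ψ n f = Ideal.Quotient.mk (J n) p := by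
  choose x hx using fun n => H.Ψ_surjective n (Ideal.Quotient.mk (J n) p)
  have hcompat : ∀ m, x (m + 1) - x m ∈ H.K m := by
    intro m
    rw [mem_K, map_sub, sub_eq_zero, hx m]
    exact H.Ψ_compat (Nat.le_succ m) _ p (hx (m + 1))
  obtain ⟨f, hf, -⟩ := exists_approx (xI 𝒪 σ) H.K H.K_succ H.xI_pow_le_K H.K_anti x hcompat 0
  refine ⟨f, fun n => ?_⟩
  have := hf n
  rw [mem_K, map_sub, sub_eq_zero] at this
  rw [this, hx n]

lemma K_le (n : ℕ) : H.K n ≤ H.Kinf ⊔ xI 𝒪 σ ^ n := by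
  intro f hf
  classical
  let x : ℕ → MvPowerSeries σ 𝒪 := fun m => if m ≤ n then f else 0
  have hcompat : ∀ m, x (m + 1) - x m ∈ H.K m := by
    intro m
    simp only [x]
    by_cases h1 : m + 1 ≤ n
    · have h2 : m ≤ n := by omega
      simp [h1, h2]
    · by_cases h2 : m ≤ n
      · have h3 : m = n := by omega
        subst h3
        simp only [h1, if_false, le_refl, if_true, zero_sub]
        exact (H.K m).neg_mem hf
      · simp [h1, h2]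
  obtain ⟨g, hg, hgn⟩ := exists_approx (xI 𝒪 σ) H.K H.K_succ H.xI_pow_le_K H.K_anti x hcompat n
  have hxn : x n = f := by simp [x]
  rw [hxn] at hgn
  have hgK : g ∈ H.Kinf := by
    rw [Kinf, Ideal.mem_iInf]
    intro m
    -- g ∈ K (max m (n+1)) ≤ K m
    have h1 := hg (max m (n + 1))
    have hx0 : x (max m (n + 1)) = 0 := by
      simp only [x]
      rw [if_neg]; omega
    rw [hx0, sub_zero] at h1
    have hanti : ∀ a b, a ≤ b → H.K b ≤ H.K a := by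
      intro a b hab
      induction hab with
      | refl => exact le_rfl
      | step _ ih => exact (H.K_anti _).trans ih
    exact hanti m _ (le_max_left _ _) h1
  have : f = g + -(g - f) := by ring
  rw [this]
  exact Ideal.add_mem _ (Ideal.mem_sup_left hgK) (Ideal.mem_sup_right ((xI 𝒪 σ ^ n).neg_mem hgn))

end Hyp

end Main

end Fermat.Agent.S53.Limit
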