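/-
S53 part E2 (helper72): the limit ring `R = lim P/J n` as a quotient of a power series ring:
ring structure, locality, completeness, the map `ι : P → R`.
-/
import Mathlib
import Fermat.Prelude.Thm_IsAdicComplete_of_module_finite
import Fermat.Agent.S53.Limit

set_option autoImplicit false
set_option linter.unusedSectionVars false

namespace Fermat.Agent.S53.Limit

open IsLocalRing MvPowerSeries

section Ring

variable {𝒪 : Type} [CommRing 𝒪]
variable {P : Type} [CommRing P] [Algebra 𝒪 P]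
variable {σ : Type} [Finite σ]
variable {t : σ → P} {𝔪 : Ideal P} {J : ℕ → Ideal P}

namespace Hyp

variable (H : Hyp 𝒪 t 𝔪 J)
include H

/-- The limit ring. -/
abbrev LR (H : Hyp 𝒪 t 𝔪 J) : Type := MvPowerSeries σ 𝒪 ⧸ H.Kinf

/-- the induced maps `R → P / J n` -/
noncomputable def Ψbar (n : ℕ) : H.LR →ₐ[𝒪] P ⧸ J n :=
  Ideal.Quotient.liftₐ H.Kinf (H.Ψ n) (fun f hf => (H.mem_Kinf f).mp hf n)

lemma Ψbar_mk (n : ℕ) (f : MvPowerSeries σ 𝒪) :
    H.Ψbar n (Ideal.Quotient.mk H.Kinf f) = H.Ψ n f := rfl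

lemma Ψbar_surjective (n : ℕ) : Function.Surjective (H.Ψbar n) := by
  intro b
  obtain ⟨f, rfl⟩ := H.Ψ_surjective n b
  exact ⟨Ideal.Quotient.mk _ f, rfl⟩

lemma eq_zero_of_Ψbar (r : H.LR) (h : ∀ n, H.Ψbar n r = 0) : r = 0 := by
  obtain ⟨f, rfl⟩ := Ideal.Quotient.mk_surjective r
  rw [Ideal.Quotient.eq_zero_iff_mem, mem_Kinf]
  exact h

lemma eq_of_Ψbar (r r' : H.LR) (h : ∀ n, H.Ψbar n r = H.Ψbar n r') : r = r' := by
  rw [← sub_eq_zero]
  refine H.eq_zero_of_Ψbar _ fun n => ?_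
  rw [map_sub, h n, sub_self]

lemma Ψbar_compat {n m : ℕ} (hnm : n ≤ m) (r : H.LR) (p : P)
    (h : H.Ψbar m r = Ideal.Quotient.mk (J m) p) : H.Ψbar n r = Ideal.Quotient.mk (J n) p := by
  obtain ⟨f, rfl⟩ := Ideal.Quotient.mk_surjective r
  exact H.Ψ_compat hnm f p h

lemma Kinf_le_K (n : ℕ) : H.Kinf ≤ H.K n := iInf_le _ n

lemma ker_Ψbar (n : ℕ) :
    RingHom.ker (H.Ψbar n).toRingHom = Ideal.map (Ideal.Quotient.mk H.Kinf) (xI 𝒪 σ ^ n) := by
  ext r
  obtain ⟨f, rfl⟩ := Ideal.Quotient.mk_surjective r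
  constructor
  · intro hf
    have hf' : f ∈ H.K n := hf
    obtain ⟨a, ha, b, hb, rfl⟩ := Submodule.mem_sup.mp (H.K_le n hf')
    rw [map_add, Ideal.Quotient.eq_zero_iff_mem.mpr ha, zero_add]
    exact Ideal.mem_map_of_mem _ hb
  · intro hf
    obtain ⟨b, hb, hbf⟩ := (Ideal.mem_map_iff_of_surjective _ Ideal.Quotient.mk_surjective).mp hf
    rw [← hbf]
    exact H.xI_pow_le_K n hb

lemma J_one : J 1 = 𝔪 :=
  le_antisymm (H.le 1 le_rfl) (by simpa using H.pow 1)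

lemma one_notMem_Kinf : (1 : MvPowerSeries σ 𝒪) ∉ H.Kinf := by
  intro h
  have h1 := (H.mem_Kinf 1).mp h 1
  rw [map_one] at h1
  have h2 : (1 : P) ∈ J 1 := by
    rw [← Ideal.Quotient.eq_zero_iff_mem, map_one]; exact h1
  rw [H.J_one] at h2
  exact H.isMax.ne_top ((Ideal.eq_top_iff_one _).mpr h2)

instance nontrivial_LR : Nontrivial H.LR :=
  Ideal.Quotient.nontrivial_iff.mpr (fun h => H.one_notMem_Kinf (h ▸ Submodule.mem_top))

lemma ker_Ψbar_one_isMaximal : (RingHom.ker (H.Ψbar 1).toRingHom).IsMaximal := by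
  have : (J 1).IsMaximal := H.J_one ▸ H.isMax
  let _ : Field (P ⧸ J 1) := Ideal.Quotient.field (J 1)
  exact RingHom.ker_isMaximal_of_surjective (H.Ψbar 1).toRingHom (H.Ψbar_surjective 1)


section Local

variable [IsLocalRing 𝒪]

instance isLocalRing_LR : IsLocalRing H.LR :=
  IsLocalRing.of_surjective' (Ideal.Quotient.mk H.Kinf) Ideal.Quotient.mk_surjective

lemma maximalIdeal_eq_ker : maximalIdeal H.LR = RingHom.ker (H.Ψbar 1).toRingHom :=
  (IsLocalRing.eq_maximalIdeal H.ker_Ψbar_one_isMaximal).symm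

lemma maximalIdeal_eq_map : maximalIdeal H.LR = Ideal.map (Ideal.Quotient.mk H.Kinf) (xI 𝒪 σ) := by
  rw [H.maximalIdeal_eq_ker, H.ker_Ψbar 1, pow_one]

lemma maximalIdeal_pow_eq_ker (n : ℕ) :
    maximalIdeal H.LR ^ n = RingHom.ker (H.Ψbar n).toRingHom := by
  rw [H.maximalIdeal_eq_map, ← Ideal.map_pow, H.ker_Ψbar n]

lemma mem_maximalIdeal_pow_iff (n : ℕ) (r : H.LR) :
    r ∈ maximalIdeal H.LR ^ n ↔ H.Ψbar n r = 0 := by
  rw [H.maximalIdeal_pow_eq_ker n]; rfl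

lemma residue_surjective :
    Function.Surjective (IsLocalRing.residue H.LR ∘ algebraMap 𝒪 H.LR) := by
  intro y
  obtain ⟨r, rfl⟩ := IsLocalRing.residue_surjective y
  obtain ⟨p, hp⟩ := Ideal.Quotient.mk_surjective (H.Ψbar 1 r)
  obtain ⟨x, hx⟩ := H.res p
  refine ⟨x, ?_⟩
  rw [Function.comp_apply, eq_comm, ← sub_eq_zero, ← map_sub, IsLocalRing.residue_eq_zero_iff,
    ← pow_one (maximalIdeal H.LR), H.mem_maximalIdeal_pow_iff 1, map_sub, AlgHom.commutes, ← hp]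
  have e : algebraMap 𝒪 (P ⧸ J 1) x = Ideal.Quotient.mk (J 1) (algebraMap 𝒪 P x) := rfl
  rw [e, ← map_sub, Ideal.Quotient.eq_zero_iff_mem, H.J_one]
  exact hx


lemma isLocalHom_algebraMap : IsLocalHom (algebraMap 𝒪 H.LR) := by
  refine ⟨fun a ha => ?_⟩
  by_contra hu
  have hmem : a ∈ maximalIdeal 𝒪 := (IsLocalRing.mem_maximalIdeal a).mpr hu
  have hmax : (RingHom.ker ((IsLocalRing.residue H.LR).comp (algebraMap 𝒪 H.LR))).IsMaximal :=
    RingHom.ker_isMaximal_of_surjective _ H.residue_surjective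
  rw [← IsLocalRing.eq_maximalIdeal hmax, RingHom.mem_ker, RingHom.comp_apply,
    IsLocalRing.residue_eq_zero_iff] at hmem
  exact (IsLocalRing.mem_maximalIdeal _).mp hmem ha

end Local

section Complete

variable [IsLocalRing 𝒪] [IsNoetherianRing 𝒪]

lemma isAdicComplete_LR : IsAdicComplete (maximalIdeal H.LR) H.LR := by
  have h1 : IsAdicComplete (xI 𝒪 σ) H.LR := IsAdicComplete.of_module_finite (xI 𝒪 σ) H.LR
  have h2 : IsAdicComplete ((xI 𝒪 σ).map (algebraMap (MvPowerSeries σ 𝒪) H.LR)) H.LR :=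
    (IsAdicComplete.map_algebraMap_iff _ _).mpr h1
  rw [H.maximalIdeal_eq_map]
  exact h2

end Complete


section Iota

/-- `R → ∏ P / J n` -/
noncomputable def Φ : H.LR →ₐ[𝒪] (∀ n, P ⧸ J n) :=
  AlgHom.pi (fun n => H.Ψbar n)

lemma Φ_apply (r : H.LR) (n : ℕ) : H.Φ r n = H.Ψbar n r := rfl

lemma Φ_injective : Function.Injective H.Φ := by
  intro r r' h
  exact H.eq_of_Ψbar r r' fun n => congrFun h n

/-- `P → ∏ P / J n` -/
noncomputable def πP (_H : Hyp 𝒪 t 𝔪 J) : P →ₐ[𝒪] (∀ n, P ⧸ J n) :=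
  AlgHom.pi (fun n => Ideal.Quotient.mkₐ 𝒪 (J n))

lemma πP_apply (p : P) (n : ℕ) : H.πP p n = Ideal.Quotient.mk (J n) p := rfl

lemma πP_mem_range (p : P) : H.πP p ∈ H.Φ.range := by
  obtain ⟨f, hf⟩ := H.exists_lift p
  refine ⟨Ideal.Quotient.mk _ f, ?_⟩
  funext n
  exact hf n

/-- the canonical map `P → R` -/
noncomputable def ι : P →ₐ[𝒪] H.LR :=
  ((AlgEquiv.ofInjective H.Φ H.Φ_injective).symm : H.Φ.range →ₐ[𝒪] H.LR).comp
    (H.πP.codRestrict H.Φ.range H.πP_mem_range)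

lemma Φ_ι (p : P) : H.Φ (H.ι p) = H.πP p := by
  have h1 : (AlgEquiv.ofInjective H.Φ H.Φ_injective) (H.ι p) =
      H.πP.codRestrict H.Φ.range H.πP_mem_range p := by
    simp [ι]
  have h2 := congrArg Subtype.val h1
  simpa using h2

lemma Ψbar_ι (n : ℕ) (p : P) : H.Ψbar n (H.ι p) = Ideal.Quotient.mk (J n) p := by
  have := congrFun (H.Φ_ι p) n
  rwa [Φ_apply, πP_apply] at this

end Iota

section IotaLocal

variable [IsLocalRing 𝒪]

lemma ker_mk_comp_ι (n : ℕ) :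
    RingHom.ker ((Ideal.Quotient.mk (maximalIdeal H.LR ^ n)).comp (H.ι : P →+* H.LR)) = J n := by
  ext p
  rw [RingHom.mem_ker, RingHom.comp_apply, Ideal.Quotient.eq_zero_iff_mem]
  change H.ι p ∈ _ ↔ _
  rw [H.mem_maximalIdeal_pow_iff, H.Ψbar_ι, Ideal.Quotient.eq_zero_iff_mem]

lemma mk_comp_ι_surjective (n : ℕ) :
    Function.Surjective
      ((Ideal.Quotient.mk (maximalIdeal H.LR ^ n)).comp (H.ι : P →+* H.LR)) := by
  intro y
  obtain ⟨r, rfl⟩ := Ideal.Quotient.mk_surjective y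
  obtain ⟨p, hp⟩ := Ideal.Quotient.mk_surjective (H.Ψbar n r)
  refine ⟨p, ?_⟩
  rw [RingHom.comp_apply, Ideal.Quotient.eq]
  change H.ι p - r ∈ _
  rw [H.mem_maximalIdeal_pow_iff, map_sub, H.Ψbar_ι, hp, sub_self]

end IotaLocal

end Hyp

end Ring

end Fermat.Agent.S53.Limit

namespace Fermat.Agent.S53

open IsLocalRing

/-- **E2, official interface** (helper72): the limit ring `R = lim P / J n`.
`P` is an arbitrary `𝒪`-algebra with a maximal ideal `𝔪` with residue field covered by `𝒪`,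
`J n` ideals with `𝔪 ^ n ≤ J n ≤ 𝔪` (`n ≥ 1`), `J n = J (n+1) ⊔ 𝔪 ^ n`, and `𝔪` finitely generated
modulo `J 2`.  Then there is a complete Noetherian local `𝒪`-algebra `R` with residue field covered
by `𝒪`, and an `𝒪`-algebra map `ι : P → R` inducing isomorphisms `P / J n ≃ R / 𝔪_R ^ n`. -/
theorem exists_limitRing (𝒪 : Type) [CommRing 𝒪] [IsLocalRing 𝒪] [IsNoetherianRing 𝒪]
    [IsAdicComplete (maximalIdeal 𝒪) 𝒪]
    (P : Type) [CommRing P] [Algebra 𝒪 P] (𝔪 : Ideal P) (h𝔪 : 𝔪.IsMaximal)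
    (hres : Function.Surjective ((Ideal.Quotient.mk 𝔪).comp (algebraMap 𝒪 P)))
    (J : ℕ → Ideal P) (hJle : ∀ n, 1 ≤ n → J n ≤ 𝔪) (hpow : ∀ n, 𝔪 ^ n ≤ J n)
    (hsucc : ∀ n, J n = J (n + 1) ⊔ 𝔪 ^ n)
    (s : Finset P) (hs𝔪 : ∀ x ∈ s, x ∈ 𝔪) (hs : 𝔪 ≤ Ideal.span (s : Set P) ⊔ J 2) :
    ∃ (R : Type) (_ : CommRing R) (_ : IsLocalRing R) (_ : IsNoetherianRing R)
      (_ : IsAdicComplete (maximalIdeal R) R)
      (_ : Algebra 𝒪 R) (_ : IsLocalHom (algebraMap 𝒪 R)) (ι : P →ₐ[𝒪] R),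
      Function.Surjective (IsLocalRing.residue R ∘ algebraMap 𝒪 R) ∧
      (∀ n, Function.Surjective ((Ideal.Quotient.mk (maximalIdeal R ^ n)).comp (ι : P →+* R))) ∧
      (∀ n, RingHom.ker ((Ideal.Quotient.mk (maximalIdeal R ^ n)).comp (ι : P →+* R)) = J n) := by
  have H : Limit.Hyp 𝒪 (fun i : s => (i : P)) 𝔪 J :=
    { isMax := h𝔪
      res := fun p => by
        obtain ⟨x, hx⟩ := hres (Ideal.Quotient.mk 𝔪 p)
        refine ⟨x, ?_⟩
        rw [← Ideal.Quotient.eq, ← hx]; rfl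
      le := hJle
      pow := hpow
      succ := hsucc
      tmem := fun i => hs𝔪 i i.2
      gen := by
        have : Set.range (fun i : s => (i : P)) = (s : Set P) := by
          ext x; simp
        rw [this]; exact hs }
  exact ⟨H.LR, inferInstance, H.isLocalRing_LR, inferInstance, H.isAdicComplete_LR, inferInstance,
    H.isLocalHom_algebraMap, H.ι, H.residue_surjective, H.mk_comp_ι_surjective, H.ker_mk_comp_ι⟩

end Fermat.Agent.S53
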