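/-
S53 part E2 (helper72): the limit ring, in the "sketch" form of NOTES/S53.md
(`exists_limit_ring`, with the projections `q n : R → P / J n`).
-/
import Mathlib
import Fermat.Agent.S53.LimitRing

set_option autoImplicit false
set_option linter.unusedSectionVars false

namespace Fermat.Agent.S53.Limit

open IsLocalRing

section Cor

variable {𝒪 : Type} [CommRing 𝒪] [IsLocalRing 𝒪]
variable {P : Type} [CommRing P] [Algebra 𝒪 P]

/-- `J` with `J 0` replaced by `⊤`. -/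
noncomputable def shiftJ (J : ℕ → Ideal P) (n : ℕ) : Ideal P := if n = 0 then ⊤ else J n

lemma shiftJ_zero (J : ℕ → Ideal P) : shiftJ J 0 = ⊤ := if_pos rfl

lemma shiftJ_of_pos (J : ℕ → Ideal P) {n : ℕ} (hn : 1 ≤ n) : shiftJ J n = J n :=
  if_neg (by omega)

lemma shiftJ_max_le (J : ℕ → Ideal P) (hanti : ∀ n, J (n + 1) ≤ J n) (n : ℕ) :
    shiftJ J (max n 1) ≤ J n := by
  rw [shiftJ_of_pos J (le_max_right n 1)]
  rcases Nat.eq_zero_or_pos n with h | h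
  · subst h; exact hanti 0
  · rw [max_eq_left h]

lemma isMaximal_J_one (J : ℕ → Ideal P)
    (hres : ∀ p : P, ∃ x : 𝒪, p - algebraMap 𝒪 P x ∈ J 1)
    (hloc : ∀ x : 𝒪, algebraMap 𝒪 P x ∈ J 1 ↔ x ∈ maximalIdeal 𝒪) : (J 1).IsMaximal := by
  rw [Ideal.isMaximal_iff]
  refine ⟨fun h => ?_, fun I p hI hp hpI => ?_⟩
  · have := (hloc 1).mp (by simpa using h)
    exact (IsLocalRing.maximalIdeal.isMaximal 𝒪).ne_top ((Ideal.eq_top_iff_one _).mpr this)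
  · obtain ⟨x, hx⟩ := hres p
    have hxu : IsUnit x := by
      by_contra hu
      have : algebraMap 𝒪 P x ∈ J 1 := (hloc x).mpr ((IsLocalRing.mem_maximalIdeal x).mpr hu)
      apply hp
      have e : p = (p - algebraMap 𝒪 P x) + algebraMap 𝒪 P x := by ring
      rw [e]; exact Ideal.add_mem _ hx this
    obtain ⟨u, rfl⟩ := hxu
    have e : (1 : P) = algebraMap 𝒪 P ↑u⁻¹ * p
        - algebraMap 𝒪 P ↑u⁻¹ * (p - algebraMap 𝒪 P ↑u) := by
      rw [mul_sub, sub_sub_cancel, ← map_mul]; simp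
    rw [e]
    exact Ideal.sub_mem _ (Ideal.mul_mem_left _ _ hpI) (Ideal.mul_mem_left _ _ (hI hx))

omit [IsLocalRing 𝒪] [Algebra 𝒪 P] in
lemma exists_gens (J : ℕ → Ideal P) (hfin : Finite (P ⧸ J 2)) :
    ∃ (σ : Type) (_ : Finite σ) (t : σ → P),
      (∀ i, t i ∈ J 1) ∧ J 1 ≤ Ideal.span (Set.range t) ⊔ J 2 := by
  let T := {b : P ⧸ J 2 // b ∈ Ideal.map (Ideal.Quotient.mk (J 2)) (J 1)}
  have hT : ∀ b : T, ∃ p ∈ J 1, Ideal.Quotient.mk (J 2) p = b.1 := fun b =>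
    (Ideal.mem_map_iff_of_surjective _ Ideal.Quotient.mk_surjective).mp b.2
  choose f hf1 hf2 using hT
  refine ⟨T, inferInstance, f, hf1, fun x hx => ?_⟩
  let b : T := ⟨Ideal.Quotient.mk (J 2) x, Ideal.mem_map_of_mem _ hx⟩
  have h1 : x - f b ∈ J 2 := by
    rw [← Ideal.Quotient.eq, hf2 b]
  have e : x = f b + (x - f b) := by ring
  rw [e]
  exact Ideal.add_mem _ (Ideal.mem_sup_left (Ideal.subset_span ⟨b, rfl⟩)) (Ideal.mem_sup_right h1)

lemma hyp_shiftJ (J : ℕ → Ideal P)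
    (hanti : ∀ n, J (n + 1) ≤ J n)
    (hres : ∀ p : P, ∃ x : 𝒪, p - algebraMap 𝒪 P x ∈ J 1)
    (hloc : ∀ x : 𝒪, algebraMap 𝒪 P x ∈ J 1 ↔ x ∈ maximalIdeal 𝒪)
    (hpow : ∀ n, 1 ≤ n → J n = J (n + 1) ⊔ (J 1) ^ n)
    {σ : Type} (t : σ → P) (ht : ∀ i, t i ∈ J 1)
    (hgen : J 1 ≤ Ideal.span (Set.range t) ⊔ J 2) :
    Hyp 𝒪 t (J 1) (shiftJ J) where
  isMax := isMaximal_J_one J hres hloc
  res := hres
  le := fun n hn => by
    rw [shiftJ_of_pos J hn]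
    induction n, hn using Nat.le_induction with
    | base => exact le_rfl
    | succ n _ ih => exact (hanti n).trans ih
  pow := fun n => by
    rcases Nat.eq_zero_or_pos n with h | h
    · subst h; rw [shiftJ_zero]; exact le_top
    · rw [shiftJ_of_pos J h, hpow n h]; exact le_sup_right
  succ := fun n => by
    rcases Nat.eq_zero_or_pos n with h | h
    · subst h; rw [shiftJ_zero, pow_zero, Ideal.one_eq_top]; simp
    · rw [shiftJ_of_pos J h, shiftJ_of_pos J (Nat.le_succ_of_le h)]; exact hpow n h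
  tmem := ht
  gen := by rw [shiftJ_of_pos J (by norm_num : 1 ≤ 2)]; exact hgen

end Cor

section Proj

variable {𝒪 : Type} [CommRing 𝒪]
variable {P : Type} [CommRing P] [Algebra 𝒪 P]
variable {σ : Type} [Finite σ]
variable {t : σ → P} {J : ℕ → Ideal P}
variable (H : Hyp 𝒪 t (J 1) (shiftJ J)) (hanti : ∀ n, J (n + 1) ≤ J n)

/-- the projections `R → P / J n` -/
noncomputable def qProj (n : ℕ) : H.LR →ₐ[𝒪] P ⧸ J n :=
  (Ideal.Quotient.factorₐ 𝒪 (shiftJ_max_le J hanti n)).comp (H.Ψbar (max n 1))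

lemma qProj_eq (n : ℕ) (r : H.LR) (p : P)
    (h : H.Ψbar (max n 1) r = Ideal.Quotient.mk _ p) :
    qProj H hanti n r = Ideal.Quotient.mk (J n) p := by
  rw [qProj, AlgHom.comp_apply, h]
  rfl

lemma qProj_ι (n : ℕ) (p : P) : qProj H hanti n (H.ι p) = Ideal.Quotient.mk (J n) p :=
  qProj_eq H hanti n _ p (H.Ψbar_ι _ p)

lemma qProj_compat (n : ℕ) (r : H.LR) :
    Ideal.Quotient.factorₐ 𝒪 (hanti n) (qProj H hanti (n + 1) r) = qProj H hanti n r := by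
  obtain ⟨p, hp⟩ := Ideal.Quotient.mk_surjective (H.Ψbar (max (n + 1) 1) r)
  have h1 : max n 1 ≤ max (n + 1) 1 := by omega
  rw [qProj_eq H hanti (n + 1) r p hp.symm,
    qProj_eq H hanti n r p (H.Ψbar_compat h1 r p hp.symm)]
  rfl

lemma qProj_eq_zero_iff [IsLocalRing 𝒪] (n : ℕ) (hn : 1 ≤ n) (r : H.LR) :
    qProj H hanti n r = 0 ↔ r ∈ maximalIdeal H.LR ^ n := by
  obtain ⟨p, hp⟩ := Ideal.Quotient.mk_surjective (H.Ψbar (max n 1) r)
  rw [qProj_eq H hanti n r p hp.symm, H.mem_maximalIdeal_pow_iff,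
    H.Ψbar_compat (le_max_left n 1) r p hp.symm, Ideal.Quotient.eq_zero_iff_mem,
    Ideal.Quotient.eq_zero_iff_mem, shiftJ_of_pos J hn]

end Proj

end Fermat.Agent.S53.Limit

namespace Fermat.Agent.S53

open IsLocalRing

/-- **E2, sketch form, general version**: `𝒪` any Noetherian local ring, only `P / J 2` finite
is needed. -/
theorem exists_limit_ring_of_local (𝒪 : Type) [CommRing 𝒪] [IsLocalRing 𝒪] [IsNoetherianRing 𝒪]
    (P : Type) [CommRing P] [Algebra 𝒪 P] (J : ℕ → Ideal P)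
    (hanti : ∀ n, J (n + 1) ≤ J n)
    (hfin : Finite (P ⧸ J 2))
    (hres : ∀ p : P, ∃ x : 𝒪, p - algebraMap 𝒪 P x ∈ J 1)
    (hloc : ∀ x : 𝒪, algebraMap 𝒪 P x ∈ J 1 ↔ x ∈ maximalIdeal 𝒪)
    (hpow : ∀ n, 1 ≤ n → J n = J (n + 1) ⊔ (J 1) ^ n) :
    ∃ (R : Type) (_ : CommRing R) (_ : IsLocalRing R) (_ : IsNoetherianRing R)
      (_ : IsAdicComplete (maximalIdeal R) R) (_ : Algebra 𝒪 R) (ι : P →ₐ[𝒪] R)
      (q : ∀ n, R →ₐ[𝒪] P ⧸ J n),
      IsLocalHom (algebraMap 𝒪 R) ∧ Function.Surjective (residue R ∘ algebraMap 𝒪 R) ∧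
      (∀ n, (q n).comp ι = Ideal.Quotient.mkₐ 𝒪 (J n)) ∧
      (∀ n, (Ideal.Quotient.factorₐ 𝒪 (hanti n)).comp (q (n + 1)) = q n) ∧
      (∀ n, 1 ≤ n → RingHom.ker (q n : R →+* P ⧸ J n) = maximalIdeal R ^ n) := by
  obtain ⟨σ, hσ, t, ht, hgen⟩ := Limit.exists_gens J hfin
  have H : Limit.Hyp 𝒪 t (J 1) (Limit.shiftJ J) :=
    Limit.hyp_shiftJ J hanti hres hloc hpow t ht hgen
  refine ⟨H.LR, inferInstance, H.isLocalRing_LR, inferInstance, H.isAdicComplete_LR, inferInstance,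
    H.ι, Limit.qProj H hanti, H.isLocalHom_algebraMap, H.residue_surjective, ?_, ?_, ?_⟩
  · intro n
    ext p
    exact Limit.qProj_ι H hanti n p
  · intro n
    ext r
    exact Limit.qProj_compat H hanti n r
  · intro n hn
    ext r
    exact Limit.qProj_eq_zero_iff H hanti n hn r

/-- **E2, sketch form** (exactly as in NOTES/S53.md). -/
theorem exists_limit_ring (𝒪 : Type) [CommRing 𝒪] [IsDomain 𝒪] [IsDiscreteValuationRing 𝒪]
    [IsAdicComplete (maximalIdeal 𝒪) 𝒪] [Finite (ResidueField 𝒪)]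
    (P : Type) [CommRing P] [Algebra 𝒪 P] (J : ℕ → Ideal P)
    (hanti : ∀ n, J (n + 1) ≤ J n)
    (hfin : ∀ n, 1 ≤ n → Finite (P ⧸ J n))
    (hres : ∀ p : P, ∃ x : 𝒪, p - algebraMap 𝒪 P x ∈ J 1)
    (hloc : ∀ x : 𝒪, algebraMap 𝒪 P x ∈ J 1 ↔ x ∈ maximalIdeal 𝒪)
    (hpow : ∀ n, 1 ≤ n → J n = J (n + 1) ⊔ (J 1) ^ n) :
    ∃ (R : Type) (_ : CommRing R) (_ : IsLocalRing R) (_ : IsNoetherianRing R)
      (_ : IsAdicComplete (maximalIdeal R) R) (_ : Algebra 𝒪 R) (ι : P →ₐ[𝒪] R)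
      (q : ∀ n, R →ₐ[𝒪] P ⧸ J n),
      IsLocalHom (algebraMap 𝒪 R) ∧ Function.Surjective (residue R ∘ algebraMap 𝒪 R) ∧
      (∀ n, (q n).comp ι = Ideal.Quotient.mkₐ 𝒪 (J n)) ∧
      (∀ n, (Ideal.Quotient.factorₐ 𝒪 (hanti n)).comp (q (n + 1)) = q n) ∧
      (∀ n, 1 ≤ n → RingHom.ker (q n : R →+* P ⧸ J n) = maximalIdeal R ^ n) :=
  exists_limit_ring_of_local 𝒪 P J hanti (hfin 2 (by norm_num)) hres hloc hpow

end Fermat.Agent.S53
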