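/-
S53, piece GLUE: from the level-`n` universal quotients `URing 𝒪 ⧸ J n` (part D, `Level.lean`) and
a complete Noetherian local ring `R` with `R ⧸ 𝔪 ^ n ≃ URing 𝒪 ⧸ J n` (part E, `LimitCor.lean`) to
the six hypotheses of part F (`nonempty_deformationRingData_of_universal` in `Final.lean`), for the
representation `r := mapRep ι (taut 𝒪)`.  (Owner: helper59.)

Main results:
* `glue` : the six hypotheses of part F.
* `nonempty_deformationRingData_of_glue` : `glue` + part F.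
* `nonempty_deformationRingData_of_rigidDatum` : parts D + E + GLUE + F assembled
  (only a `RigidDatum` is needed as input).
-/
import Fermat.Agent.S53.URing
import Fermat.Agent.S53.Matrix
import Fermat.Agent.S53.Rigid
import Fermat.Agent.S53.TestAlg
import Fermat.Agent.S53.Transfer
import Fermat.Agent.S53.Final
import Fermat.Agent.S53.Level
import Fermat.Agent.S53.LimitCor

set_option autoImplicit false
set_option linter.unusedSectionVars false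
set_option linter.style.haveILetI false

namespace Fermat.Agent.S53

open IsLocalRing GaloisRep

section GlueCore

variable {𝒪 : Type} [CommRing 𝒪]
variable {R : Type} [CommRing R] [Algebra 𝒪 R]
variable {J : Ideal (URing 𝒪)}
variable (ι : URing 𝒪 →ₐ[𝒪] R) (q : R →ₐ[𝒪] URing 𝒪 ⧸ J)

lemma Glue.q_ι_apply (hqι : q.comp ι = Ideal.Quotient.mkₐ 𝒪 J) (x : URing 𝒪) :
    q (ι x) = Ideal.Quotient.mk J x :=
  congrArg (fun f : URing 𝒪 →ₐ[𝒪] URing 𝒪 ⧸ J => f x) hqι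

/-- The level representation is the image of `r = mapRep ι taut` under `q`. -/
lemma Glue.mapRep_q (hqι : q.comp ι = Ideal.Quotient.mkₐ 𝒪 J) :
    mapRep (A := R) (B := URing 𝒪 ⧸ J) (q : R →+* URing 𝒪 ⧸ J)
      (mapRep (ι : URing 𝒪 →+* R) (taut 𝒪)) = tautQ J := by
  ext σ i j
  exact Glue.q_ι_apply ι q hqι _

/-- Every element of `R` is congruent to an element of the image of `ι` modulo `ker q`. -/
lemma Glue.exists_sub_mem_ker (hqι : q.comp ι = Ideal.Quotient.mkₐ 𝒪 J) (y : R) :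
    ∃ x : URing 𝒪, y - ι x ∈ RingHom.ker (q : R →+* URing 𝒪 ⧸ J) := by
  obtain ⟨x, hx⟩ := Ideal.Quotient.mk_surjective (q y)
  refine ⟨x, ?_⟩
  rw [RingHom.mem_ker]
  show q (y - ι x) = 0
  rw [map_sub, Glue.q_ι_apply ι q hqι x, hx, sub_self]

/-- `ι` maps `J` into `ker q`. -/
lemma Glue.ι_mem_ker (hqι : q.comp ι = Ideal.Quotient.mkₐ 𝒪 J) {x : URing 𝒪} (hx : x ∈ J) :
    ι x ∈ RingHom.ker (q : R →+* URing 𝒪 ⧸ J) := by
  rw [RingHom.mem_ker]
  show q (ι x) = 0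
  rw [Glue.q_ι_apply ι q hqι x]
  exact Ideal.Quotient.eq_zero_iff_mem.mpr hx

/-- If `mk x = 0` then `ι x ∈ ker q`. -/
lemma Glue.ι_mem_ker_of_mk_eq_zero (hqι : q.comp ι = Ideal.Quotient.mkₐ 𝒪 J) {x : URing 𝒪}
    (hx : Ideal.Quotient.mk J x = 0) : ι x ∈ RingHom.ker (q : R →+* URing 𝒪 ⧸ J) :=
  Glue.ι_mem_ker ι q hqι (Ideal.Quotient.eq_zero_iff_mem.mp hx)

lemma Glue.mapRep_sub_one_apply {A B : Type} [CommRing A] [CommRing B] (f : A →+* B)
    (r : Gal →* M2 A) (σ : Gal) (i j : Fin 2) :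
    (mapRep f r σ - 1) i j = f ((r σ - 1) i j) := by
  simp only [Matrix.sub_apply, mapRep_apply, map_sub, Matrix.one_apply]
  split_ifs <;> simp

lemma Glue.evalAt_mapRep' {A B : Type} [CommRing A] [Algebra 𝒪 A] [CommRing B] [Algebra 𝒪 B]
    (r : Gal →* M2 A) (φ : A →ₐ[𝒪] B) (e : Gal →₀ 𝒪) (i j : Fin 2) :
    evalAt (mapRep (φ : A →+* B) r) e i j = φ (evalAt r e i j) := by
  have h1 : ∀ (C : Type) [CommRing C] [Algebra 𝒪 C] (s : Gal →* M2 C),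
      evalAt s e i j = e.sum fun σ c => algebraMap 𝒪 C c * s σ i j := by
    intro C _ _ s
    unfold evalAt
    rw [Finsupp.sum, Finsupp.sum, Matrix.sum_apply]
    rfl
  rw [h1, h1, Finsupp.sum, Finsupp.sum, map_sum]
  refine Finset.sum_congr rfl fun σ _ => ?_
  rw [map_mul, AlgHom.commutes]; rfl

end GlueCore

section GlueLocal

variable {R B : Type} [CommRing R] [IsLocalRing R] [CommRing B] [IsLocalRing B]

/-- A local map to a ring with `𝔪 ^ n = ⊥` kills `𝔪 ^ n`. -/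
lemma Glue.map_eq_zero_of_mem_pow (φ : R →+* B) (hφ : IsLocalHom φ) {n : ℕ}
    (hn : maximalIdeal B ^ n = ⊥) {y : R} (hy : y ∈ maximalIdeal R ^ n) : φ y = 0 := by
  have := map_maximalIdeal_pow_le φ hφ n hy
  rwa [hn, Ideal.mem_bot] at this

/-- In an Artinian test algebra some positive power of the maximal ideal vanishes. -/
lemma Glue.exists_pos_pow_eq_bot {𝒪 : Type} [CommRing 𝒪] [IsLocalRing 𝒪] [Algebra 𝒪 B]
    (hB : IsArtinianTestAlgebra 𝒪 B) : ∃ n, 1 ≤ n ∧ maximalIdeal B ^ n = ⊥ := by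
  haveI := hB.isArtinian
  obtain ⟨n, hn⟩ := (isArtinianRing_iff_isNilpotent_maximalIdeal B).mp ‹_›
  refine ⟨n + 1, by omega, ?_⟩
  rw [pow_succ, hn]
  exact Ideal.bot_mul _

end GlueLocal

section GlueMain

variable {𝒪 : Type} [CommRing 𝒪] [IsLocalRing 𝒪]
  {ρbar : ResidualGaloisRep (IsLocalRing.ResidueField 𝒪)}
  {𝒟 : ∀ ⦃A : Type⦄ [CommRing A] [IsLocalRing A] [Algebra 𝒪 A], GaloisRepAdic A → Prop}

variable (D : RigidDatum 𝒪 ρbar) (J : ℕ → Ideal (URing 𝒪))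
  (hadm : ∀ n, 1 ≤ n → IsAdm 𝒟 D n (J n))
  (huniv : ∀ n, 1 ≤ n → ∀ (B : Type) [CommRing B] [IsLocalRing B] [Algebra 𝒪 B],
    IsArtinianTestAlgebra 𝒪 B → maximalIdeal B ^ n = ⊥ → ∀ s : Gal →* M2 B,
      IsDLift B 𝒟 D.ρm s → Rigid D.e D.u s →
        J n ≤ RingHom.ker (ulift (𝒪 := 𝒪) s : URing 𝒪 →+* B))
  {R : Type} [CommRing R] [IsLocalRing R] [Algebra 𝒪 R]
  (ι : URing 𝒪 →ₐ[𝒪] R) (q : ∀ n, R →ₐ[𝒪] URing 𝒪 ⧸ J n)
  (hqι : ∀ n, (q n).comp ι = Ideal.Quotient.mkₐ 𝒪 (J n))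
  (hker : ∀ n, 1 ≤ n → RingHom.ker (q n : R →+* URing 𝒪 ⧸ J n) = maximalIdeal R ^ n)

include hadm hqι hker in
/-- GLUE 1: continuity of `r = mapRep ι taut`. -/
theorem Glue.matCont : MatCont R (mapRep (ι : URing 𝒪 →+* R) (taut 𝒪)) := by
  intro n
  rcases Nat.eq_zero_or_pos n with rfl | hn
  · refine ⟨⊥, inferInstance, fun σ _ i j => ?_⟩
    rw [pow_zero, Ideal.one_eq_top]
    exact Submodule.mem_top
  · haveI : IsLocalRing (URing 𝒪 ⧸ J n) := (hadm n hn).isLocalRing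
    obtain ⟨-, hc, -⟩ := (hadm n hn).isDLift
    obtain ⟨L, hL, h⟩ := hc n
    refine ⟨L, hL, fun σ hσ i j => ?_⟩
    have h1 := h σ hσ i j
    rw [(hadm n hn).maximalIdeal_pow, Ideal.mem_bot, tautQ_sub_one_apply] at h1
    rw [Glue.mapRep_sub_one_apply, ← hker n hn]
    exact Glue.ι_mem_ker_of_mk_eq_zero ι (q n) (hqι n) h1

include hadm hqι in
/-- GLUE 2: `r = mapRep ι taut` is framed. -/
theorem Glue.framed : Framed R D.ρm (mapRep (ι : URing 𝒪 →+* R) (taut 𝒪)) := by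
  haveI : IsLocalRing (URing 𝒪 ⧸ J 1) := (hadm 1 le_rfl).isLocalRing
  obtain ⟨hf, -, -⟩ := (hadm 1 le_rfl).isDLift
  rw [← Glue.mapRep_q ι (q 1) (hqι 1)] at hf
  exact Framed.of_map (A := R) (B := URing 𝒪 ⧸ J 1) (q 1) hf

include hadm hqι hker in
/-- GLUE 3: `r = mapRep ι taut` is rigid. -/
theorem Glue.rigid [IsAdicComplete (maximalIdeal R) R] :
    Rigid D.e D.u (mapRep (ι : URing 𝒪 →+* R) (taut 𝒪)) := by
  have key : ∀ (e : Gal →₀ 𝒪) (i j : Fin 2) (c : R) (c' : ∀ n, URing 𝒪 ⧸ J n),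
      (∀ n, q n c = c' n) →
      (∀ n, 1 ≤ n → evalAt (tautQ (J n)) e i j = c' n) →
      evalAt (mapRep (ι : URing 𝒪 →+* R) (taut 𝒪)) e i j = c := by
    intro e i j c c' hc h
    rw [← sub_eq_zero]
    apply Final.eq_zero_of_forall_mem_pow
    intro n
    have hle : maximalIdeal R ^ (n + 1) ≤ maximalIdeal R ^ n :=
      Ideal.pow_le_pow_right (Nat.le_succ n)
    apply hle
    rw [← hker (n + 1) (by omega), RingHom.mem_ker]
    show q (n + 1) (_ - c) = 0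
    have h2 := Glue.evalAt_mapRep' (A := R) (B := URing 𝒪 ⧸ J (n + 1))
      (mapRep (ι : URing 𝒪 →+* R) (taut 𝒪)) (q (n + 1)) e i j
    rw [Glue.mapRep_q ι (q (n + 1)) (hqι (n + 1)), h (n + 1) (by omega)] at h2
    rw [map_sub, hc, ← h2, sub_self]
  refine ⟨key D.e 1 0 0 (fun _ => 0) (fun n => map_zero _) fun n hn => (hadm n hn).rigid.1,
    key D.u 0 0 0 (fun _ => 0) (fun n => map_zero _) fun n hn => (hadm n hn).rigid.2.1,
    key D.u 1 0 1 (fun _ => 1) (fun n => map_one _) fun n hn => (hadm n hn).rigid.2.2⟩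

include hadm hqι hker in
/-- GLUE 4: every Artinian quotient of `r = mapRep ι taut` is a `𝒟`-lift. -/
theorem Glue.isDLift_map (h𝒟 : IsDeformationCondition 𝒪 𝒟)
    {B : Type} [CommRing B] [IsLocalRing B] [Algebra 𝒪 B] (hB : IsArtinianTestAlgebra 𝒪 B)
    (p : R →ₐ[𝒪] B) (hp : IsLocalHom (p : R →+* B)) :
    IsDLift B 𝒟 D.ρm (mapRep (p : R →+* B) (mapRep (ι : URing 𝒪 →+* R) (taut 𝒪))) := by
  obtain ⟨n, hn, hBn⟩ := Glue.exists_pos_pow_eq_bot hB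
  haveI : IsLocalRing (URing 𝒪 ⧸ J n) := (hadm n hn).isLocalRing
  have hA : IsArtinianTestAlgebra 𝒪 (URing 𝒪 ⧸ J n) := (hadm n hn).isArtinianTestAlgebra
  have hle : ∀ x ∈ J n, (p.comp ι) x = 0 := by
    intro x hx
    have h1 := Glue.ι_mem_ker ι (q n) (hqι n) hx
    rw [hker n hn] at h1
    exact Glue.map_eq_zero_of_mem_pow (p : R →+* B) hp hBn h1
  let p' : URing 𝒪 ⧸ J n →ₐ[𝒪] B := Ideal.Quotient.liftₐ (J n) (p.comp ι) hle
  have hp' : IsLocalHom (p' : URing 𝒪 ⧸ J n →+* B) :=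
    IsResAlg.isLocalHom_ringHom (A := URing 𝒪 ⧸ J n) (isResAlg_of_isArtinianTestAlgebra hB) p'
  have hmap : mapRep (p : R →+* B) (mapRep (ι : URing 𝒪 →+* R) (taut 𝒪)) =
      mapRep (A := URing 𝒪 ⧸ J n) (p' : URing 𝒪 ⧸ J n →+* B) (tautQ (J n)) := by
    ext σ i j
    show p (ι (taut 𝒪 σ i j)) = p' (Ideal.Quotient.mk (J n) (taut 𝒪 σ i j))
    exact ((Ideal.Quotient.liftₐ_apply (J n) (p.comp ι) hle _).trans
      (Ideal.Quotient.lift_mk (J n) _ _)).symm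
  rw [hmap]
  exact IsDLift.map (A := URing 𝒪 ⧸ J n) (B := B) h𝒟 hA hB p' hp' (hadm n hn).isDLift

include hadm hqι hker in
/-- GLUE 4': `r = mapRep ι taut` satisfies `𝒟`. -/
theorem Glue.isOfType (h𝒟 : IsDeformationCondition 𝒪 𝒟) [IsNoetherianRing R]
    [IsAdicComplete (maximalIdeal R) R] (hloc : IsLocalHom (algebraMap 𝒪 R))
    (hres : Function.Surjective (IsLocalRing.residue R ∘ algebraMap 𝒪 R))
    (hc : MatCont R (mapRep (ι : URing 𝒪 →+* R) (taut 𝒪))) :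
    𝒟 (ofMatrix (mapRep (ι : URing 𝒪 →+* R) (taut 𝒪)) hc) := by
  refine 𝒟_of_forall_artinian h𝒟 hloc hres hc fun B _ _ _ hB p hp _ => ?_
  exact (Glue.isDLift_map D J hadm ι q hqι hker h𝒟 hB p hp).2

include huniv hqι in
/-- GLUE 5: existence of the classifying map to an Artinian test algebra. -/
theorem Glue.exists_algHom {B : Type} [CommRing B] [IsLocalRing B] [Algebra 𝒪 B]
    (hB : IsArtinianTestAlgebra 𝒪 B) (s : Gal →* M2 B) (hs : IsDLift B 𝒟 D.ρm s)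
    (hrs : Rigid D.e D.u s) :
    ∃ φ : R →ₐ[𝒪] B, mapRep (φ : R →+* B) (mapRep (ι : URing 𝒪 →+* R) (taut 𝒪)) = s := by
  obtain ⟨n, hn, hBn⟩ := Glue.exists_pos_pow_eq_bot hB
  have hle : ∀ x ∈ J n, ulift (𝒪 := 𝒪) s x = 0 := fun x hx =>
    RingHom.mem_ker.mp (huniv n hn B hB hBn s hs hrs hx)
  let s' : URing 𝒪 ⧸ J n →ₐ[𝒪] B := Ideal.Quotient.liftₐ (J n) (ulift s) hle
  refine ⟨s'.comp (q n), ?_⟩
  ext σ i j
  show s' (q n (ι (taut 𝒪 σ i j))) = s σ i j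
  rw [Glue.q_ι_apply ι (q n) (hqι n)]
  exact (Ideal.Quotient.liftₐ_apply (J n) (ulift s) hle _).trans
    ((Ideal.Quotient.lift_mk (J n) _ _).trans (ulift_taut s σ i j))

include hqι hker in
/-- GLUE 6: uniqueness of the classifying map to an Artinian test algebra. -/
theorem Glue.algHom_ext {B : Type} [CommRing B] [IsLocalRing B] [Algebra 𝒪 B]
    (hB : IsArtinianTestAlgebra 𝒪 B) (φ ψ : R →ₐ[𝒪] B)
    (h : mapRep (φ : R →+* B) (mapRep (ι : URing 𝒪 →+* R) (taut 𝒪)) =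
      mapRep (ψ : R →+* B) (mapRep (ι : URing 𝒪 →+* R) (taut 𝒪))) : φ = ψ := by
  obtain ⟨n, hn, hBn⟩ := Glue.exists_pos_pow_eq_bot hB
  have hRB := isResAlg_of_isArtinianTestAlgebra hB
  have hφ : IsLocalHom (φ : R →+* B) := hRB.isLocalHom_ringHom φ
  have hψ : IsLocalHom (ψ : R →+* B) := hRB.isLocalHom_ringHom ψ
  have hι : φ.comp ι = ψ.comp ι := by
    apply uring_algHom_ext
    intro σ i j
    exact congrArg (fun ρ : Gal →* M2 B => ρ σ i j) h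
  ext y
  obtain ⟨x, hx⟩ := Glue.exists_sub_mem_ker ι (q n) (hqι n) y
  rw [hker n hn] at hx
  have h1 : φ (y - ι x) = 0 := Glue.map_eq_zero_of_mem_pow (φ : R →+* B) hφ hBn hx
  have h2 : ψ (y - ι x) = 0 := Glue.map_eq_zero_of_mem_pow (ψ : R →+* B) hψ hBn hx
  have h3 : φ (ι x) = ψ (ι x) := congrArg (fun f : URing 𝒪 →ₐ[𝒪] B => f x) hι
  rw [map_sub, sub_eq_zero] at h1 h2
  rw [h1, h2, h3]

include hadm huniv hqι hker in
/-- **Piece GLUE**: the six hypotheses of part F for `r = mapRep ι (taut 𝒪)`. -/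
theorem glue (h𝒟 : IsDeformationCondition 𝒪 𝒟) [IsNoetherianRing R]
    [IsAdicComplete (maximalIdeal R) R] (hloc : IsLocalHom (algebraMap 𝒪 R))
    (hres : Function.Surjective (IsLocalRing.residue R ∘ algebraMap 𝒪 R)) :
    ∃ hc : MatCont R (mapRep (ι : URing 𝒪 →+* R) (taut 𝒪)),
      Framed R D.ρm (mapRep (ι : URing 𝒪 →+* R) (taut 𝒪)) ∧
      Rigid D.e D.u (mapRep (ι : URing 𝒪 →+* R) (taut 𝒪)) ∧
      𝒟 (ofMatrix (mapRep (ι : URing 𝒪 →+* R) (taut 𝒪)) hc) ∧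
      (∀ (B : Type) [CommRing B] [IsLocalRing B] [Algebra 𝒪 B], IsArtinianTestAlgebra 𝒪 B →
        ∀ s : Gal →* M2 B, IsDLift B 𝒟 D.ρm s → Rigid D.e D.u s →
          ∃ φ : R →ₐ[𝒪] B, mapRep (φ : R →+* B) (mapRep (ι : URing 𝒪 →+* R) (taut 𝒪)) = s) ∧
      (∀ (B : Type) [CommRing B] [IsLocalRing B] [Algebra 𝒪 B], IsArtinianTestAlgebra 𝒪 B →
        ∀ φ ψ : R →ₐ[𝒪] B,
          mapRep (φ : R →+* B) (mapRep (ι : URing 𝒪 →+* R) (taut 𝒪)) =
            mapRep (ψ : R →+* B) (mapRep (ι : URing 𝒪 →+* R) (taut 𝒪)) → φ = ψ) := by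
  have hc := Glue.matCont D J hadm ι q hqι hker
  exact ⟨hc, Glue.framed D J hadm ι q hqι,
    Glue.rigid D J hadm ι q hqι hker,
    Glue.isOfType D J hadm ι q hqι hker h𝒟 hloc hres hc,
    fun B _ _ _ hB s hs hrs => Glue.exists_algHom D J huniv ι q hqι hB s hs hrs,
    fun B _ _ _ hB φ ψ h => Glue.algHom_ext J ι q hqι hker hB φ ψ h⟩

end GlueMain

section GlueFinal

variable {𝒪 : Type} [CommRing 𝒪] [IsDomain 𝒪] [IsDiscreteValuationRing 𝒪]
  [IsAdicComplete (IsLocalRing.maximalIdeal 𝒪) 𝒪] [Finite (IsLocalRing.ResidueField 𝒪)]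
  {ρbar : ResidualGaloisRep (IsLocalRing.ResidueField 𝒪)}
  {𝒟 : ∀ ⦃A : Type⦄ [CommRing A] [IsLocalRing A] [Algebra 𝒪 A], GaloisRepAdic A → Prop}

/-- **GLUE + F**: admissible level ideals `J n` with the universal property (part D) and a limit
ring (part E) give a universal deformation ring. -/
theorem nonempty_deformationRingData_of_glue (h𝒟 : IsDeformationCondition 𝒪 𝒟)
    (habs : ρbar.IsAbsolutelyIrreducible) (D : RigidDatum 𝒪 ρbar) (J : ℕ → Ideal (URing 𝒪))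
    (hadm : ∀ n, 1 ≤ n → IsAdm 𝒟 D n (J n))
    (huniv : ∀ n, 1 ≤ n → ∀ (B : Type) [CommRing B] [IsLocalRing B] [Algebra 𝒪 B],
      IsArtinianTestAlgebra 𝒪 B → maximalIdeal B ^ n = ⊥ → ∀ s : Gal →* M2 B,
        IsDLift B 𝒟 D.ρm s → Rigid D.e D.u s →
          J n ≤ RingHom.ker (ulift (𝒪 := 𝒪) s : URing 𝒪 →+* B))
    (R : Type) [CommRing R] [IsLocalRing R] [IsNoetherianRing R]
    [IsAdicComplete (maximalIdeal R) R] [Algebra 𝒪 R] (hloc : IsLocalHom (algebraMap 𝒪 R))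
    (hres : Function.Surjective (IsLocalRing.residue R ∘ algebraMap 𝒪 R))
    (ι : URing 𝒪 →ₐ[𝒪] R) (q : ∀ n, R →ₐ[𝒪] URing 𝒪 ⧸ J n)
    (hqι : ∀ n, (q n).comp ι = Ideal.Quotient.mkₐ 𝒪 (J n))
    (hker : ∀ n, 1 ≤ n → RingHom.ker (q n : R →+* URing 𝒪 ⧸ J n) = maximalIdeal R ^ n) :
    Nonempty (DeformationRingData 𝒪 ρbar 𝒟) := by
  obtain ⟨hc, hf, hr, hD, hex, hext⟩ :=
    glue D J hadm huniv ι q hqι hker h𝒟 hloc hres
  haveI := hloc
  exact nonempty_deformationRingData_of_universal h𝒟 D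
    (mapRep (ι : URing 𝒪 →+* R) (taut 𝒪)) hex hext habs hres hc hf hr hD

/-- **D + E + GLUE + F**: a rigid datum for `ρbar` gives a universal deformation ring. -/
theorem nonempty_deformationRingData_of_rigidDatum (h𝒟 : IsDeformationCondition 𝒪 𝒟)
    (habs : ρbar.IsAbsolutelyIrreducible)
    (hbar : 𝒟 (GaloisRepAdic.ofResidualGaloisRep ρbar))
    (hfin : TangentFinite 𝒪 ρbar 𝒟) (D : RigidDatum 𝒪 ρbar) :
    Nonempty (DeformationRingData 𝒪 ρbar 𝒟) := by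
  obtain ⟨R, _, _, _, _, _, ι, q, hloc, hres, hqι, -, hker⟩ :=
    exists_limit_ring 𝒪 (URing 𝒪) (Jn 𝒟 D) (Jn_anti h𝒟)
      (fun n hn => finite_quot_Jn h𝒟 hbar hfin hn)
      (exists_sub_mem_Jn_one h𝒟 hbar hfin)
      (algebraMap_mem_Jn_one_iff h𝒟 hbar hfin)
      (fun n hn => Jn_eq_sup_pow h𝒟 hbar hfin hn)
  refine nonempty_deformationRingData_of_glue h𝒟 habs D (Jn 𝒟 D)
    (fun n hn => isAdm_Jn h𝒟 hbar hfin hn) ?_ R hloc hres ι q hqι hker
  intro n _ B _ _ _ hB hBn s hs hrs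
  exact Jn_le_ker_ulift h𝒟 (isTestRing_of_isArtinianTestAlgebra hB) hBn hs hrs

end GlueFinal

end Fermat.Agent.S53
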