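/-
S53: small wiring lemmas between Level (part D) and LimitRing (part E).  (Owner: helper53.)
-/
import Mathlib

set_option autoImplicit false

namespace Fermat.Agent.S53

/-- If `P ⧸ J` is finite, any ideal `𝔪` is generated modulo `J` by a finite subset of `𝔪`. -/
theorem exists_finset_le_span_sup {P : Type} [CommRing P] (𝔪 J : Ideal P) [Finite (P ⧸ J)] :
    ∃ s : Finset P, (∀ x ∈ s, x ∈ 𝔪) ∧ 𝔪 ≤ Ideal.span (s : Set P) ⊔ J := by
  classical
  have hfin : (Set.univ : Set (P ⧸ J)).Finite := Set.finite_univ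
  let T : Set (P ⧸ J) := {t | ∃ x ∈ 𝔪, Ideal.Quotient.mk J x = t}
  have hT : T.Finite := hfin.subset (Set.subset_univ _)
  have hchoose : ∀ t : T, ∃ x ∈ 𝔪, Ideal.Quotient.mk J x = (t : P ⧸ J) := fun t => t.2
  choose f hf𝔪 hf using hchoose
  haveI : Fintype T := hT.fintype
  refine ⟨Finset.univ.image f, ?_, ?_⟩
  · intro x hx
    obtain ⟨t, -, rfl⟩ := Finset.mem_image.1 hx
    exact hf𝔪 t
  · intro x hx
    let t : T := ⟨Ideal.Quotient.mk J x, x, hx, rfl⟩
    have h1 : x - f t ∈ J := by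
      rw [← Ideal.Quotient.eq, hf t]
    have h2 : f t ∈ Ideal.span ((Finset.univ.image f : Finset P) : Set P) :=
      Ideal.subset_span (Finset.mem_coe.2 (Finset.mem_image.2 ⟨t, Finset.mem_univ _, rfl⟩))
    have : x = f t + (x - f t) := by ring
    rw [this]
    exact Ideal.add_mem _ (Ideal.mem_sup_left h2) (Ideal.mem_sup_right h1)

end Fermat.Agent.S53
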